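/-
T1B / TORIC50 (helper11): coordinate-level Yoneda lemma for nilpotent points.

A family of maps `ψ_{R,m} : m^σ → m^τ`, defined for all `W`-algebras `R` (in the universe of `W`) and
all nilpotent ideals `m ⊆ R`, and natural for `W`-algebra maps respecting the ideals, is given by a
UNIQUE family of power series `b : τ → W⟦σ⟧` without constant term:
`ψ_{R,m} a = IFT50.apply m hN b hb a` for every `hN : m ^ N = ⊥`.
(`NatMap.series`, `NatMap.toFun_eq_apply`, `NatMap.series_unique`, `eq_of_apply_eq`.)
Conversely every such family defines a natural map (`NatMap.ofSeries`); identity and composition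
correspond to `X` and `IFT50.compFam`; on points of square zero ideals the map is the linear map
given by the Jacobian `IFT50.jac` (`NatMap.toFun_sq_zero`).
-/
import Mathlib
import Fermat.Agent.T1.IFT50.Jac
import Fermat.Agent.T1.IFT50.Adic
import Fermat.Agent.T1.CechFormal70.GroupLaw

set_option autoImplicit false
set_option maxHeartbeats 400000
set_option linter.unusedSectionVars false

noncomputable section

namespace Fermat.Agent.T1B.Toric11

open MvPowerSeries Fermat.Agent.S53 Fermat.Agent.T1.IFT50 Fermat.Agent.T1.CechFormal70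

universe u

/-! ### Generalities on `IFT50.apply` -/

section Apply

variable {W : Type*} [CommRing W] {R : Type*} [CommRing R] [Algebra W R]
variable {σ τ : Type*} [Finite σ] [Finite τ]

/-- `IFT50.evalI` does not depend on the exponent of nilpotency. -/
theorem evalI_irrel (m : Ideal R) {N N' : ℕ} (hN : m ^ N = ⊥) (hN' : m ^ N' = ⊥) (a : σ → m) :
    (evalI m hN a : MvPowerSeries σ W →ₐ[W] R) = evalI m hN' a :=
  eq_evalI m hN' _ a (fun i => evalI_X m hN a i)

/-- `IFT50.apply` does not depend on the exponent of nilpotency. -/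
theorem apply_irrel (m : Ideal R) {N N' : ℕ} (hN : m ^ N = ⊥) (hN' : m ^ N' = ⊥)
    (b : τ → MvPowerSeries σ W) (hb : ∀ k, constantCoeff (b k) = 0) (a : σ → m) :
    apply m hN b hb a = apply m hN' b hb a := by
  funext k
  apply Subtype.ext
  rw [coe_apply, coe_apply, evalI_irrel m hN hN']

/-- `evalI` only sees the truncation. -/
theorem evalI_eq_aeval_truncTotal (m : Ideal R) {N : ℕ} (hN : m ^ N = ⊥) (a : σ → m)
    (f : MvPowerSeries σ W) :
    evalI m hN a f = MvPolynomial.aeval (fun i => (a i : R)) (truncTotal N f) := rfl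

/-- two polynomials congruent modulo `(X)^N` have the same value at a point of `m`, `m^N = ⊥`. -/
theorem aeval_eq_of_sub_mem (m : Ideal R) {N : ℕ} (hN : m ^ N = ⊥) (a : σ → m)
    {p q : MvPolynomial σ W} (h : p - q ∈ MvPolynomial.idealOfVars σ W ^ N) :
    MvPolynomial.aeval (fun i => (a i : R)) p = MvPolynomial.aeval (fun i => (a i : R)) q := by
  have h0 := aeval_eq_zero_of_mem_pow_idealOfVars (fun i => (a i : R)) N
    (span_range_pow_eq_bot m hN a) _ h
  rwa [map_sub, sub_eq_zero] at h0

/-- a power series of order `≥ N` vanishes at points of `m`, `m ^ N = ⊥`. -/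
theorem evalI_eq_zero_of_le_order (m : Ideal R) {N : ℕ} (hN : m ^ N = ⊥) (a : σ → m)
    {f : MvPowerSeries σ W} (hf : (N : ℕ∞) ≤ f.order) : evalI m hN a f = 0 := by
  rw [evalI_eq_aeval_truncTotal]
  have : truncTotal N f = 0 := by
    ext e
    rw [MvPolynomial.coeff_zero]
    by_cases he : Finsupp.degree e < N
    · rw [coeff_truncTotal _ he]
      apply coeff_of_lt_order
      refine lt_of_lt_of_le ?_ hf
      exact_mod_cast he
    · exact coeff_truncTotal_eq_zero _ (not_lt.mp he)
  rw [this, map_zero]

end Apply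

/-! ### Natural maps on nilpotent points -/

/-- A natural family of maps `m^σ → m^τ` on points with values in nilpotent ideals of
`W`-algebras. -/
structure NatMap (W : Type u) [CommRing W] (σ τ : Type) : Type (u + 1) where
  /-- the maps -/
  toFun : ∀ (R : Type u) [CommRing R] [Algebra W R] (m : Ideal R), IsNilpotent m →
    (σ → m) → (τ → m)
  /-- naturality -/
  natural : ∀ {R R' : Type u} [CommRing R] [CommRing R'] [Algebra W R] [Algebra W R']
    (f : R →ₐ[W] R') {m : Ideal R} {m' : Ideal R'} (hm : IsNilpotent m) (hm' : IsNilpotent m')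
    (h : ∀ x ∈ m, f x ∈ m') (a : σ → m),
    toFun R' m' hm' (mapPt m m' f h a) = mapPt m m' f h (toFun R m hm a)

namespace NatMap

variable {W : Type u} [CommRing W] {σ τ υ : Type} [Finite σ] [Finite τ] [Finite υ]

section Series

variable (ψ : NatMap W σ τ)

/-- the value at the universal point of `W[X]/(X)^N`. -/
def univ (N : ℕ) : τ → Um W σ N :=
  ψ.toFun (UR W σ N) (Um W σ N) (Um_nilpotent W σ N) (uX W σ N)

theorem exists_poly (N : ℕ) (k : τ) :
    ∃ p ∈ aug W σ, Ideal.Quotient.mk ((aug W σ) ^ N) p = (ψ.univ N k : UR W σ N) :=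
  (Ideal.mem_map_iff_of_surjective _ Ideal.Quotient.mk_surjective).1 (ψ.univ N k).2

/-- polynomials representing the universal value at level `N`. -/
def poly (N : ℕ) (k : τ) : MvPolynomial σ W := Classical.choose (ψ.exists_poly N k)

theorem poly_mem (N : ℕ) (k : τ) : ψ.poly N k ∈ aug W σ :=
  (Classical.choose_spec (ψ.exists_poly N k)).1

theorem mk_poly (N : ℕ) (k : τ) :
    Ideal.Quotient.mk ((aug W σ) ^ N) (ψ.poly N k) = (ψ.univ N k : UR W σ N) :=
  (Classical.choose_spec (ψ.exists_poly N k)).2

/-- **Yoneda, truncated form**: the value at any point of `m`, `m ^ N = ⊥`, is the value of the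
level-`N` polynomials. -/
theorem toFun_eq_aeval {R : Type u} [CommRing R] [Algebra W R] {m : Ideal R} {N : ℕ}
    (hN : m ^ N = ⊥) (a : σ → m) (k : τ) :
    (ψ.toFun R m (nilp hN) a k : R) = MvPolynomial.aeval (fun j => (a j : R)) (ψ.poly N k) := by
  set f : UR W σ N →ₐ[W] R := evalHom hN (fun j => (a j : R)) (fun j => (a j).2) with hf
  have h : ∀ x ∈ Um W σ N, f x ∈ m := fun x hx =>
    Um_le_comap_evalHom hN (fun j => (a j : R)) (fun j => (a j).2) hx
  have ha : mapPt (Um W σ N) m f h (uX W σ N) = a := by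
    funext j
    apply Subtype.ext
    show f (Ideal.Quotient.mk _ (MvPolynomial.X j)) = _
    rw [hf, evalHom_mk, MvPolynomial.aeval_X]
  have hnat := ψ.natural f (Um_nilpotent W σ N) (nilp hN) h (uX W σ N)
  rw [ha] at hnat
  rw [hnat]
  show f (ψ.univ N k : UR W σ N) = _
  rw [← ψ.mk_poly N k, hf, evalHom_mk]

/-- compatibility of the levels. -/
theorem poly_sub_mem {N N' : ℕ} (h : N ≤ N') (k : τ) :
    ψ.poly N' k - ψ.poly N k ∈ (aug W σ) ^ N := by
  have hN' : (Um W σ N) ^ N' = ⊥ :=
    eq_bot_iff.2 (Um_pow W σ N ▸ Ideal.pow_le_pow_right h)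
  have h1 := ψ.toFun_eq_aeval hN' (uX W σ N) k
  have h2 : (ψ.toFun (UR W σ N) (Um W σ N) (nilp hN') (uX W σ N) k : UR W σ N)
      = Ideal.Quotient.mk ((aug W σ) ^ N) (ψ.poly N k) := (ψ.mk_poly N k).symm
  rw [h2] at h1
  have h3 : MvPolynomial.aeval (fun j => ((uX W σ N j : Um W σ N) : UR W σ N)) (ψ.poly N' k)
      = Ideal.Quotient.mk ((aug W σ) ^ N) (ψ.poly N' k) := CechData.aeval_mk_X N (ψ.poly N' k)
  rw [h3] at h1
  rw [← Ideal.Quotient.eq]
  exact h1.symm

/-- **the power series of a natural map**. -/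
def series (k : τ) : MvPowerSeries σ W := fun e => MvPolynomial.coeff e (ψ.poly (e.degree + 1) k)

theorem coeff_series (k : τ) (e : σ →₀ ℕ) :
    coeff e (ψ.series k) = MvPolynomial.coeff e (ψ.poly (e.degree + 1) k) := rfl

theorem coeff_series_eq (k : τ) (e : σ →₀ ℕ) {N : ℕ} (he : e.degree < N) :
    coeff e (ψ.series k) = MvPolynomial.coeff e (ψ.poly N k) := by
  rw [coeff_series]
  have h := ψ.poly_sub_mem (Nat.succ_le_of_lt he) k
  have h' : ψ.poly N k - ψ.poly (e.degree + 1) k ∈ MvPolynomial.idealOfVars σ W ^ (e.degree + 1) := h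
  rw [MvPolynomial.mem_pow_idealOfVars_iff'] at h'
  have := h' e (Nat.lt_succ_self _)
  rw [MvPolynomial.coeff_sub, sub_eq_zero] at this
  exact this.symm

theorem constantCoeff_series (k : τ) : constantCoeff (ψ.series k) = 0 := by
  rw [← coeff_zero_eq_constantCoeff_apply, coeff_series]
  have := CechData.constantCoeff_eq_zero_of_mem_aug (ψ.poly_mem ((0 : σ →₀ ℕ).degree + 1) k)
  rwa [MvPolynomial.constantCoeff_eq] at this

theorem truncTotal_series_sub_mem (N : ℕ) (k : τ) :
    truncTotal N (ψ.series k) - ψ.poly N k ∈ MvPolynomial.idealOfVars σ W ^ N := by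
  rw [MvPolynomial.mem_pow_idealOfVars_iff']
  intro e he
  rw [MvPolynomial.coeff_sub, coeff_truncTotal _ he, ψ.coeff_series_eq k e he, sub_self]

/-- **Yoneda lemma**: a natural map is given by its power series. -/
theorem toFun_eq_apply {R : Type u} [CommRing R] [Algebra W R] {m : Ideal R} {N : ℕ}
    (hN : m ^ N = ⊥) (a : σ → m) :
    ψ.toFun R m (nilp hN) a = apply m hN ψ.series ψ.constantCoeff_series a := by
  funext k
  apply Subtype.ext
  rw [coe_apply, evalI_eq_aeval_truncTotal, ψ.toFun_eq_aeval hN a k]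
  exact (aeval_eq_of_sub_mem m hN a (ψ.truncTotal_series_sub_mem N k)).symm

theorem toFun_eq_apply' {R : Type u} [CommRing R] [Algebra W R] {m : Ideal R} (hm : IsNilpotent m)
    {N : ℕ} (hN : m ^ N = ⊥) (a : σ → m) :
    ψ.toFun R m hm a = apply m hN ψ.series ψ.constantCoeff_series a :=
  ψ.toFun_eq_apply hN a

end Series

/-! ### Uniqueness -/

section Unique

/-- the value of a power series at the universal point is its truncation. -/
theorem evalI_uX (N : ℕ) (f : MvPowerSeries σ W) :
    evalI (Um W σ N) (Um_pow W σ N) (uX W σ N) f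
      = Ideal.Quotient.mk ((aug W σ) ^ N) (truncTotal N f) := by
  rw [evalI_eq_aeval_truncTotal]
  exact CechData.aeval_mk_X N (truncTotal N f)

/-- a power series which vanishes at all universal points is zero. -/
theorem eq_zero_of_evalI_uX {f : MvPowerSeries σ W}
    (h : ∀ N : ℕ, evalI (Um W σ N) (Um_pow W σ N) (uX W σ N) f = 0) : f = 0 := by
  ext e
  have h1 := h (e.degree + 1)
  rw [evalI_uX, Ideal.Quotient.eq_zero_iff_mem] at h1
  have h2 : truncTotal (e.degree + 1) f ∈ MvPolynomial.idealOfVars σ W ^ (e.degree + 1) := h1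
  rw [MvPolynomial.mem_pow_idealOfVars_iff'] at h2
  have := h2 e (Nat.lt_succ_self _)
  rw [coeff_truncTotal _ (Nat.lt_succ_self _)] at this
  rw [this, map_zero]

/-- **power series families are determined by their point maps** (universal points suffice). -/
theorem eq_of_apply_uX_eq {b b' : τ → MvPowerSeries σ W} (hb : ∀ k, constantCoeff (b k) = 0)
    (hb' : ∀ k, constantCoeff (b' k) = 0)
    (h : ∀ N : ℕ, apply (Um W σ N) (Um_pow W σ N) b hb (uX W σ N)
      = apply (Um W σ N) (Um_pow W σ N) b' hb' (uX W σ N)) : b = b' := by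
  funext k
  rw [← sub_eq_zero]
  apply eq_zero_of_evalI_uX
  intro N
  have := congrArg (fun c : τ → Um W σ N => (c k : UR W σ N)) (h N)
  simp only [coe_apply] at this
  rw [map_sub, this, sub_self]

theorem eq_of_apply_eq {b b' : τ → MvPowerSeries σ W} (hb : ∀ k, constantCoeff (b k) = 0)
    (hb' : ∀ k, constantCoeff (b' k) = 0)
    (h : ∀ (R : Type u) [CommRing R] [Algebra W R] (m : Ideal R) (N : ℕ) (hN : m ^ N = ⊥)
      (a : σ → m), apply m hN b hb a = apply m hN b' hb' a) : b = b' :=
  eq_of_apply_uX_eq hb hb' fun N => h _ _ N _ _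

/-- uniqueness of the power series of a natural map. -/
theorem series_unique (ψ : NatMap W σ τ) (b : τ → MvPowerSeries σ W)
    (hb : ∀ k, constantCoeff (b k) = 0)
    (h : ∀ (R : Type u) [CommRing R] [Algebra W R] (m : Ideal R) (N : ℕ) (hN : m ^ N = ⊥)
      (a : σ → m), ψ.toFun R m (nilp hN) a = apply m hN b hb a) : ψ.series = b :=
  eq_of_apply_eq ψ.constantCoeff_series hb fun R _ _ m N hN a => by
    rw [← ψ.toFun_eq_apply hN a, h R m N hN a]

/-- extensionality: natural maps with the same series are equal. -/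
theorem ext_series {ψ ψ' : NatMap W σ τ} (h : ψ.series = ψ'.series) : ψ = ψ' := by
  have : ψ.toFun = ψ'.toFun := by
    funext R _ _ m hm a
    obtain ⟨N, hN⟩ := hm
    have hN' : m ^ N = ⊥ := hN
    rw [ψ.toFun_eq_apply' _ hN', ψ'.toFun_eq_apply' _ hN']
    exact apply_congr m hN' h _ a
  cases ψ; cases ψ'
  simp only at this
  subst this
  rfl

end Unique

/-! ### From power series to natural maps; identity and composition -/

section OfSeries

/-- the natural map of a family of power series without constant term. -/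
def ofSeries (b : τ → MvPowerSeries σ W) (hb : ∀ k, constantCoeff (b k) = 0) : NatMap W σ τ where
  toFun R _ _ m hm a := apply m (n := hm.choose) hm.choose_spec b hb a
  natural := by
    intro R R' _ _ _ _ f m m' hm hm' h a
    rw [apply_irrel m' hm'.choose_spec
      (show m' ^ (max hm.choose hm'.choose) = ⊥ from eq_bot_iff.2
        ((show m' ^ hm'.choose = ⊥ from hm'.choose_spec) ▸
          Ideal.pow_le_pow_right (le_max_right _ _)))]
    exact apply_mapPt m hm.choose_spec m' _ f h b hb a

theorem ofSeries_toFun (b : τ → MvPowerSeries σ W) (hb : ∀ k, constantCoeff (b k) = 0)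
    {R : Type u} [CommRing R] [Algebra W R] {m : Ideal R} (hm : IsNilpotent m) {N : ℕ}
    (hN : m ^ N = ⊥) (a : σ → m) :
    (ofSeries b hb).toFun R m hm a = apply m hN b hb a := by
  show apply m (n := hm.choose) hm.choose_spec b hb a = _
  exact apply_irrel m _ hN b hb a

@[simp]
theorem series_ofSeries (b : τ → MvPowerSeries σ W) (hb : ∀ k, constantCoeff (b k) = 0) :
    (ofSeries b hb).series = b :=
  series_unique _ b hb fun _ _ _ _ _ hN a => ofSeries_toFun b hb _ hN a

theorem ofSeries_series (ψ : NatMap W σ τ) : ofSeries ψ.series ψ.constantCoeff_series = ψ :=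
  ext_series (series_ofSeries _ _)

/-- the identity natural map. -/
protected def id (W : Type u) [CommRing W] (σ : Type) : NatMap W σ σ where
  toFun _ _ _ _ _ a := a
  natural := by intros; rfl

theorem series_id : (NatMap.id W σ).series = (X : σ → MvPowerSeries σ W) :=
  series_unique _ X (fun i => by simp) fun _ _ _ m _ hN a => (apply_X m hN a).symm

/-- composition of natural maps. -/
def comp (χ : NatMap W τ υ) (ψ : NatMap W σ τ) : NatMap W σ υ where
  toFun R _ _ m hm a := χ.toFun R m hm (ψ.toFun R m hm a)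
  natural := by
    intro R R' _ _ _ _ f m m' hm hm' h a
    rw [ψ.natural f hm hm' h a, χ.natural f hm hm' h]

theorem series_comp (χ : NatMap W τ υ) (ψ : NatMap W σ τ) :
    (χ.comp ψ).series = compFam χ.series ψ.series :=
  series_unique _ _ (constantCoeff_compFam _ _ χ.constantCoeff_series ψ.constantCoeff_series)
    fun R _ _ m N hN a => by
      show χ.toFun R m _ (ψ.toFun R m _ a) = _
      rw [ψ.toFun_eq_apply hN, χ.toFun_eq_apply hN,
        apply_compFam m hN _ _ χ.constantCoeff_series ψ.constantCoeff_series]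

end OfSeries

/-! ### The Jacobian: points of square zero ideals -/

section Jacobian

variable {σ' : Type} [Fintype σ'] [DecidableEq σ']

/-- on points of a square zero ideal a natural map is the linear map given by its Jacobian. -/
theorem toFun_sq_zero (ψ : NatMap W σ' τ) {R : Type u} [CommRing R] [Algebra W R] {m : Ideal R}
    (hm2 : m ^ 2 = ⊥) (a : σ' → m) (k : τ) :
    (ψ.toFun R m (nilp hm2) a k : R) = ∑ j, jac ψ.series k j • (a j : R) := by
  rw [ψ.toFun_eq_apply hm2 a, coe_apply]
  have h2 := two_le_order_sub_linear (ψ.series k) (ψ.constantCoeff_series k)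
  have h0 := evalI_eq_zero_of_le_order (W := W) m hm2 a (by exact_mod_cast h2)
  rw [map_sub, sub_eq_zero] at h0
  rw [h0, map_sum]
  refine Finset.sum_congr rfl fun j _ => ?_
  rw [map_smul, evalI_X]
  rfl

/-- the Jacobian is determined by the action on points of square zero ideals: it suffices to
test on the universal point of `W[X]/(X)^2`. -/
theorem jac_eq_of_sq_zero (ψ : NatMap W σ' τ) (M : Matrix τ σ' W)
    (h : ∀ k, (ψ.toFun (UR W σ' 2) (Um W σ' 2) (Um_nilpotent W σ' 2) (uX W σ' 2) k : UR W σ' 2)
      = ∑ j, M k j • ((uX W σ' 2 j : Um W σ' 2) : UR W σ' 2)) : jac ψ.series = M := by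
  funext k j
  have h1 := ψ.toFun_sq_zero (Um_pow W σ' 2) (uX W σ' 2) k
  rw [h k] at h1
  -- compare coefficients of `X j` in `W[X]/(X)^2`
  have h2 : Ideal.Quotient.mk ((aug W σ') ^ 2)
      (∑ i, (M k i - jac ψ.series k i) • (MvPolynomial.X i : MvPolynomial σ' W)) = 0 := by
    rw [map_sum]
    have : ∀ i, Ideal.Quotient.mk ((aug W σ') ^ 2)
        ((M k i - jac ψ.series k i) • (MvPolynomial.X i : MvPolynomial σ' W))
        = M k i • ((uX W σ' 2 i : Um W σ' 2) : UR W σ' 2)
          - jac ψ.series k i • ((uX W σ' 2 i : Um W σ' 2) : UR W σ' 2) := by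
      intro i
      rw [sub_smul, map_sub]
      rfl
    simp only [this, Finset.sum_sub_distrib]
    rw [h1, sub_self]
  rw [Ideal.Quotient.eq_zero_iff_mem] at h2
  have h3 : (∑ i, (M k i - jac ψ.series k i) • (MvPolynomial.X i : MvPolynomial σ' W))
      ∈ MvPolynomial.idealOfVars σ' W ^ 2 := h2
  rw [MvPolynomial.mem_pow_idealOfVars_iff'] at h3
  have h4 := h3 (Finsupp.single j 1) (by simp)
  rw [MvPolynomial.coeff_sum] at h4
  simp only [MvPolynomial.coeff_smul, MvPolynomial.coeff_X, smul_eq_mul] at h4
  rw [Finset.sum_eq_single j] at h4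
  · simp only [if_true, mul_one] at h4
    exact (sub_eq_zero.mp h4).symm
  · intro i _ hij
    have : Finsupp.single i 1 ≠ Finsupp.single j 1 := fun h =>
      hij (Finsupp.single_left_injective one_ne_zero h)
    simp [this]
  · simp

/-- chain rule for natural maps. -/
theorem jac_series_comp {τ' : Type} [Fintype τ'] [DecidableEq τ'] (χ : NatMap W τ' υ)
    (ψ : NatMap W σ' τ') : jac (χ.comp ψ).series = jac χ.series * jac ψ.series := by
  rw [series_comp]
  exact jac_compFam _ _ χ.constantCoeff_series ψ.constantCoeff_series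

end Jacobian

end NatMap

end Fermat.Agent.T1B.Toric11
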