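/-
T1B / TORIC50 (helper11): natural homomorphisms between Čech formal groups, and from the formal
torus into a Čech formal group; their power series (via `Yoneda.lean`) and their action on points
of square zero sub-ideals (= the Jacobian).  First order exactness from the IFT50-style
invertibility hypotheses (`JhatNat.exists_tor_of_sq_zero`, `TorNat.eq_zero_of_sq_zero`).
-/
import Mathlib
import Fermat.Agent.T1B.Toric11.Yoneda

set_option autoImplicit false
set_option maxHeartbeats 400000
set_option linter.unusedSectionVars false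

noncomputable section

namespace Fermat.Agent.T1B.Toric11

open MvPowerSeries Fermat.Agent.S53 Fermat.Agent.T1.IFT50 Fermat.Agent.T1.CechFormal70

universe u

variable {W B0 B1 B01 B0' B1' B01' : Type u} [CommRing W]
  [CommRing B0] [CommRing B1] [CommRing B01] [Algebra W B0] [Algebra W B1] [Algebra W B01]
  [CommRing B0'] [CommRing B1'] [CommRing B01'] [Algebra W B0'] [Algebra W B1'] [Algebra W B01']
  {g g' r : ℕ}

/-! ### The formal torus -/

section Torus

variable {R : Type*} [CommRing R] {m : Ideal R}

/-- the point `(1 + s_i)_i` of the formal torus. -/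
def torPt (hm : IsNilpotent m) (s : Fin r → m) : Fin r → unitsOne m :=
  fun i => oneAddUnit hm (s i : R) (s i).2

/-- the coordinates `t_i - 1` of a point of the formal torus. -/
def torCoord (t : Fin r → unitsOne m) : Fin r → m :=
  fun i => ⟨((t i : Rˣ) : R) - 1, (t i).2⟩

@[simp] theorem coe_torPt (hm : IsNilpotent m) (s : Fin r → m) (i : Fin r) :
    (((torPt hm s i : unitsOne m) : Rˣ) : R) = 1 + (s i : R) := rfl

@[simp] theorem torCoord_torPt (hm : IsNilpotent m) (s : Fin r → m) :
    torCoord (torPt hm s) = s := by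
  funext i
  apply Subtype.ext
  show (1 + (s i : R)) - 1 = s i
  ring

@[simp] theorem torPt_torCoord (hm : IsNilpotent m) (t : Fin r → unitsOne m) :
    torPt hm (torCoord t) = t := by
  funext i
  apply Subtype.ext
  apply Units.ext
  show 1 + (((t i : Rˣ) : R) - 1) = _
  ring

theorem torPt_zero (hm : IsNilpotent m) : torPt hm (0 : Fin r → m) = 1 := by
  funext i
  apply Subtype.ext
  apply Units.ext
  show 1 + ((0 : m) : R) = 1
  simp

theorem torPt_injective (hm : IsNilpotent m) : Function.Injective (torPt (r := r) hm) := by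
  intro s s' h
  rw [← torCoord_torPt hm s, h, torCoord_torPt]

theorem unitsOneMap_torPt {R' : Type*} [CommRing R'] {m' : Ideal R'} (f : R →+* R')
    (h : m ≤ m'.comap f) (hm : IsNilpotent m) (hm' : IsNilpotent m') (s : Fin r → m) :
    (fun i => unitsOneMap f h (torPt hm s i)) = torPt hm' (fun i => ⟨f (s i), h (s i).2⟩) := by
  funext i
  apply Subtype.ext
  apply Units.ext
  show f (1 + (s i : R)) = 1 + f (s i)
  rw [map_add, map_one]

end Torus

/-! ### Natural homomorphisms -/

/-- A natural homomorphism between the Čech formal groups of two Čech data over `W`. -/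
structure JhatNat (D : CechData W B0 B1 B01 g) (D' : CechData W B0' B1' B01' g') :
    Type (u + 1) where
  /-- the homomorphisms -/
  toHom : ∀ (R : Type u) [CommRing R] [Algebra W R] (m : Ideal R), IsNilpotent m →
    ((D.pkg R).Jhat m →* (D'.pkg R).Jhat m)
  /-- naturality (base change and change of ideal) -/
  natural : ∀ {R R' : Type u} [CommRing R] [CommRing R'] [Algebra W R] [Algebra W R']
    (f : R →ₐ[W] R') {m : Ideal R} {m' : Ideal R'} (hm : IsNilpotent m) (hm' : IsNilpotent m')
    (h : m ≤ m'.comap (f : R →+* R')) (z : (D.pkg R).Jhat m),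
    toHom R' m' hm' (D.JhatMap f h z) = D'.JhatMap f h (toHom R m hm z)

/-- A natural homomorphism from the formal torus of rank `r` to the Čech formal group. -/
structure TorNat (r : ℕ) (D : CechData W B0 B1 B01 g) : Type (u + 1) where
  /-- the homomorphisms -/
  toHom : ∀ (R : Type u) [CommRing R] [Algebra W R] (m : Ideal R), IsNilpotent m →
    ((Fin r → unitsOne m) →* (D.pkg R).Jhat m)
  /-- naturality (base change and change of ideal) -/
  natural : ∀ {R R' : Type u} [CommRing R] [CommRing R'] [Algebra W R] [Algebra W R']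
    (f : R →ₐ[W] R') {m : Ideal R} {m' : Ideal R'} (hm : IsNilpotent m) (hm' : IsNilpotent m')
    (h : m ≤ m'.comap (f : R →+* R')) (t : Fin r → unitsOne m),
    toHom R' m' hm' (fun i => unitsOneMap (f : R →+* R') h (t i)) = D.JhatMap f h (toHom R m hm t)

variable {D : CechData W B0 B1 B01 g} {D' : CechData W B0' B1' B01' g'}

/-- the matrix action on vectors with entries in an ideal. -/
def mulVecI {σ τ : Type} [Fintype σ] {R : Type*} [CommRing R] [Algebra W R] (M : Matrix τ σ W)
    {I : Ideal R} (a : σ → I) : τ → I :=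
  fun k => ⟨∑ j, M k j • (a j : R), Ideal.sum_mem _ fun j _ =>
    Submodule.smul_of_tower_mem _ _ (a j).2⟩

theorem coe_mulVecI {σ τ : Type} [Fintype σ] {R : Type*} [CommRing R] [Algebra W R]
    (M : Matrix τ σ W) {I : Ideal R} (a : σ → I) (k : τ) :
    (mulVecI M a k : R) = ((M.map (algebraMap W R)).mulVec (fun j => (a j : R))) k := by
  show ∑ j, M k j • (a j : R) = _
  rw [Matrix.mulVec, dotProduct]
  refine Finset.sum_congr rfl fun j _ => ?_
  rw [Matrix.map_apply, Algebra.smul_def]

theorem mulVecI_mul {σ τ υ : Type} [Fintype σ] [Fintype τ] {R : Type*} [CommRing R] [Algebra W R]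
    (M : Matrix υ τ W) (N : Matrix τ σ W) {I : Ideal R} (a : σ → I) :
    mulVecI (M * N) a = mulVecI M (mulVecI N a) := by
  funext k
  apply Subtype.ext
  rw [coe_mulVecI, coe_mulVecI, Matrix.map_mul]
  have : (fun j => (mulVecI N a j : R)) = (N.map (algebraMap W R)).mulVec (fun j => (a j : R)) :=
    funext fun j => coe_mulVecI N a j
  rw [this, Matrix.mulVec_mulVec]

theorem mulVecI_one {σ : Type} [Fintype σ] [DecidableEq σ] {R : Type*} [CommRing R] [Algebra W R]
    {I : Ideal R} (a : σ → I) : mulVecI (1 : Matrix σ σ W) a = a := by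
  funext k
  apply Subtype.ext
  rw [coe_mulVecI, Matrix.map_one _ (map_zero _) (map_one _), Matrix.one_mulVec]

theorem mulVecI_zero {σ τ : Type} [Fintype σ] {R : Type*} [CommRing R] [Algebra W R]
    (M : Matrix τ σ W) {I : Ideal R} : mulVecI M (0 : σ → I) = 0 := by
  funext k
  apply Subtype.ext
  show ∑ j, M k j • ((0 : I) : R) = 0
  simp

namespace JhatNat

variable (η : JhatNat D D')

/-- the natural map in coordinates. -/
def natMap : NatMap W (Fin g) (Fin g') where
  toFun R _ _ m hm a := (D'.pkg R).coord hm (η.toHom R m hm ((D.pkg R).phi hm a))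
  natural := by
    intro R R' _ _ _ _ f m m' hm hm' h a
    have h' : m ≤ m'.comap (f : R →+* R') := fun x hx => h x hx
    have e1 : (D.pkg R').phi hm' (mapPt m m' f h a) = D.JhatMap f h' ((D.pkg R).phi hm a) :=
      (D.JhatMap_phi f h' hm hm' a).symm
    rw [e1, η.natural f hm hm' h']
    conv_lhs => rw [← (D'.pkg R).phi_coord hm (η.toHom R m hm ((D.pkg R).phi hm a)),
      D'.JhatMap_phi f h' hm hm', Pkg.coord_phi]
    rfl

/-- the power series of a natural homomorphism. -/
def series : Fin g' → MvPowerSeries (Fin g) W := η.natMap.series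

theorem constantCoeff_series (k : Fin g') : constantCoeff (η.series k) = 0 :=
  η.natMap.constantCoeff_series k

/-- a natural homomorphism in coordinates. -/
theorem toHom_phi {R : Type u} [CommRing R] [Algebra W R] {m : Ideal R} {N : ℕ}
    (hN : m ^ N = ⊥) (a : Fin g → m) :
    η.toHom R m (nilp hN) ((D.pkg R).phi (nilp hN) a)
      = (D'.pkg R).phi (nilp hN) (apply m hN η.series η.constantCoeff_series a) := by
  have h := η.natMap.toFun_eq_apply hN a
  change (D'.pkg R).coord (nilp hN) (η.toHom R m (nilp hN) ((D.pkg R).phi (nilp hN) a))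
    = apply m hN η.series η.constantCoeff_series a at h
  rw [← h, Pkg.phi_coord]

/-- **first order**: on a square zero sub-ideal a natural homomorphism is the Jacobian. -/
theorem toHom_phi_incl {R : Type u} [CommRing R] [Algebra W R] {m I : Ideal R}
    (hm : IsNilpotent m) (hI : I ≤ m) (hI2 : I ^ 2 = ⊥) (a : Fin g → I) :
    η.toHom R m hm ((D.pkg R).phi hm (CechData.incl hI a))
      = (D'.pkg R).phi hm (CechData.incl hI (mulVecI (jac η.series) a)) := by
  have hI' : I ≤ m.comap ((AlgHom.id W R : R →ₐ[W] R) : R →+* R) := hI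
  have e1 : (D.pkg R).phi hm (CechData.incl hI a)
      = D.JhatMap (AlgHom.id W R) hI' ((D.pkg R).phi (nilp hI2) a) :=
    (D.JhatMap_phi (AlgHom.id W R) hI' (nilp hI2) hm a).symm
  have e2 : η.toHom R I (nilp hI2) ((D.pkg R).phi (nilp hI2) a)
      = (D'.pkg R).phi (nilp hI2) (mulVecI (jac η.series) a) := by
    rw [← (D'.pkg R).phi_coord (nilp hI2) (η.toHom R I (nilp hI2) ((D.pkg R).phi (nilp hI2) a))]
    congr 1
    funext k
    apply Subtype.ext
    exact η.natMap.toFun_sq_zero hI2 a k
  rw [e1, η.natural (AlgHom.id W R) (nilp hI2) hm hI', e2,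
    D'.JhatMap_phi (AlgHom.id W R) hI' (nilp hI2) hm]
  rfl

end JhatNat

namespace TorNat

variable (ι : TorNat r D)

/-- the natural map in coordinates. -/
def natMap : NatMap W (Fin r) (Fin g) where
  toFun R _ _ m hm s := (D.pkg R).coord hm (ι.toHom R m hm (torPt hm s))
  natural := by
    intro R R' _ _ _ _ f m m' hm hm' h s
    have h' : m ≤ m'.comap (f : R →+* R') := fun x hx => h x hx
    have e1 : torPt hm' (mapPt m m' f h s)
        = fun i => unitsOneMap (f : R →+* R') h' (torPt hm s i) :=
      (unitsOneMap_torPt (f : R →+* R') h' hm hm' s).symm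
    rw [e1, ι.natural f hm hm' h']
    conv_lhs => rw [← (D.pkg R).phi_coord hm (ι.toHom R m hm (torPt hm s)),
      D.JhatMap_phi f h' hm hm', Pkg.coord_phi]
    rfl

/-- the power series of a natural homomorphism from the torus. -/
def series : Fin g → MvPowerSeries (Fin r) W := ι.natMap.series

theorem constantCoeff_series (k : Fin g) : constantCoeff (ι.series k) = 0 :=
  ι.natMap.constantCoeff_series k

theorem toHom_torPt {R : Type u} [CommRing R] [Algebra W R] {m : Ideal R} {N : ℕ}
    (hN : m ^ N = ⊥) (s : Fin r → m) :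
    ι.toHom R m (nilp hN) (torPt (nilp hN) s)
      = (D.pkg R).phi (nilp hN) (apply m hN ι.series ι.constantCoeff_series s) := by
  have h := ι.natMap.toFun_eq_apply hN s
  change (D.pkg R).coord (nilp hN) (ι.toHom R m (nilp hN) (torPt (nilp hN) s))
    = apply m hN ι.series ι.constantCoeff_series s at h
  rw [← h, Pkg.phi_coord]

/-- **first order**: on a square zero sub-ideal the toric map is its Jacobian. -/
theorem toHom_torPt_incl {R : Type u} [CommRing R] [Algebra W R] {m I : Ideal R}
    (hm : IsNilpotent m) (hI : I ≤ m) (hI2 : I ^ 2 = ⊥) (s : Fin r → I) :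
    ι.toHom R m hm (torPt hm (CechData.incl hI s))
      = (D.pkg R).phi hm (CechData.incl hI (mulVecI (jac ι.series) s)) := by
  have hI' : I ≤ m.comap ((AlgHom.id W R : R →ₐ[W] R) : R →+* R) := hI
  have e1 : torPt hm (CechData.incl hI s)
      = fun i => unitsOneMap ((AlgHom.id W R : R →ₐ[W] R) : R →+* R) hI' (torPt (nilp hI2) s i) :=
    (unitsOneMap_torPt _ hI' (nilp hI2) hm s).symm
  have e2 : ι.toHom R I (nilp hI2) (torPt (nilp hI2) s)
      = (D.pkg R).phi (nilp hI2) (mulVecI (jac ι.series) s) := by
    rw [← (D.pkg R).phi_coord (nilp hI2) (ι.toHom R I (nilp hI2) (torPt (nilp hI2) s))]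
    congr 1
    funext k
    apply Subtype.ext
    exact ι.natMap.toFun_sq_zero hI2 s k
  rw [e1, ι.natural (AlgHom.id W R) (nilp hI2) hm hI', e2,
    D.JhatMap_phi (AlgHom.id W R) hI' (nilp hI2) hm]
  rfl

end TorNat

/-! ### First order exactness -/

section FirstOrder

variable (η : JhatNat D D') (ι : TorNat r D)
  (hηι : ∀ (R : Type u) [CommRing R] [Algebra W R] (m : Ideal R) (hm : IsNilpotent m)
    (t : Fin r → unitsOne m), η.toHom R m hm (ι.toHom R m hm t) = 1)
  (e : Fin r ⊕ Fin g' ≃ Fin g) (P : Matrix (Fin r) (Fin g) W)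
  {K : Matrix (Fin g) (Fin g) W} (hK : K * sumMat e P (jac η.series) = 1)
  {K2 : Matrix (Fin r) (Fin r) W} (hK2 : K2 * (P * jac ι.series) = 1)

theorem incl_injective {R : Type*} [CommRing R] {m I : Ideal R} (hI : I ≤ m) {σ : Type*}
    {a a' : σ → I}
    (h : (fun i => (⟨a i, hI (a i).2⟩ : m)) = fun i => (⟨a' i, hI (a' i).2⟩ : m)) : a = a' := by
  funext i
  apply Subtype.ext
  exact congrArg (fun c : σ → m => (c i : R)) h

theorem mulVecI_sumMat {R : Type*} [CommRing R] [Algebra W R] {I : Ideal R}
    (B : Matrix (Fin g') (Fin g) W) (a : Fin g → I) (i : Fin g) :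
    mulVecI (sumMat e P B) a i = Sum.elim (mulVecI P a) (mulVecI B a) (e.symm i) := by
  apply Subtype.ext
  show ∑ j, sumMat e P B i j • (a j : R) = _
  unfold sumMat
  rcases e.symm i with k | k <;> rfl

include hηι hK hK2 in
/-- **first order exactness**: a point of the Čech formal group with coordinates in a square zero
sub-ideal `I` which is killed by `η` is the image of a (unique) point of the torus with
coordinates in `I`. -/
theorem JhatNat.exists_tor_of_sq_zero {R : Type u} [CommRing R] [Algebra W R] {m I : Ideal R}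
    (hm : IsNilpotent m) (hI : I ≤ m) (hI2 : I ^ 2 = ⊥) (a : Fin g → I)
    (ha : η.toHom R m hm ((D.pkg R).phi hm (CechData.incl hI a)) = 1) :
    ∃ s : Fin r → I, ι.toHom R m hm (torPt hm (CechData.incl hI s))
      = (D.pkg R).phi hm (CechData.incl hI a) := by
  -- `jac b · a = 0`
  have h1 : mulVecI (jac η.series) a = 0 := by
    rw [η.toHom_phi_incl hm hI hI2 a, ← (D'.pkg R).phi_zero hm] at ha
    have := (D'.pkg R).phi_injective hm ha
    exact incl_injective hI this
  set s : Fin r → I := mulVecI K2 (mulVecI P a) with hs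
  refine ⟨s, ?_⟩
  rw [ι.toHom_torPt_incl hm hI hI2 s]
  congr 2
  -- `a' := jac θ · s` equals `a`
  set a' : Fin g → I := mulVecI (jac ι.series) s with ha'
  -- `jac b · a' = 0`
  have h2 : mulVecI (jac η.series) a' = 0 := by
    have h3 := hηι R m hm (torPt hm (CechData.incl hI s))
    rw [ι.toHom_torPt_incl hm hI hI2 s, η.toHom_phi_incl hm hI hI2, ← (D'.pkg R).phi_zero hm] at h3
    have := (D'.pkg R).phi_injective hm h3
    exact incl_injective hI this
  -- `P · a' = P · a`
  have hK2' : (P * jac ι.series) * K2 = 1 := mul_eq_one_comm.mp hK2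
  have h4 : mulVecI P a' = mulVecI P a := by
    have hmat : P * jac ι.series * K2 * P = P := by rw [hK2', Matrix.one_mul]
    rw [ha', hs, ← mulVecI_mul, ← mulVecI_mul, ← mulVecI_mul, hmat]
  -- conclude with the left inverse `K`
  have h5 : mulVecI (sumMat e P (jac η.series)) a' = mulVecI (sumMat e P (jac η.series)) a := by
    funext i
    rw [mulVecI_sumMat, mulVecI_sumMat, h4, h2, h1]
  have hKM : ∀ x : Fin g → I, mulVecI K (mulVecI (sumMat e P (jac η.series)) x) = x := fun x => by
    rw [← mulVecI_mul, hK, mulVecI_one]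
  have h6 := congrArg (mulVecI K) h5
  rw [hKM, hKM] at h6
  exact h6

include hK2 in
/-- **first order injectivity** of the toric map. -/
theorem TorNat.eq_zero_of_sq_zero {R : Type u} [CommRing R] [Algebra W R] {m I : Ideal R}
    (hm : IsNilpotent m) (hI : I ≤ m) (hI2 : I ^ 2 = ⊥) (s : Fin r → I)
    (hs : ι.toHom R m hm (torPt hm (CechData.incl hI s)) = 1) : s = 0 := by
  rw [ι.toHom_torPt_incl hm hI hI2 s, ← (D.pkg R).phi_zero hm] at hs
  have h1 : mulVecI (jac ι.series) s = 0 := incl_injective hI ((D.pkg R).phi_injective hm hs)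
  have h2 : mulVecI (P * jac ι.series) s = 0 := by
    rw [mulVecI_mul, h1, mulVecI_zero]
  have h3 := congrArg (mulVecI K2) h2
  rwa [← mulVecI_mul, hK2, mulVecI_one, mulVecI_zero] at h3

end FirstOrder

end Fermat.Agent.T1B.Toric11
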