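/-
T1B / TORIC50 (helper11), slice TOWER-INST, part 1: the towers.

For a `W`-algebra `O` with an ideal `𝔪` (in the application: the integers of a finite extension of
the completed unramified base, with its maximal ideal) and a Čech datum `D` over `W`:
* `Tr 𝔪 n = O ⧸ 𝔪^n`, `mQ 𝔪 n = 𝔪/𝔪^n`, `fac 𝔪 n : Tr (n+1) →ₐ[W] Tr n`;
* `Jn D 𝔪 n = Ĵ_D(O/𝔪^n, 𝔪/𝔪^n)` with transition maps `pJ D 𝔪 n`, `base_J`;
* `Tn r 𝔪 n = (1 + 𝔪/𝔪^n)^r` with transition maps `pT`, `Tinf r 𝔪 = (1 + 𝔪)^r`, `qT`,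
  `pT_surjective`, `qT_compat`, `base_T`, `qT_inj` (`𝔪`-adically separated), `qT_complete`
  (`𝔪`-adically complete);
* a natural homomorphism `η : JhatNat D D'` gives `βn η 𝔪 n : Jn D 𝔪 n →* Jn D' 𝔪 n` commuting with
  the transition maps; a natural `ι : TorNat r D` gives `ιn ι 𝔪 n : Tn r 𝔪 n →* Jn D 𝔪 n`;
* `towerHyp` : with `η ∘ ι = 1` and the IFT50-style Jacobian hypotheses, helper50's
  `Toric50.Tower.Hyp (pJ D 𝔪) (pJ D' 𝔪) (pT r 𝔪) (βn η 𝔪) (ιn ι 𝔪)` holds.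
-/
import Mathlib
import Fermat.Agent.T1B.Toric11.Nat
import Fermat.Agent.T1B.Toric50.Tower

set_option autoImplicit false
set_option maxHeartbeats 400000
set_option linter.unusedSectionVars false

noncomputable section

namespace Fermat.Agent.T1B.Toric11

open MvPowerSeries Fermat.Agent.T1.IFT50 Fermat.Agent.T1.CechFormal70 Fermat.Agent.T1B.Toric50

universe u

variable {W B0 B1 B01 B0' B1' B01' : Type u} [CommRing W]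
  [CommRing B0] [CommRing B1] [CommRing B01] [Algebra W B0] [Algebra W B1] [Algebra W B01]
  [CommRing B0'] [CommRing B1'] [CommRing B01'] [Algebra W B0'] [Algebra W B1'] [Algebra W B01']
  {g g' r : ℕ}

section Rings

variable (W) {O : Type u} [CommRing O] [Algebra W O] (𝔪 : Ideal O)

/-- the truncation `O ⧸ 𝔪 ^ n`. -/
abbrev Tr (n : ℕ) : Type u := O ⧸ 𝔪 ^ n

/-- the ideal `𝔪 / 𝔪 ^ n` (for `𝔪 = maximalIdeal O` this is syntactically `Red20.CoordFun.mT O n`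
and definitionally `IFT50.idealQ 𝔪 n`). -/
abbrev mQ (n : ℕ) : Ideal (Tr 𝔪 n) := 𝔪.map (Ideal.Quotient.mk (𝔪 ^ n))

theorem mQ_pow (n : ℕ) : mQ 𝔪 n ^ n = ⊥ := idealQ_pow 𝔪 n

theorem mQ_nilpotent (n : ℕ) : IsNilpotent (mQ 𝔪 n) := ⟨n, mQ_pow 𝔪 n⟩

/-- the transition map `O ⧸ 𝔪 ^ (n+1) → O ⧸ 𝔪 ^ n`. -/
def fac (n : ℕ) : Tr 𝔪 (n + 1) →ₐ[W] Tr 𝔪 n :=
  Ideal.Quotient.factorₐ W (Ideal.pow_le_pow_right (Nat.le_succ n))

@[simp] theorem fac_mk (n : ℕ) (x : O) :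
    fac W 𝔪 n (Ideal.Quotient.mk (𝔪 ^ (n + 1)) x) = Ideal.Quotient.mk (𝔪 ^ n) x := rfl

theorem fac_mQ (n : ℕ) : mQ 𝔪 (n + 1) ≤
    (mQ 𝔪 n).comap ((fac W 𝔪 n : Tr 𝔪 (n + 1) →ₐ[W] Tr 𝔪 n) : Tr 𝔪 (n + 1) →+* Tr 𝔪 n) := by
  rw [Ideal.map_le_iff_le_comap]
  intro x hx
  rw [Ideal.mem_comap, Ideal.mem_comap]
  exact Ideal.mem_map_of_mem _ hx

/-- the quotient map `O → O ⧸ 𝔪 ^ n` as a `W`-algebra map. -/
def quo (n : ℕ) : O →ₐ[W] Tr 𝔪 n := Ideal.Quotient.mkₐ W (𝔪 ^ n)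

theorem quo_mQ (n : ℕ) : 𝔪 ≤
    (mQ 𝔪 n).comap ((quo W 𝔪 n : O →ₐ[W] Tr 𝔪 n) : O →+* Tr 𝔪 n) :=
  fun _ hx => Ideal.mem_map_of_mem _ hx

/-- the kernel of the transition map, inside `𝔪/𝔪^(n+1)`: a square zero ideal. -/
def kerI (n : ℕ) : Ideal (Tr 𝔪 (n + 1)) :=
  (𝔪 ^ n).map (Ideal.Quotient.mk (𝔪 ^ (n + 1))) ⊓ mQ 𝔪 (n + 1)

theorem kerI_le (n : ℕ) : kerI 𝔪 n ≤ mQ 𝔪 (n + 1) := inf_le_right

theorem kerI_sq (n : ℕ) : kerI 𝔪 n ^ 2 = ⊥ := by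
  rw [eq_bot_iff, pow_two]
  calc kerI 𝔪 n * kerI 𝔪 n
      ≤ (𝔪 ^ n).map (Ideal.Quotient.mk (𝔪 ^ (n + 1))) * mQ 𝔪 (n + 1) :=
        Ideal.mul_mono inf_le_left inf_le_right
    _ = ⊥ := by
        rw [← Ideal.map_mul, ← pow_succ, Ideal.map_quotient_self]

theorem mem_kerI_of_fac_eq_zero (n : ℕ) {x : Tr 𝔪 (n + 1)} (hx : x ∈ mQ 𝔪 (n + 1))
    (h0 : fac W 𝔪 n x = 0) : x ∈ kerI 𝔪 n := by
  refine ⟨?_, hx⟩
  obtain ⟨y, rfl⟩ := Ideal.Quotient.mk_surjective x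
  rw [fac_mk, Ideal.Quotient.eq_zero_iff_mem] at h0
  exact Ideal.mem_map_of_mem _ h0

theorem fac_eq_zero_of_mem_kerI (n : ℕ) {x : Tr 𝔪 (n + 1)} (hx : x ∈ kerI 𝔪 n) :
    fac W 𝔪 n x = 0 := by
  have h1 : x ∈ (𝔪 ^ n).map (Ideal.Quotient.mk (𝔪 ^ (n + 1))) := hx.1
  have h2 : (𝔪 ^ n).map (Ideal.Quotient.mk (𝔪 ^ (n + 1))) ≤
      RingHom.ker ((fac W 𝔪 n : Tr 𝔪 (n + 1) →ₐ[W] Tr 𝔪 n) : Tr 𝔪 (n + 1) →+* Tr 𝔪 n) := by
    rw [Ideal.map_le_iff_le_comap]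
    intro y hy
    rw [Ideal.mem_comap, RingHom.mem_ker]
    show fac W 𝔪 n (Ideal.Quotient.mk _ y) = 0
    rw [fac_mk, Ideal.Quotient.eq_zero_iff_mem]
    exact hy
  exact h2 h1

theorem subsingleton_Tr_zero : Subsingleton (Tr 𝔪 0) := by
  have : 𝔪 ^ 0 = ⊤ := by rw [pow_zero, Ideal.one_eq_top]
  exact Ideal.Quotient.subsingleton_iff.mpr this

end Rings

/-! ### The tower of Čech formal groups -/

section TowerJ

variable (D : CechData W B0 B1 B01 g) (D' : CechData W B0' B1' B01' g')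
  {O : Type u} [CommRing O] [Algebra W O] (𝔪 : Ideal O)

/-- `Ĵ_D(O/𝔪^n, 𝔪/𝔪^n)`. -/
abbrev Jn (n : ℕ) : Type u := (D.pkg (Tr 𝔪 n)).Jhat (mQ 𝔪 n)

/-- the transition maps of the tower `Jn`. -/
def pJ (n : ℕ) : Jn D 𝔪 (n + 1) →* Jn D 𝔪 n := D.JhatMap (fac W 𝔪 n) (fac_mQ W 𝔪 n)

theorem pJ_phi (n : ℕ) (a : Fin g → mQ 𝔪 (n + 1)) :
    pJ D 𝔪 n ((D.pkg (Tr 𝔪 (n + 1))).phi (mQ_nilpotent 𝔪 (n + 1)) a)
      = (D.pkg (Tr 𝔪 n)).phi (mQ_nilpotent 𝔪 n)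
          (fun i => ⟨fac W 𝔪 n (a i), fac_mQ W 𝔪 n (a i).2⟩) :=
  D.JhatMap_phi (fac W 𝔪 n) (fac_mQ W 𝔪 n) _ _ a

theorem base_J (y : Jn D 𝔪 0) : y = 1 := by
  have := subsingleton_Tr_zero 𝔪
  rw [← (D.pkg (Tr 𝔪 0)).phi_coord (mQ_nilpotent 𝔪 0) y,
    ← (D.pkg (Tr 𝔪 0)).phi_zero (mQ_nilpotent 𝔪 0)]
  congr 1
  funext i
  exact Subtype.ext (Subsingleton.elim _ _)

variable {D D'}

/-- the maps on the towers induced by a natural homomorphism. -/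
def βn (η : JhatNat D D') (n : ℕ) : Jn D 𝔪 n →* Jn D' 𝔪 n :=
  η.toHom (Tr 𝔪 n) (mQ 𝔪 n) (mQ_nilpotent 𝔪 n)

theorem βn_pJ (η : JhatNat D D') (n : ℕ) (y : Jn D 𝔪 (n + 1)) :
    βn 𝔪 η n (pJ D 𝔪 n y) = pJ D' 𝔪 n (βn 𝔪 η (n + 1) y) :=
  η.natural (fac W 𝔪 n) (mQ_nilpotent 𝔪 (n + 1)) (mQ_nilpotent 𝔪 n) (fac_mQ W 𝔪 n) y

end TowerJ

/-! ### The tower of formal tori -/

section TowerT

variable (r) {O : Type u} [CommRing O] [Algebra W O] (𝔪 : Ideal O)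

/-- `(1 + 𝔪/𝔪^n)^r`. -/
abbrev Tn (n : ℕ) : Type u := Fin r → unitsOne (mQ 𝔪 n)

/-- `(1 + 𝔪)^r`. -/
abbrev Tinf : Type u := Fin r → unitsOne 𝔪

/-- the transition maps of the tower `Tn`. -/
def pT (n : ℕ) : Tn r 𝔪 (n + 1) →* Tn r 𝔪 n :=
  (unitsOneMap ((fac W 𝔪 n : Tr 𝔪 (n + 1) →ₐ[W] Tr 𝔪 n) : Tr 𝔪 (n + 1) →+* Tr 𝔪 n) (fac_mQ W 𝔪 n)).compLeft (Fin r)

/-- the projections `(1 + 𝔪)^r → (1 + 𝔪/𝔪^n)^r`. -/
def qT (n : ℕ) : Tinf r 𝔪 →* Tn r 𝔪 n :=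
  (unitsOneMap ((quo W 𝔪 n : O →ₐ[W] Tr 𝔪 n) : O →+* Tr 𝔪 n) (quo_mQ W 𝔪 n)).compLeft (Fin r)

theorem pT_apply (n : ℕ) (t : Tn r 𝔪 (n + 1)) (i : Fin r) :
    pT (W := W) r 𝔪 n t i
      = unitsOneMap ((fac W 𝔪 n : Tr 𝔪 (n + 1) →ₐ[W] Tr 𝔪 n) : Tr 𝔪 (n + 1) →+* Tr 𝔪 n) (fac_mQ W 𝔪 n) (t i) := rfl

theorem qT_apply (n : ℕ) (w : Tinf r 𝔪) (i : Fin r) :
    qT (W := W) r 𝔪 n w i
      = unitsOneMap ((quo W 𝔪 n : O →ₐ[W] Tr 𝔪 n) : O →+* Tr 𝔪 n) (quo_mQ W 𝔪 n) (w i) := rfl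

theorem pT_torPt (n : ℕ) (s : Fin r → mQ 𝔪 (n + 1)) :
    pT (W := W) r 𝔪 n (torPt (mQ_nilpotent 𝔪 (n + 1)) s)
      = torPt (mQ_nilpotent 𝔪 n) (fun i => ⟨fac W 𝔪 n (s i), fac_mQ W 𝔪 n (s i).2⟩) :=
  unitsOneMap_torPt _ (fac_mQ W 𝔪 n) _ _ s

theorem qT_compat (n : ℕ) (w : Tinf r 𝔪) :
    pT (W := W) r 𝔪 n (qT (W := W) r 𝔪 (n + 1) w) = qT (W := W) r 𝔪 n w := by
  funext i
  apply Subtype.ext
  apply Units.ext
  rfl

theorem base_T (t : Tn r 𝔪 0) : t = 1 := by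
  have := subsingleton_Tr_zero 𝔪
  funext i
  apply Subtype.ext
  apply Units.ext
  exact Subsingleton.elim _ _

theorem pT_surjective (n : ℕ) : Function.Surjective (pT (W := W) r 𝔪 n) := by
  intro t
  -- lift the coordinates
  have hlift : ∀ i, ∃ s : mQ 𝔪 (n + 1), fac W 𝔪 n (s : Tr 𝔪 (n + 1)) = (torCoord t i : Tr 𝔪 n) := by
    intro i
    have h1 : (torCoord t i : Tr 𝔪 n) ∈ mQ 𝔪 n := (torCoord t i).2
    obtain ⟨x, hx, hxe⟩ := (Ideal.mem_map_iff_of_surjective _ Ideal.Quotient.mk_surjective).1 h1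
    exact ⟨⟨Ideal.Quotient.mk _ x, Ideal.mem_map_of_mem _ hx⟩, by rw [fac_mk, hxe]⟩
  choose s hs using hlift
  refine ⟨torPt (mQ_nilpotent 𝔪 (n + 1)) s, ?_⟩
  rw [pT_torPt, ← torPt_torCoord (mQ_nilpotent 𝔪 n) t]
  congr 1
  funext i
  exact Subtype.ext (hs i)

/-- `(1 + 𝔪)^r` is separated. -/
theorem qT_inj [IsHausdorff 𝔪 O] (w : Tinf r 𝔪) (h : ∀ n, qT (W := W) r 𝔪 n w = 1) : w = 1 := by
  funext i
  apply Subtype.ext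
  apply Units.ext
  show ((w i : Oˣ) : O) = 1
  rw [← sub_eq_zero]
  refine IsHausdorff.haus ‹IsHausdorff 𝔪 O› _ fun n => ?_
  rw [SModEq.zero, smul_eq_mul, Ideal.mul_top, ← Ideal.Quotient.eq_zero_iff_mem, map_sub, map_one,
    sub_eq_zero]
  have := congrArg (fun t : Tn r 𝔪 n => (((t i : unitsOne (mQ 𝔪 n)) : (Tr 𝔪 n)ˣ) : Tr 𝔪 n)) (h n)
  exact this

/-- `(1 + 𝔪)^r` is complete. -/
theorem qT_complete [IsAdicComplete 𝔪 O] (z : ∀ n, Tn r 𝔪 n)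
    (hz : ∀ n, pT (W := W) r 𝔪 n (z (n + 1)) = z n) :
    ∃ w : Tinf r 𝔪, ∀ n, qT (W := W) r 𝔪 n w = z n := by
  -- coordinatewise
  have hcoord : ∀ i : Fin r, ∃ x : O, ∀ n, Ideal.Quotient.mk (𝔪 ^ n) x
      = (((z n i : unitsOne (mQ 𝔪 n)) : (Tr 𝔪 n)ˣ) : Tr 𝔪 n) := by
    intro i
    -- lifts
    set f : ℕ → O := fun n => Quotient.out (((z n i : unitsOne (mQ 𝔪 n)) : (Tr 𝔪 n)ˣ) : Tr 𝔪 n)
      with hf
    have hfm : ∀ n, Ideal.Quotient.mk (𝔪 ^ n) (f n)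
        = (((z n i : unitsOne (mQ 𝔪 n)) : (Tr 𝔪 n)ˣ) : Tr 𝔪 n) := fun n => by
      rw [hf]; exact Quotient.out_eq _
    have hstep : ∀ n, Ideal.Quotient.mk (𝔪 ^ n) (f (n + 1)) = Ideal.Quotient.mk (𝔪 ^ n) (f n) := by
      intro n
      rw [hfm n, ← fac_mk W 𝔪 n (f (n + 1)), hfm (n + 1)]
      have := congrArg (fun t : Tn r 𝔪 n => (((t i : unitsOne (mQ 𝔪 n)) : (Tr 𝔪 n)ˣ) : Tr 𝔪 n))
        (hz n)
      exact this
    have hmono : ∀ {a b : ℕ}, a ≤ b → f a ≡ f b [SMOD (𝔪 ^ a • ⊤ : Submodule O O)] := by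
      intro a b hab
      induction b, hab using Nat.le_induction with
      | base => exact SModEq.refl _
      | succ b hab ih =>
        refine ih.trans ?_
        rw [SModEq.sub_mem, smul_eq_mul, Ideal.mul_top]
        have h1 := hstep b
        rw [Ideal.Quotient.eq] at h1
        have h2 : f (b + 1) - f b ∈ 𝔪 ^ a := Ideal.pow_le_pow_right hab h1
        have : f b - f (b + 1) = -(f (b + 1) - f b) := by ring
        rw [this]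
        exact neg_mem h2
    obtain ⟨L, hL⟩ := IsPrecomplete.prec (IsAdicComplete.toIsPrecomplete (I := 𝔪) (M := O)) hmono
    refine ⟨L, fun n => ?_⟩
    rw [← hfm n]
    have h1 := hL n
    rw [SModEq.sub_mem, smul_eq_mul, Ideal.mul_top] at h1
    exact (Ideal.Quotient.eq.2 h1).symm
  choose x hx using hcoord
  -- the limits are one-units
  have hx1 : ∀ i, x i - 1 ∈ 𝔪 := by
    intro i
    have h1 : (((z 1 i : unitsOne (mQ 𝔪 1)) : (Tr 𝔪 1)ˣ) : Tr 𝔪 1) - 1 ∈ mQ 𝔪 1 := (z 1 i).2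
    have h2 : mQ 𝔪 1 = ⊥ := by
      have := mQ_pow 𝔪 1
      simpa using this
    have h3 := Ideal.mem_bot.1 ((le_of_eq h2) h1)
    rw [← hx i 1, ← map_one (Ideal.Quotient.mk (𝔪 ^ 1)), ← map_sub,
      Ideal.Quotient.eq_zero_iff_mem, pow_one] at h3
    exact h3
  have hunit : ∀ i, IsUnit (x i) := by
    intro i
    have hj : x i - 1 ∈ (⊥ : Ideal O).jacobson := IsAdicComplete.le_jacobson_bot 𝔪 (hx1 i)
    have := Ideal.mem_jacobson_bot.1 hj 1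
    simpa using this
  refine ⟨fun i => ⟨(hunit i).unit, by rw [mem_unitsOne, IsUnit.unit_spec]; exact hx1 i⟩,
    fun n => ?_⟩
  funext i
  apply Subtype.ext
  apply Units.ext
  show Ideal.Quotient.mk (𝔪 ^ n) ((hunit i).unit : O) = _
  rw [IsUnit.unit_spec, hx i n]

end TowerT

/-! ### The toric map on the towers, and the tower hypotheses -/

section Hyp

variable {D : CechData W B0 B1 B01 g} {D' : CechData W B0' B1' B01' g'}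
  {O : Type u} [CommRing O] [Algebra W O] (𝔪 : Ideal O)

/-- the toric maps on the towers induced by a natural homomorphism. -/
def ιn (ι : TorNat r D) (n : ℕ) : Tn r 𝔪 n →* Jn D 𝔪 n :=
  ι.toHom (Tr 𝔪 n) (mQ 𝔪 n) (mQ_nilpotent 𝔪 n)

theorem ιn_pT (ι : TorNat r D) (n : ℕ) (t : Tn r 𝔪 (n + 1)) :
    ιn 𝔪 ι n (pT (W := W) r 𝔪 n t) = pJ D 𝔪 n (ιn 𝔪 ι (n + 1) t) :=
  ι.natural (fac W 𝔪 n) (mQ_nilpotent 𝔪 (n + 1)) (mQ_nilpotent 𝔪 n) (fac_mQ W 𝔪 n) t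

variable (η : JhatNat D D') (ι : TorNat r D)
  (hηι : ∀ (R : Type u) [CommRing R] [Algebra W R] (m : Ideal R) (hm : IsNilpotent m)
    (t : Fin r → unitsOne m), η.toHom R m hm (ι.toHom R m hm t) = 1)
  (e : Fin r ⊕ Fin g' ≃ Fin g) (P : Matrix (Fin r) (Fin g) W)
  {K : Matrix (Fin g) (Fin g) W} (hK : K * sumMat e P (jac η.series) = 1)
  {K2 : Matrix (Fin r) (Fin r) W} (hK2 : K2 * (P * jac ι.series) = 1)

include hηι hK hK2 in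
/-- **The tower hypotheses** of `Toric50.Tower` from natural homomorphisms and the Jacobian
(cotangent) hypotheses. -/
theorem towerHyp :
    Tower.Hyp (J := Jn D 𝔪) (B := Jn D' 𝔪) (T := Tn r 𝔪) (pJ D 𝔪) (pJ D' 𝔪) (pT (W := W) r 𝔪)
      (βn 𝔪 η) (ιn 𝔪 ι) where
  β_pJ := βn_pJ 𝔪 η
  ι_pT := ιn_pT 𝔪 ι
  pT_surj := pT_surjective r 𝔪
  β_ι n z := hηι _ _ _ z
  base_J := base_J D 𝔪
  base_T := base_T r 𝔪
  step_exact := by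
    intro n y hy hβ
    set a := (D.pkg (Tr 𝔪 (n + 1))).coord (mQ_nilpotent 𝔪 (n + 1)) y with ha
    have hya : (D.pkg (Tr 𝔪 (n + 1))).phi (mQ_nilpotent 𝔪 (n + 1)) a = y :=
      (D.pkg (Tr 𝔪 (n + 1))).phi_coord _ y
    -- the coordinates lie in the square zero ideal
    have hmem : ∀ i, (a i : Tr 𝔪 (n + 1)) ∈ kerI 𝔪 n := by
      intro i
      refine mem_kerI_of_fac_eq_zero W 𝔪 n (a i).2 ?_
      rw [← hya, pJ_phi, ← (D.pkg (Tr 𝔪 n)).phi_zero (mQ_nilpotent 𝔪 n)] at hy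
      have := (D.pkg (Tr 𝔪 n)).phi_injective (mQ_nilpotent 𝔪 n) hy
      exact congrArg (fun c : Fin g → mQ 𝔪 n => (c i : Tr 𝔪 n)) this
    set a' : Fin g → kerI 𝔪 n := fun i => ⟨a i, hmem i⟩ with ha'
    have hincl : CechData.incl (kerI_le 𝔪 n) a' = a := rfl
    rw [← hya, ← hincl] at hβ
    obtain ⟨s, hs⟩ := JhatNat.exists_tor_of_sq_zero η ι hηι e P hK hK2 (mQ_nilpotent 𝔪 (n + 1))
      (kerI_le 𝔪 n) (kerI_sq 𝔪 n) a' hβ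
    refine ⟨torPt (mQ_nilpotent 𝔪 (n + 1)) (CechData.incl (kerI_le 𝔪 n) s), ?_, ?_⟩
    · rw [pT_torPt, ← torPt_zero (mQ_nilpotent 𝔪 n)]
      congr 1
      funext i
      exact Subtype.ext (fac_eq_zero_of_mem_kerI W 𝔪 n (s i).2)
    · show ι.toHom _ _ _ _ = y
      rw [hs, hincl, hya]
  step_inj := by
    intro n w hw hι
    set s := torCoord w with hs
    have hws : torPt (mQ_nilpotent 𝔪 (n + 1)) s = w := torPt_torCoord _ w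
    have hmem : ∀ i, (s i : Tr 𝔪 (n + 1)) ∈ kerI 𝔪 n := by
      intro i
      refine mem_kerI_of_fac_eq_zero W 𝔪 n (s i).2 ?_
      rw [← hws, pT_torPt, ← torPt_zero (mQ_nilpotent 𝔪 n)] at hw
      have := torPt_injective (mQ_nilpotent 𝔪 n) hw
      exact congrArg (fun c : Fin r → mQ 𝔪 n => (c i : Tr 𝔪 n)) this
    set s' : Fin r → kerI 𝔪 n := fun i => ⟨s i, hmem i⟩ with hs'
    have hincl : CechData.incl (kerI_le 𝔪 n) s' = s := rfl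
    have hι' : ι.toHom _ _ (mQ_nilpotent 𝔪 (n + 1))
        (torPt (mQ_nilpotent 𝔪 (n + 1)) (CechData.incl (kerI_le 𝔪 n) s')) = 1 := by
      rw [hincl, hws]; exact hι
    have h0 := TorNat.eq_zero_of_sq_zero ι P hK2 (mQ_nilpotent 𝔪 (n + 1)) (kerI_le 𝔪 n)
      (kerI_sq 𝔪 n) s' hι'
    rw [← hws, ← torPt_zero (mQ_nilpotent 𝔪 (n + 1))]
    congr 1
    funext i
    apply Subtype.ext
    have := congrArg (fun c : Fin r → kerI 𝔪 n => (c i : Tr 𝔪 (n + 1))) h0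
    exact this

end Hyp

end Fermat.Agent.T1B.Toric11
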