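/-
T1B / TORIC50 (helper11), slice T-INST, part 3: honest points and their truncations.

Hub vocabulary (`RedIface75`): `c0 : TwoChart W B0 B1 B01` with Čech datum `D` whose restriction maps are
the structure maps `B_j → B01`.
* `jhatToPic c0 D hρ0 hρ1 R hm : Ĵ_D(R, m) →* PicX c0 R`, `cls u ↦ cechClass u`, an INJECTIVE
  homomorphism (`jhatToPic_injective`), natural for base change (`map_jhatToPic`);
* for a DVR `O` over `W` with maximal ideal `𝔪`: `uJ c0 D hρ0 hρ1 O n : J1 c0 O →* Jn D 𝔪 n`, characterised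
  by `jhatToPic (uJ n y) = PicX.map c0 O (O/𝔪^n) y` (`jhatToPic_uJ`, `uJ_unique`);
  `uJ_compat : pJ D 𝔪 n (uJ (n+1) y) = uJ n y`; `uJ_inj` from `RedIface75.CoordInjective c0 O`;
  `uJ_eq_phi_coord` (relation with `Red20.CoordFun.coord`).
-/
import Mathlib
import Fermat.Agent.T1B.Toric11.TowerJ
import Fermat.Agent.T1.Red11.CoordEU
import Fermat.Agent.T1.Red20.CoordFun
import Fermat.Agent.T1.CechFormal70.Bridge

set_option autoImplicit false
set_option maxHeartbeats 400000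
set_option linter.unusedSectionVars false

open TensorProduct

noncomputable section

namespace Fermat.Agent.T1B.Toric11

open Fermat.Agent.Jac Fermat.Agent.Jac.JSmooth85Alg Fermat.Agent.Jac.JGroup85Pic
open Fermat.Agent.Jac.BaseChange75
open Fermat.Agent.T1.RedIface75 Fermat.Agent.T1.CechFormal70 Fermat.Agent.T1.Red11
open Fermat.Agent.T1.Red20.CoordFun
open scoped Fermat.Agent.Jac.BaseChange75

universe u

variable {W B0 B1 B01 : Type u} [CommRing W] [CommRing B0] [CommRing B1] [CommRing B01]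
  [Algebra W B0] [Algebra W B1] [Algebra W B01] [Algebra B0 B01] [Algebra B1 B01]
  [IsScalarTower W B0 B01] [IsScalarTower W B1 B01]
  (c0 : TwoChart W B0 B1 B01) {g : ℕ} (D : CechData W B0 B1 B01 g)
  (hρ0 : ∀ x, D.ρ0 x = algebraMap B0 B01 x) (hρ1 : ∀ x, D.ρ1 x = algebraMap B1 B01 x)

/-! ### `Ĵ(R, m) → Pic X_R` -/

section JhatToPic

variable (R : Type u) [CommRing R] [Algebra W R] {m : Ideal R} (hm : IsNilpotent m)

include hρ0 hρ1 hm in
theorem cechClass_eq_one_of_mem_bdry (u : unitsOne (eI m (R ⊗[W] B01)))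
    (hu : u ∈ (D.pkg R).bdry m) : cechClass (c0.baseChange R) (u : (R ⊗[W] B01)ˣ) = 1 := by
  have h1 : (D.pkg R).cls m u = (D.pkg R).cls m 1 := by
    rw [map_one]
    exact (QuotientGroup.eq_one_iff u).2 hu
  have h2 := (cechClass_eq_iff_cls_eq (c0.baseChange R) (D.pkg R)
    (Fermat.Agent.T1.Red11.pkg_r0_eq_algebraMap D hρ0 R) (Fermat.Agent.T1.Red11.pkg_r1_eq_algebraMap D hρ1 R) hm u 1).2 h1
  rw [h2]
  exact cechClass_one (c0.baseChange R)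

/-- **`Ĵ_D(R, m) → Pic X_R`**, `cls u ↦ cechClass u`. -/
def jhatToPic : (D.pkg R).Jhat m →* PicX c0 R :=
  QuotientGroup.lift ((D.pkg R).bdry m)
    ((cechClassHom (c0.baseChange R)).comp (unitsOne (eI m (R ⊗[W] B01))).subtype)
    (fun u hu => cechClass_eq_one_of_mem_bdry c0 D hρ0 hρ1 R hm u hu)

@[simp] theorem jhatToPic_cls (u : unitsOne (eI m (R ⊗[W] B01))) :
    jhatToPic c0 D hρ0 hρ1 R hm ((D.pkg R).cls m u)
      = cechClass (c0.baseChange R) (u : (R ⊗[W] B01)ˣ) := rfl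

theorem jhatToPic_phi (a : Fin g → m) :
    jhatToPic c0 D hρ0 hρ1 R hm ((D.pkg R).phi hm a)
      = cechClass (c0.baseChange R) (((D.pkg R).phiUnit hm a : unitsOne _) : (R ⊗[W] B01)ˣ) := rfl

theorem jhatToPic_injective : Function.Injective (jhatToPic c0 D hρ0 hρ1 R hm) := by
  intro z z' h
  obtain ⟨u, rfl⟩ := (D.pkg R).cls_surjective m z
  obtain ⟨v, rfl⟩ := (D.pkg R).cls_surjective m z'
  rw [jhatToPic_cls, jhatToPic_cls] at h
  exact (cechClass_eq_iff_cls_eq (c0.baseChange R) (D.pkg R)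
    (Fermat.Agent.T1.Red11.pkg_r0_eq_algebraMap D hρ0 R) (Fermat.Agent.T1.Red11.pkg_r1_eq_algebraMap D hρ1 R) hm u v).1 h

/-- naturality of `jhatToPic` for base change. -/
theorem map_jhatToPic (R' : Type u) [CommRing R'] [Algebra W R'] [Algebra R R']
    [IsScalarTower W R R'] {m' : Ideal R'} (hm' : IsNilpotent m')
    (h : m ≤ m'.comap ((IsScalarTower.toAlgHom W R R' : R →ₐ[W] R') : R →+* R'))
    (z : (D.pkg R).Jhat m) :
    PicX.map c0 R R' (jhatToPic c0 D hρ0 hρ1 R hm z)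
      = jhatToPic c0 D hρ0 hρ1 R' hm' (D.JhatMap (IsScalarTower.toAlgHom W R R') h z) := by
  obtain ⟨u, rfl⟩ := (D.pkg R).cls_surjective m z
  rw [jhatToPic_cls, PicX.map_cechClass]
  show _ = jhatToPic c0 D hρ0 hρ1 R' hm'
    ((D.pkg R').cls m' ((D.pkgHom (IsScalarTower.toAlgHom W R R')).u01 h u))
  rw [jhatToPic_cls]
  congr 1

end JhatToPic

/-! ### The truncation maps on honest points -/

section UJ

variable (O : Type u) [CommRing O] [IsDomain O] [IsDiscreteValuationRing O] [Algebra W O]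

local notation "𝔪O" => IsLocalRing.maximalIdeal O

include hρ0 hρ1 in
/-- existence and uniqueness of the truncated class. -/
theorem existsUnique_uJ (y : J1 c0 O) (n : ℕ) :
    ∃! z : Jn D 𝔪O n, jhatToPic c0 D hρ0 hρ1 (Tr 𝔪O n) (mQ_nilpotent 𝔪O n) z
      = PicX.map c0 O (Tr 𝔪O n) (y : PicX c0 O) := by
  obtain ⟨a, ⟨ha, u, hu, hy⟩, -⟩ := coordExistsUnique c0 D hρ0 hρ1 O y.1 y.2 n
  set a' : Fin g → mQ 𝔪O n := fun i => ⟨a i, ha i⟩ with ha'
  refine ⟨(D.pkg (Tr 𝔪O n)).phi (mQ_nilpotent 𝔪O n) a', ?_, ?_⟩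
  · show jhatToPic c0 D hρ0 hρ1 (Tr 𝔪O n) (mQ_nilpotent 𝔪O n) _ = _
    rw [jhatToPic_phi, hy]
    congr 1
    apply Units.ext
    rw [Fermat.Agent.T1.Red11.coe_phiUnit_eq_cechElt D (Tr 𝔪O n) (mQ_nilpotent 𝔪O n) a', hu]
  · intro z hz
    apply jhatToPic_injective c0 D hρ0 hρ1 (Tr 𝔪O n) (mQ_nilpotent 𝔪O n)
    rw [hz, jhatToPic_phi, hy]
    congr 1
    apply Units.ext
    rw [Fermat.Agent.T1.Red11.coe_phiUnit_eq_cechElt D (Tr 𝔪O n) (mQ_nilpotent 𝔪O n) a', hu]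

/-- the truncation of a class of `J̃1(O)` at level `n`, as a function. -/
def uJfun (n : ℕ) (y : J1 c0 O) : Jn D 𝔪O n :=
  (existsUnique_uJ c0 D hρ0 hρ1 O y n).exists.choose

theorem jhatToPic_uJfun (n : ℕ) (y : J1 c0 O) :
    jhatToPic c0 D hρ0 hρ1 (Tr 𝔪O n) (mQ_nilpotent 𝔪O n) (uJfun c0 D hρ0 hρ1 O n y)
      = PicX.map c0 O (Tr 𝔪O n) (y : PicX c0 O) :=
  (existsUnique_uJ c0 D hρ0 hρ1 O y n).exists.choose_spec

theorem uJfun_unique (n : ℕ) (y : J1 c0 O) (z : Jn D 𝔪O n)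
    (hz : jhatToPic c0 D hρ0 hρ1 (Tr 𝔪O n) (mQ_nilpotent 𝔪O n) z
      = PicX.map c0 O (Tr 𝔪O n) (y : PicX c0 O)) : uJfun c0 D hρ0 hρ1 O n y = z :=
  jhatToPic_injective c0 D hρ0 hρ1 (Tr 𝔪O n) (mQ_nilpotent 𝔪O n)
    ((jhatToPic_uJfun c0 D hρ0 hρ1 O n y).trans hz.symm)

/-- **the truncation homomorphisms** `u n : J̃1(O) →* Ĵ_D(O/𝔪^n, 𝔪/𝔪^n)`. -/
def uJ (n : ℕ) : J1 c0 O →* Jn D 𝔪O n where
  toFun := uJfun c0 D hρ0 hρ1 O n
  map_one' := uJfun_unique c0 D hρ0 hρ1 O n 1 1 (by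
    rw [map_one, Subgroup.coe_one, map_one])
  map_mul' y y' := uJfun_unique c0 D hρ0 hρ1 O n (y * y') _ (by
    rw [map_mul, jhatToPic_uJfun, jhatToPic_uJfun, Subgroup.coe_mul, map_mul])

/-- the characterisation of `uJ`. -/
theorem jhatToPic_uJ (n : ℕ) (y : J1 c0 O) :
    jhatToPic c0 D hρ0 hρ1 (Tr 𝔪O n) (mQ_nilpotent 𝔪O n) (uJ c0 D hρ0 hρ1 O n y)
      = PicX.map c0 O (Tr 𝔪O n) (y : PicX c0 O) :=
  jhatToPic_uJfun c0 D hρ0 hρ1 O n y

theorem uJ_unique (n : ℕ) (y : J1 c0 O) (z : Jn D 𝔪O n)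
    (hz : jhatToPic c0 D hρ0 hρ1 (Tr 𝔪O n) (mQ_nilpotent 𝔪O n) z
      = PicX.map c0 O (Tr 𝔪O n) (y : PicX c0 O)) : uJ c0 D hρ0 hρ1 O n y = z :=
  uJfun_unique c0 D hρ0 hρ1 O n y z hz

/-- **compatibility with the transition maps**. -/
theorem uJ_compat (n : ℕ) (y : J1 c0 O) :
    pJ D 𝔪O n (uJ c0 D hρ0 hρ1 O (n + 1) y) = uJ c0 D hρ0 hρ1 O n y := by
  symm
  apply uJ_unique
  let _ := truncAlgebra O (Nat.le_succ n)
  have := truncTowerO O (Nat.le_succ n)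
  have := truncTowerW (W := W) O (Nat.le_succ n)
  have hfac : (IsScalarTower.toAlgHom W (Tr 𝔪O (n + 1)) (Tr 𝔪O n)) = fac W 𝔪O n := by
    apply AlgHom.ext
    intro x
    rfl
  have h := map_jhatToPic c0 D hρ0 hρ1 (Tr 𝔪O (n + 1)) (mQ_nilpotent 𝔪O (n + 1)) (Tr 𝔪O n)
    (mQ_nilpotent 𝔪O n) (by rw [hfac]; exact fac_mQ W 𝔪O n) (uJ c0 D hρ0 hρ1 O (n + 1) y)
  rw [jhatToPic_uJ, PicX.map_comp c0 O (Tr 𝔪O (n + 1)) (Tr 𝔪O n)] at h
  rw [h]
  congr 1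

/-- **formal functions**: given brick R-e, the truncations detect the trivial class. -/
theorem uJ_inj (hInj : CoordInjective c0 O) (y : J1 c0 O)
    (h : ∀ n, uJ c0 D hρ0 hρ1 O n y = 1) : y = 1 := by
  apply Subtype.ext
  apply hInj
  intro n
  rw [← jhatToPic_uJ c0 D hρ0 hρ1 O n y, h n, map_one]

/-- relation with the coordinates of `Red20.CoordFun`. -/
theorem uJ_eq_phi_coord (hEU : CoordExistsUnique c0 O D.b) (n : ℕ) (y : J1 c0 O) :
    uJ c0 D hρ0 hρ1 O n y = (D.pkg (Tr 𝔪O n)).phi (mQ_nilpotent 𝔪O n)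
      (fun i => ⟨coord hEU n y i, coord_mem hEU n y i⟩) := by
  apply uJ_unique
  obtain ⟨u, hu, hy⟩ := coord_spec hEU n y
  rw [jhatToPic_phi, hy]
  congr 1
  apply Units.ext
  rw [Fermat.Agent.T1.Red11.coe_phiUnit_eq_cechElt D (Tr 𝔪O n) (mQ_nilpotent 𝔪O n), hu]

end UJ

end Fermat.Agent.T1B.Toric11
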