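/-
T1B / TORIC50 (helper11): **`uJ` is onto `lim Jn`** from the algebraisation brick T-ALG, and the
field `alg` of `Toric50.Package2`.

* `AlgCoord c0 O b` : the deliverable of T-ALG in coordinates (the exact mirror of
  `RedIface75.CoordExistsUnique`): for every `a ∈ 𝔪^g` there is a class `y ∈ J̃¹(O)` whose truncation
  modulo `𝔪^n` is the Čech class of `∏ (1 + a_i ⊗ b_i)`, for all `n`.
* `AlgUnits c0 O` : the same for all `v ∈ 1 + 𝔪 (O ⊗ B01)` (helper81's `CoordSurjective` shape);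
  `AlgUnits.algCoord`.
* `exists_adic_limit` : a compatible family in `O/𝔪^n` has a limit in a complete `O`.
* `exists_uJ_eq` : (`O` complete) every compatible family `x n ∈ Jn D 𝔪 n` is the family of
  truncations of some `y ∈ J̃¹(O)`.
* `exists_uJ_eq_ι` : the field `alg` of `Package2`, for ANY tower hom `ι n : T n →* Jn D 𝔪 n`
  compatible with the transition maps.
-/
import Mathlib
import Fermat.Agent.T1B.Toric11.TowerU

set_option autoImplicit false
set_option maxHeartbeats 400000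
set_option linter.unusedSectionVars false
set_option linter.unusedVariables false

open TensorProduct

noncomputable section

namespace Fermat.Agent.T1B.Toric11

open Fermat.Agent.Jac Fermat.Agent.Jac.JSmooth85Alg Fermat.Agent.Jac.JGroup85Pic
open Fermat.Agent.Jac.BaseChange75
open Fermat.Agent.T1.RedIface75 Fermat.Agent.T1.CechFormal70 Fermat.Agent.T1.Red11
open Fermat.Agent.T1.Red20.CoordFun
open scoped Fermat.Agent.Jac.BaseChange75

universe u

variable {W B0 B1 B01 : Type u} [CommRing W] [CommRing B0] [CommRing B1] [CommRing B01]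
  [Algebra W B0] [Algebra W B1] [Algebra W B01] [Algebra B0 B01] [Algebra B1 B01]
  [IsScalarTower W B0 B01] [IsScalarTower W B1 B01]
  (c0 : TwoChart W B0 B1 B01) {g : ℕ} (D : CechData W B0 B1 B01 g)
  (hρ0 : ∀ x, D.ρ0 x = algebraMap B0 B01 x) (hρ1 : ∀ x, D.ρ1 x = algebraMap B1 B01 x)

/-! ### Limits in a complete ring -/

section Limit

variable {O : Type u} [CommRing O] [Algebra W O] (𝔪 : Ideal O)

/-- a compatible family in `O/𝔪^n` has a limit in a complete `O`. -/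
theorem exists_adic_limit [IsAdicComplete 𝔪 O] (t : ∀ n, Tr 𝔪 n)
    (ht : ∀ n, fac W 𝔪 n (t (n + 1)) = t n) :
    ∃ x : O, ∀ n, Ideal.Quotient.mk (𝔪 ^ n) x = t n := by
  set f : ℕ → O := fun n => Quotient.out (t n) with hf
  have hfm : ∀ n, Ideal.Quotient.mk (𝔪 ^ n) (f n) = t n := fun n => by
    rw [hf]; exact Quotient.out_eq _
  have hstep : ∀ n, Ideal.Quotient.mk (𝔪 ^ n) (f (n + 1)) = Ideal.Quotient.mk (𝔪 ^ n) (f n) := by
    intro n
    rw [hfm n, ← fac_mk W 𝔪 n (f (n + 1)), hfm (n + 1), ht n]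
  have hmono : ∀ {a b : ℕ}, a ≤ b → f a ≡ f b [SMOD (𝔪 ^ a • ⊤ : Submodule O O)] := by
    intro a b hab
    induction b, hab using Nat.le_induction with
    | base => exact SModEq.refl _
    | succ b hab ih =>
      refine ih.trans ?_
      rw [SModEq.sub_mem, smul_eq_mul, Ideal.mul_top]
      have h1 := hstep b
      rw [Ideal.Quotient.eq] at h1
      have h2 : f (b + 1) - f b ∈ 𝔪 ^ a := Ideal.pow_le_pow_right hab h1
      have : f b - f (b + 1) = -(f (b + 1) - f b) := by ring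
      rw [this]
      exact neg_mem h2
  obtain ⟨L, hL⟩ := IsPrecomplete.prec (IsAdicComplete.toIsPrecomplete (I := 𝔪) (M := O)) hmono
  refine ⟨L, fun n => ?_⟩
  rw [← hfm n]
  have h1 := hL n
  rw [SModEq.sub_mem, smul_eq_mul, Ideal.mul_top] at h1
  exact (Ideal.Quotient.eq.2 h1).symm

/-- an element whose class modulo `𝔪^1` lies in `𝔪/𝔪^1` lies in `𝔪`. -/
theorem mem_of_mk_one_mem_mQ {x : O} (h : Ideal.Quotient.mk (𝔪 ^ 1) x ∈ mQ 𝔪 1) : x ∈ 𝔪 := by
  rw [Ideal.mem_map_iff_of_surjective _ Ideal.Quotient.mk_surjective] at h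
  obtain ⟨y, hy, hxy⟩ := h
  rw [Ideal.Quotient.eq, pow_one] at hxy
  have : x = y - (y - x) := by ring
  rw [this]
  exact sub_mem hy hxy

end Limit

/-! ### The algebraisation hypotheses -/

section Alg

variable (O : Type u) [CommRing O] [IsDomain O] [IsDiscreteValuationRing O] [Algebra W O]

local notation "𝔪O" => IsLocalRing.maximalIdeal O

/-- **T-ALG in coordinates** (the mirror of `RedIface75.CoordExistsUnique`): every `a ∈ 𝔪^g` is the
coordinate vector of a class of `J̃¹(O)`. -/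
def AlgCoord {g : ℕ} (b : Fin g → B01) : Prop :=
  ∀ a : Fin g → O, (∀ i, a i ∈ 𝔪O) → ∃ y : J1 c0 O, ∀ n : ℕ,
    ∃ u : (Tr 𝔪O n ⊗[W] B01)ˣ,
      (u : Tr 𝔪O n ⊗[W] B01) = cechElt b (fun i => Ideal.Quotient.mk (𝔪O ^ n) (a i)) ∧
      PicX.map c0 O (Tr 𝔪O n) (y : PicX c0 O) = cechClass (c0.baseChange (Tr 𝔪O n)) u

/-- **T-ALG for one-units** (`CoordSurjective` shape): every `v ∈ 1 + 𝔪 (O ⊗ B01)` is, modulo every
`𝔪^n`, the Čech cocycle of one and the same class of `J̃¹(O)`. -/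
def AlgUnits : Prop :=
  ∀ v : O ⊗[W] B01, v - 1 ∈ eI 𝔪O (O ⊗[W] B01) → ∃ y : J1 c0 O, ∀ n : ℕ,
    ∃ u : (Tr 𝔪O n ⊗[W] B01)ˣ,
      (u : Tr 𝔪O n ⊗[W] B01) = algebraMap (O ⊗[W] B01) (Tr 𝔪O n ⊗[W] B01) v ∧
      PicX.map c0 O (Tr 𝔪O n) (y : PicX c0 O) = cechClass (c0.baseChange (Tr 𝔪O n)) u

/-- `AlgUnits` with the truncation written as `Algebra.TensorProduct.map (quo ..) id`. -/
def AlgUnitsMap : Prop :=
  ∀ v : O ⊗[W] B01, v - 1 ∈ eI 𝔪O (O ⊗[W] B01) → ∃ y : J1 c0 O, ∀ n : ℕ,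
    ∃ u : (Tr 𝔪O n ⊗[W] B01)ˣ,
      (u : Tr 𝔪O n ⊗[W] B01)
        = Algebra.TensorProduct.map (quo W 𝔪O n) (AlgHom.id W B01) v ∧
      PicX.map c0 O (Tr 𝔪O n) (y : PicX c0 O) = cechClass (c0.baseChange (Tr 𝔪O n)) u

theorem algebraMap_trunc_eq_map (n : ℕ) (v : O ⊗[W] B01) :
    algebraMap (O ⊗[W] B01) (Tr 𝔪O n ⊗[W] B01) v
      = Algebra.TensorProduct.map (quo W 𝔪O n) (AlgHom.id W B01) v := by
  rw [algebraMap_left_eq_map]
  rfl

theorem cechElt_sub_one_mem {R : Type u} [CommRing R] [Algebra W R] (I : Ideal R) {g : ℕ}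
    (b : Fin g → B01) (a : Fin g → R) (ha : ∀ i, a i ∈ I) :
    cechElt b a - 1 ∈ eI I (R ⊗[W] B01) := by
  unfold cechElt
  refine prod_one_add_sub_one_mem (eI I (R ⊗[W] B01)) Finset.univ _ fun i => ?_
  have : a i ⊗ₜ[W] b i = a i • ((1 : R) ⊗ₜ[W] b i) := by
    rw [TensorProduct.smul_tmul', smul_eq_mul, mul_one]
  rw [this]
  exact smul_mem_eI (T := R ⊗[W] B01) (ha i) _

variable {c0 O}

theorem AlgUnitsMap.algUnits (h : AlgUnitsMap c0 O) : AlgUnits c0 O := by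
  intro v hv
  obtain ⟨y, hy⟩ := h v hv
  refine ⟨y, fun n => ?_⟩
  obtain ⟨u, hu, hyu⟩ := hy n
  exact ⟨u, by rw [hu, algebraMap_trunc_eq_map], hyu⟩

theorem AlgUnits.algCoord (h : AlgUnits c0 O) {g : ℕ} (b : Fin g → B01) : AlgCoord c0 O b := by
  intro a ha
  obtain ⟨y, hy⟩ := h (cechElt b a) (cechElt_sub_one_mem 𝔪O b a ha)
  refine ⟨y, fun n => ?_⟩
  obtain ⟨u, hu, hyu⟩ := hy n
  refine ⟨u, ?_, hyu⟩
  rw [hu, map_cechElt]
  rfl

end Alg

/-! ### `uJ` is onto the limit -/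

section Onto

variable (O : Type u) [CommRing O] [IsDomain O] [IsDiscreteValuationRing O] [Algebra W O]

local notation "𝔪O" => IsLocalRing.maximalIdeal O

include hρ0 hρ1 in
/-- **Algebraisation of formal classes**: over a complete `O`, every compatible family of the tower
`Jn D 𝔪 n` is the family of truncations of a class of `J̃¹(O)`. -/
theorem exists_uJ_eq (hA : AlgCoord c0 O D.b) [IsAdicComplete 𝔪O O]
    (x : ∀ n, Jn D 𝔪O n) (hx : ∀ n, pJ D 𝔪O n (x (n + 1)) = x n) :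
    ∃ y : J1 c0 O, ∀ n, uJ c0 D hρ0 hρ1 O n y = x n := by
  -- coordinates of the family
  set α : ∀ n, Fin g → mQ 𝔪O n := fun n => (D.pkg (Tr 𝔪O n)).coord (mQ_nilpotent 𝔪O n) (x n)
    with hα
  have hφ : ∀ n, (D.pkg (Tr 𝔪O n)).phi (mQ_nilpotent 𝔪O n) (α n) = x n := fun n =>
    (D.pkg (Tr 𝔪O n)).phi_coord (mQ_nilpotent 𝔪O n) (x n)
  -- compatibility of the coordinates
  have hcompat : ∀ n i, fac W 𝔪O n (α (n + 1) i : Tr 𝔪O (n + 1)) = (α n i : Tr 𝔪O n) := by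
    intro n i
    have h1 := hx n
    rw [← hφ (n + 1), pJ_phi, ← hφ n] at h1
    have h2 := (D.pkg (Tr 𝔪O n)).phi_injective (mQ_nilpotent 𝔪O n) h1
    exact congrArg Subtype.val (congrFun h2 i)
  -- limits
  have hlim : ∀ i, ∃ a : O, ∀ n, Ideal.Quotient.mk (𝔪O ^ n) a = (α n i : Tr 𝔪O n) := fun i =>
    exists_adic_limit (W := W) 𝔪O (fun n => (α n i : Tr 𝔪O n)) fun n => hcompat n i
  choose a ha using hlim
  have ham : ∀ i, a i ∈ 𝔪O := fun i => by
    apply mem_of_mk_one_mem_mQ 𝔪O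
    rw [ha i 1]
    exact (α 1 i).2
  obtain ⟨y, hy⟩ := hA a ham
  refine ⟨y, fun n => ?_⟩
  rw [← hφ n]
  apply uJ_unique
  obtain ⟨u, hu, hyu⟩ := hy n
  rw [jhatToPic_phi, hyu]
  congr 1
  apply Units.ext
  rw [Fermat.Agent.T1.Red11.coe_phiUnit_eq_cechElt D (Tr 𝔪O n) (mQ_nilpotent 𝔪O n), hu]
  congr 1
  funext i
  exact (ha i n).symm

include hρ0 hρ1 in
/-- **The field `alg` of `Toric50.Package2`**, for any tower hom `ι n : T n →* Jn D 𝔪 n` compatible
with the transition maps and any compatible system `q n : Tinf →* T n`. -/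
theorem exists_uJ_eq_ι (hA : AlgCoord c0 O D.b) [IsAdicComplete 𝔪O O]
    {T : ℕ → Type*} [∀ n, CommGroup (T n)] {Tinf : Type*} [CommGroup Tinf]
    (pT : ∀ n, T (n + 1) →* T n) (ι : ∀ n, T n →* Jn D 𝔪O n) (q : ∀ n, Tinf →* T n)
    (ι_pT : ∀ n (z : T (n + 1)), ι n (pT n z) = pJ D 𝔪O n (ι (n + 1) z))
    (q_compat : ∀ n (w : Tinf), pT n (q (n + 1) w) = q n w) (w : Tinf) :
    ∃ y : J1 c0 O, ∀ n, uJ c0 D hρ0 hρ1 O n y = ι n (q n w) :=
  exists_uJ_eq c0 D hρ0 hρ1 O hA (fun n => ι n (q n w)) fun n => by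
    rw [← ι_pT, q_compat]

end Onto

end Fermat.Agent.T1B.Toric11
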