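/-
T1B / TORIC50 (helper11), slice T-INST, part 2 (plan v2 of report 931, items (I4'), (I5')).

* `towerHomOfUnitHoms` : monoid homs on the groups of Čech one-units mapping coboundaries to
  coboundaries induce `β n : Jn D 𝔪 n →* Jn D' 𝔪 n`; `towerHom_pJ` (compatibility with the transition
  maps);
* `lam D 𝔪 n : Multiplicative (Fin g → kerI 𝔪 n) →* Jn D 𝔪 (n+1)`, `a ↦ φ(a)`, an injective
  homomorphism with range `ker (pJ D 𝔪 n)`; `lamT r 𝔪 n : Multiplicative (Fin r → kerI 𝔪 n) →* Tn r 𝔪 (n+1)`,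
  `w ↦ 1 + w`, injective with range `ker (pT r 𝔪 n)`; `lam2` for a product target;
* `step_exact_of_firstOrder`, `step_inj_of_firstOrder`, `hyp_of_firstOrder` : first order exactness
  gives the fields `step_exact`, `step_inj` of `Toric50.Tower.Hyp`;
* matrix form: `mulVecIHom`, `firstOrder_of_matrices` (`P * Dι ≡ 1`, `Dι * P + S * Dβ ≡ 1` modulo an
  ideal `𝔭` of `W` mapping into `𝔪`).
-/
import Mathlib
import Fermat.Agent.T1B.Toric11.TowerJ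

set_option autoImplicit false
set_option maxHeartbeats 400000
set_option linter.unusedSectionVars false

noncomputable section

namespace Fermat.Agent.T1B.Toric11

open Fermat.Agent.T1.IFT50 Fermat.Agent.T1.CechFormal70 Fermat.Agent.T1B.Toric50
open scoped TensorProduct

universe u

variable {W B0 B1 B01 B0' B1' B01' : Type u} [CommRing W]
  [CommRing B0] [CommRing B1] [CommRing B01] [Algebra W B0] [Algebra W B1] [Algebra W B01]
  [CommRing B0'] [CommRing B1'] [CommRing B01'] [Algebra W B0'] [Algebra W B1'] [Algebra W B01']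
  {g g' r : ℕ}

/-! ### (I4') tower homomorphisms from homomorphisms of unit groups -/

section UnitHoms

variable (D : CechData W B0 B1 B01 g) (D' : CechData W B0' B1' B01' g')
  {O : Type u} [CommRing O] [Algebra W O] (𝔪 : Ideal O)

/-- the group of Čech one-units at level `n`. -/
abbrev U01 (n : ℕ) : Type u := unitsOne (eI (mQ 𝔪 n) (Tr 𝔪 n ⊗[W] B01))

/-- the transition maps on Čech one-units. -/
def pU (n : ℕ) : U01 (W := W) (B01 := B01) 𝔪 (n + 1) →* U01 (W := W) (B01 := B01) 𝔪 n :=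
  (D.pkgHom (fac W 𝔪 n)).u01 (fac_mQ W 𝔪 n)

theorem pJ_cls (n : ℕ) (u : U01 (W := W) (B01 := B01) 𝔪 (n + 1)) :
    pJ D 𝔪 n ((D.pkg (Tr 𝔪 (n + 1))).cls (mQ 𝔪 (n + 1)) u)
      = (D.pkg (Tr 𝔪 n)).cls (mQ 𝔪 n) (pU D 𝔪 n u) := rfl

variable {D D'}

/-- **(I4')** a homomorphism of the groups of Čech one-units which maps coboundaries to
coboundaries induces a homomorphism of the Čech formal groups. -/
def towerHomOfUnitHoms
    (N : ∀ n, U01 (W := W) (B01 := B01) 𝔪 n →* U01 (W := W) (B01 := B01') 𝔪 n)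
    (hN : ∀ n, (D.pkg (Tr 𝔪 n)).bdry (mQ 𝔪 n) ≤ ((D'.pkg (Tr 𝔪 n)).bdry (mQ 𝔪 n)).comap (N n))
    (n : ℕ) : Jn D 𝔪 n →* Jn D' 𝔪 n :=
  QuotientGroup.map _ _ (N n) (hN n)

@[simp] theorem towerHom_cls
    (N : ∀ n, U01 (W := W) (B01 := B01) 𝔪 n →* U01 (W := W) (B01 := B01') 𝔪 n)
    (hN : ∀ n, (D.pkg (Tr 𝔪 n)).bdry (mQ 𝔪 n) ≤ ((D'.pkg (Tr 𝔪 n)).bdry (mQ 𝔪 n)).comap (N n))
    (n : ℕ) (u : U01 (W := W) (B01 := B01) 𝔪 n) :
    towerHomOfUnitHoms 𝔪 N hN n ((D.pkg (Tr 𝔪 n)).cls (mQ 𝔪 n) u)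
      = (D'.pkg (Tr 𝔪 n)).cls (mQ 𝔪 n) (N n u) := rfl

/-- compatibility with the transition maps. -/
theorem towerHom_pJ
    (N : ∀ n, U01 (W := W) (B01 := B01) 𝔪 n →* U01 (W := W) (B01 := B01') 𝔪 n)
    (hN : ∀ n, (D.pkg (Tr 𝔪 n)).bdry (mQ 𝔪 n) ≤ ((D'.pkg (Tr 𝔪 n)).bdry (mQ 𝔪 n)).comap (N n))
    (hcomm : ∀ n u, N n (pU D 𝔪 n u) = pU D' 𝔪 n (N (n + 1) u))
    (n : ℕ) (y : Jn D 𝔪 (n + 1)) :
    towerHomOfUnitHoms 𝔪 N hN n (pJ D 𝔪 n y) = pJ D' 𝔪 n (towerHomOfUnitHoms 𝔪 N hN (n + 1) y) := by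
  obtain ⟨u, rfl⟩ := (D.pkg (Tr 𝔪 (n + 1))).cls_surjective _ y
  rw [pJ_cls, towerHom_cls, towerHom_cls, pJ_cls, hcomm]

end UnitHoms

/-! ### (I5') the first order parametrisations -/

section Lam

variable (D : CechData W B0 B1 B01 g) (D' : CechData W B0' B1' B01' g')
  {O : Type u} [CommRing O] [Algebra W O] (𝔪 : Ideal O)

theorem kerI_mul_mQ (n : ℕ) : kerI 𝔪 n * mQ 𝔪 (n + 1) = ⊥ := by
  rw [eq_bot_iff]
  calc kerI 𝔪 n * mQ 𝔪 (n + 1)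
      ≤ (𝔪 ^ n).map (Ideal.Quotient.mk (𝔪 ^ (n + 1))) * mQ 𝔪 (n + 1) :=
        Ideal.mul_mono inf_le_left le_rfl
    _ = ⊥ := by rw [← Ideal.map_mul, ← pow_succ, Ideal.map_quotient_self]

theorem mul_eq_zero_of_mem_kerI (n : ℕ) {x y : Tr 𝔪 (n + 1)} (hx : x ∈ kerI 𝔪 n)
    (hy : y ∈ mQ 𝔪 (n + 1)) : x * y = 0 := by
  have := Ideal.mul_mem_mul hx hy
  rwa [kerI_mul_mQ, Ideal.mem_bot] at this

/-- the first order points of the torus: `w ↦ 1 + w`. -/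
def lamT (r : ℕ) (n : ℕ) : Multiplicative (Fin r → kerI 𝔪 n) →* Tn r 𝔪 (n + 1) where
  toFun w := torPt (mQ_nilpotent 𝔪 (n + 1)) (CechData.incl (kerI_le 𝔪 n) (Multiplicative.toAdd w))
  map_one' := torPt_zero _
  map_mul' w w' := by
    funext i
    apply Subtype.ext
    apply Units.ext
    show 1 + ((Multiplicative.toAdd w i + Multiplicative.toAdd w' i : kerI 𝔪 n) : Tr 𝔪 (n + 1))
      = (1 + ((Multiplicative.toAdd w i : kerI 𝔪 n) : Tr 𝔪 (n + 1)))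
        * (1 + ((Multiplicative.toAdd w' i : kerI 𝔪 n) : Tr 𝔪 (n + 1)))
    have h0 := mul_eq_zero_of_mem_kerI 𝔪 n (Multiplicative.toAdd w i).2
      (kerI_le 𝔪 n (Multiplicative.toAdd w' i).2)
    rw [Submodule.coe_add]
    linear_combination (-1 : Tr 𝔪 (n + 1)) * h0

theorem lamT_apply (r n : ℕ) (w : Fin r → kerI 𝔪 n) :
    lamT 𝔪 r n (Multiplicative.ofAdd w)
      = torPt (mQ_nilpotent 𝔪 (n + 1)) (CechData.incl (kerI_le 𝔪 n) w) := rfl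

theorem lamT_injective (r n : ℕ) : Function.Injective (lamT 𝔪 r n) := by
  intro w w' h
  have h1 := torPt_injective (mQ_nilpotent 𝔪 (n + 1)) h
  apply Multiplicative.toAdd.injective
  exact incl_injective (kerI_le 𝔪 n) h1

theorem pT_lamT (r n : ℕ) (w : Multiplicative (Fin r → kerI 𝔪 n)) :
    pT (W := W) r 𝔪 n (lamT 𝔪 r n w) = 1 := by
  have hdef : lamT 𝔪 r n w = torPt (mQ_nilpotent 𝔪 (n + 1))
      (CechData.incl (kerI_le 𝔪 n) (Multiplicative.toAdd w)) := rfl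
  rw [hdef, pT_torPt, ← torPt_zero (mQ_nilpotent 𝔪 n)]
  congr 1
  funext i
  exact Subtype.ext (fac_eq_zero_of_mem_kerI W 𝔪 n (Multiplicative.toAdd w i).2)

theorem exists_lamT_of_pT_eq_one (r n : ℕ) (t : Tn r 𝔪 (n + 1))
    (ht : pT (W := W) r 𝔪 n t = 1) : ∃ w, lamT 𝔪 r n w = t := by
  set s := torCoord t with hs
  have hts : torPt (mQ_nilpotent 𝔪 (n + 1)) s = t := torPt_torCoord _ t
  have hmem : ∀ i, (s i : Tr 𝔪 (n + 1)) ∈ kerI 𝔪 n := by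
    intro i
    refine mem_kerI_of_fac_eq_zero W 𝔪 n (s i).2 ?_
    rw [← hts, pT_torPt, ← torPt_zero (mQ_nilpotent 𝔪 n)] at ht
    have := torPt_injective (mQ_nilpotent 𝔪 n) ht
    exact congrArg (fun c : Fin r → mQ 𝔪 n => (c i : Tr 𝔪 n)) this
  exact ⟨Multiplicative.ofAdd (fun i => ⟨s i, hmem i⟩), hts⟩

theorem range_lamT (r n : ℕ) : (lamT 𝔪 r n).range = (pT (W := W) r 𝔪 n).ker := by
  ext t
  rw [MonoidHom.mem_range, MonoidHom.mem_ker]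
  exact ⟨by rintro ⟨w, rfl⟩; exact pT_lamT 𝔪 r n w, exists_lamT_of_pT_eq_one 𝔪 r n t⟩

/-- `φ` is additive on the square zero ideal `kerI`. -/
theorem phiUnit_add (n : ℕ) (a a' : Fin g → kerI 𝔪 n) :
    (D.pkg (Tr 𝔪 (n + 1))).phiUnit (mQ_nilpotent 𝔪 (n + 1)) (CechData.incl (kerI_le 𝔪 n) (a + a'))
      = (D.pkg (Tr 𝔪 (n + 1))).phiUnit (mQ_nilpotent 𝔪 (n + 1)) (CechData.incl (kerI_le 𝔪 n) a)
        * (D.pkg (Tr 𝔪 (n + 1))).phiUnit (mQ_nilpotent 𝔪 (n + 1))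
            (CechData.incl (kerI_le 𝔪 n) a') := by
  apply Subtype.ext
  apply Units.ext
  rw [Subgroup.coe_mul, Units.val_mul, Pkg.coe_phiUnit, Pkg.coe_phiUnit, Pkg.coe_phiUnit]
  unfold Pkg.phiT
  rw [← Finset.prod_mul_distrib]
  refine Finset.prod_congr rfl fun i _ => ?_
  have h0 : ((a i : Tr 𝔪 (n + 1))) * (a' i : Tr 𝔪 (n + 1)) = 0 :=
    mul_eq_zero_of_mem_kerI 𝔪 n (a i).2 (kerI_le 𝔪 n (a' i).2)
  show 1 + ((a i + a' i : kerI 𝔪 n) : Tr 𝔪 (n + 1)) • (D.pkg (Tr 𝔪 (n + 1))).β i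
    = (1 + (a i : Tr 𝔪 (n + 1)) • (D.pkg (Tr 𝔪 (n + 1))).β i)
      * (1 + (a' i : Tr 𝔪 (n + 1)) • (D.pkg (Tr 𝔪 (n + 1))).β i)
  rw [Submodule.coe_add, add_smul]
  have h1 : ((a i : Tr 𝔪 (n + 1)) • (D.pkg (Tr 𝔪 (n + 1))).β i)
      * ((a' i : Tr 𝔪 (n + 1)) • (D.pkg (Tr 𝔪 (n + 1))).β i) = 0 := by
    rw [smul_mul_smul_comm, h0, zero_smul]
  linear_combination (-1 : Tr 𝔪 (n + 1) ⊗[W] B01) * h1

/-- **(I5')** the first order parametrisation `lam_n : (kerI)^g → Jn (n+1)`, `a ↦ φ(a)`. -/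
def lam (n : ℕ) : Multiplicative (Fin g → kerI 𝔪 n) →* Jn D 𝔪 (n + 1) where
  toFun a := (D.pkg (Tr 𝔪 (n + 1))).phi (mQ_nilpotent 𝔪 (n + 1))
    (CechData.incl (kerI_le 𝔪 n) (Multiplicative.toAdd a))
  map_one' := (D.pkg (Tr 𝔪 (n + 1))).phi_zero _
  map_mul' a a' := by
    show (D.pkg (Tr 𝔪 (n + 1))).cls _ _ = (D.pkg (Tr 𝔪 (n + 1))).cls _ _ * (D.pkg (Tr 𝔪 (n + 1))).cls _ _
    rw [← map_mul]
    congr 1
    exact phiUnit_add D 𝔪 n (Multiplicative.toAdd a) (Multiplicative.toAdd a')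

theorem lam_apply (n : ℕ) (a : Fin g → kerI 𝔪 n) :
    lam D 𝔪 n (Multiplicative.ofAdd a)
      = (D.pkg (Tr 𝔪 (n + 1))).phi (mQ_nilpotent 𝔪 (n + 1)) (CechData.incl (kerI_le 𝔪 n) a) := rfl

/-- `lam` on the level of units: the class of `1 + Σ aᵢ ⊗ bᵢ`. -/
theorem lam_eq_cls (n : ℕ) (a : Fin g → kerI 𝔪 n) :
    lam D 𝔪 n (Multiplicative.ofAdd a)
      = (D.pkg (Tr 𝔪 (n + 1))).cls (mQ 𝔪 (n + 1))
          ((D.pkg (Tr 𝔪 (n + 1))).phiUnit (mQ_nilpotent 𝔪 (n + 1))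
            (CechData.incl (kerI_le 𝔪 n) a)) := rfl

/-- the unit of `lam a` is `1 + Σ aᵢ ⊗ bᵢ`. -/
theorem coe_phiUnit_incl (n : ℕ) (a : Fin g → kerI 𝔪 n) :
    ((((D.pkg (Tr 𝔪 (n + 1))).phiUnit (mQ_nilpotent 𝔪 (n + 1))
        (CechData.incl (kerI_le 𝔪 n) a) : U01 (W := W) (B01 := B01) 𝔪 (n + 1))
        : (Tr 𝔪 (n + 1) ⊗[W] B01)ˣ) : Tr 𝔪 (n + 1) ⊗[W] B01)
      = 1 + ∑ i, (a i : Tr 𝔪 (n + 1)) ⊗ₜ[W] D.b i := by
  rw [Pkg.coe_phiUnit]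
  unfold Pkg.phiT
  have hterm : ∀ i, ((CechData.incl (kerI_le 𝔪 n) a i : mQ 𝔪 (n + 1)) : Tr 𝔪 (n + 1))
      • (D.pkg (Tr 𝔪 (n + 1))).β i = (a i : Tr 𝔪 (n + 1)) ⊗ₜ[W] D.b i := by
    intro i
    rw [CechData.pkg_β, TensorProduct.smul_tmul', smul_eq_mul, mul_one]
    rfl
  simp only [hterm]
  -- products of `1 + xᵢ` with `xᵢ xⱼ = 0`
  have hprod : ∀ s : Finset (Fin g), ∏ i ∈ s, (1 + (a i : Tr 𝔪 (n + 1)) ⊗ₜ[W] D.b i)
      = 1 + ∑ i ∈ s, (a i : Tr 𝔪 (n + 1)) ⊗ₜ[W] D.b i := by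
    intro s
    classical
    induction s using Finset.induction_on with
    | empty => simp
    | insert j s hj ih =>
      rw [Finset.prod_insert hj, Finset.sum_insert hj, ih, mul_add, mul_one, add_mul, one_mul,
        Finset.mul_sum]
      have hz : ∀ i ∈ s, ((a j : Tr 𝔪 (n + 1)) ⊗ₜ[W] D.b j) * ((a i : Tr 𝔪 (n + 1)) ⊗ₜ[W] D.b i)
          = 0 := by
        intro i _
        rw [Algebra.TensorProduct.tmul_mul_tmul,
          mul_eq_zero_of_mem_kerI 𝔪 n (a j).2 (kerI_le 𝔪 n (a i).2), TensorProduct.zero_tmul]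
      rw [Finset.sum_eq_zero hz]
      ring
  exact hprod Finset.univ

theorem lam_injective (n : ℕ) : Function.Injective (lam D 𝔪 n) := by
  intro a a' h
  have h1 := (D.pkg (Tr 𝔪 (n + 1))).phi_injective (mQ_nilpotent 𝔪 (n + 1)) h
  apply Multiplicative.toAdd.injective
  exact incl_injective (kerI_le 𝔪 n) h1

theorem pJ_lam (n : ℕ) (a : Multiplicative (Fin g → kerI 𝔪 n)) :
    pJ D 𝔪 n (lam D 𝔪 n a) = 1 := by
  have hdef : lam D 𝔪 n a = (D.pkg (Tr 𝔪 (n + 1))).phi (mQ_nilpotent 𝔪 (n + 1))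
      (CechData.incl (kerI_le 𝔪 n) (Multiplicative.toAdd a)) := rfl
  rw [hdef, pJ_phi, ← (D.pkg (Tr 𝔪 n)).phi_zero (mQ_nilpotent 𝔪 n)]
  congr 1
  funext i
  exact Subtype.ext (fac_eq_zero_of_mem_kerI W 𝔪 n (Multiplicative.toAdd a i).2)

theorem exists_lam_of_pJ_eq_one (n : ℕ) (y : Jn D 𝔪 (n + 1)) (hy : pJ D 𝔪 n y = 1) :
    ∃ a, lam D 𝔪 n a = y := by
  set a := (D.pkg (Tr 𝔪 (n + 1))).coord (mQ_nilpotent 𝔪 (n + 1)) y with ha
  have hya : (D.pkg (Tr 𝔪 (n + 1))).phi (mQ_nilpotent 𝔪 (n + 1)) a = y :=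
    (D.pkg (Tr 𝔪 (n + 1))).phi_coord _ y
  have hmem : ∀ i, (a i : Tr 𝔪 (n + 1)) ∈ kerI 𝔪 n := by
    intro i
    refine mem_kerI_of_fac_eq_zero W 𝔪 n (a i).2 ?_
    rw [← hya, pJ_phi, ← (D.pkg (Tr 𝔪 n)).phi_zero (mQ_nilpotent 𝔪 n)] at hy
    have := (D.pkg (Tr 𝔪 n)).phi_injective (mQ_nilpotent 𝔪 n) hy
    exact congrArg (fun c : Fin g → mQ 𝔪 n => (c i : Tr 𝔪 n)) this
  exact ⟨Multiplicative.ofAdd (fun i => ⟨a i, hmem i⟩), hya⟩

theorem range_lam (n : ℕ) : (lam D 𝔪 n).range = (pJ D 𝔪 n).ker := by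
  ext y
  rw [MonoidHom.mem_range, MonoidHom.mem_ker]
  exact ⟨by rintro ⟨a, rfl⟩; exact pJ_lam D 𝔪 n a, exists_lam_of_pJ_eq_one D 𝔪 n y⟩

/-- the first order parametrisation of a product of two Čech formal groups. -/
def lam2 (n : ℕ) :
    Multiplicative ((Fin g ⊕ Fin g') → kerI 𝔪 n) →* Jn D 𝔪 (n + 1) × Jn D' 𝔪 (n + 1) where
  toFun a := (lam D 𝔪 n (Multiplicative.ofAdd fun i => Multiplicative.toAdd a (Sum.inl i)),
    lam D' 𝔪 n (Multiplicative.ofAdd fun i => Multiplicative.toAdd a (Sum.inr i)))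
  map_one' := by
    refine Prod.ext ?_ ?_
    · exact map_one (lam D 𝔪 n)
    · exact map_one (lam D' 𝔪 n)
  map_mul' a a' := by
    refine Prod.ext ?_ ?_
    · exact map_mul (lam D 𝔪 n) (Multiplicative.ofAdd fun i => Multiplicative.toAdd a (Sum.inl i))
        (Multiplicative.ofAdd fun i => Multiplicative.toAdd a' (Sum.inl i))
    · exact map_mul (lam D' 𝔪 n) (Multiplicative.ofAdd fun i => Multiplicative.toAdd a (Sum.inr i))
        (Multiplicative.ofAdd fun i => Multiplicative.toAdd a' (Sum.inr i))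

theorem lam2_injective (n : ℕ) : Function.Injective (lam2 D D' 𝔪 n) := by
  intro a a' h
  have h1 := lam_injective D 𝔪 n (congrArg Prod.fst h)
  have h2 := lam_injective D' 𝔪 n (congrArg Prod.snd h)
  apply Multiplicative.toAdd.injective
  funext i
  rcases i with i | i
  · exact congrFun (Multiplicative.ofAdd.injective h1) i
  · exact congrFun (Multiplicative.ofAdd.injective h2) i

end Lam

/-! ### First order exactness ⟹ the step hypotheses -/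

section Steps

variable (D : CechData W B0 B1 B01 g) {O : Type u} [CommRing O] [Algebra W O] (𝔪 : Ideal O)
  {n : ℕ} {Bn1 : Type*} [CommGroup Bn1] {τ : Type*}
  (β : Jn D 𝔪 (n + 1) →* Bn1) (ι : Tn r 𝔪 (n + 1) →* Jn D 𝔪 (n + 1))
  (lamB : Multiplicative (τ → kerI 𝔪 n) →* Bn1)
  (Dβ : (Fin g → kerI 𝔪 n) →+ (τ → kerI 𝔪 n)) (Dι : (Fin r → kerI 𝔪 n) →+ (Fin g → kerI 𝔪 n))

/-- **first order exactness ⟹ `step_exact`**. -/
theorem step_exact_of_firstOrder (hlamB : Function.Injective lamB)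
    (hβ : ∀ a, β (lam D 𝔪 n (Multiplicative.ofAdd a)) = lamB (Multiplicative.ofAdd (Dβ a)))
    (hι : ∀ w, ι (lamT 𝔪 r n (Multiplicative.ofAdd w)) = lam D 𝔪 n (Multiplicative.ofAdd (Dι w)))
    (hex : ∀ a, Dβ a = 0 → ∃ w, Dι w = a)
    (y : Jn D 𝔪 (n + 1)) (hy : pJ D 𝔪 n y = 1) (hβy : β y = 1) :
    ∃ w : Tn r 𝔪 (n + 1), pT (W := W) r 𝔪 n w = 1 ∧ ι w = y := by
  obtain ⟨a, rfl⟩ := exists_lam_of_pJ_eq_one D 𝔪 n y hy
  have ha : a = Multiplicative.ofAdd (Multiplicative.toAdd a) := rfl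
  rw [ha, hβ, ← map_one lamB] at hβy
  have h0 : Dβ (Multiplicative.toAdd a) = 0 := Multiplicative.ofAdd.injective (hlamB hβy)
  obtain ⟨w, hw⟩ := hex _ h0
  refine ⟨lamT 𝔪 r n (Multiplicative.ofAdd w), pT_lamT 𝔪 r n _, ?_⟩
  rw [hι, hw]
  rfl

/-- **first order injectivity ⟹ `step_inj`**. -/
theorem step_inj_of_firstOrder
    (hι : ∀ w, ι (lamT 𝔪 r n (Multiplicative.ofAdd w)) = lam D 𝔪 n (Multiplicative.ofAdd (Dι w)))
    (hinj : Function.Injective Dι)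
    (t : Tn r 𝔪 (n + 1)) (ht : pT (W := W) r 𝔪 n t = 1) (hιt : ι t = 1) : t = 1 := by
  obtain ⟨w, rfl⟩ := exists_lamT_of_pT_eq_one 𝔪 r n t ht
  have hw : w = Multiplicative.ofAdd (Multiplicative.toAdd w) := rfl
  rw [hw, hι, ← map_one (lam D 𝔪 n)] at hιt
  have h0 : Dι (Multiplicative.toAdd w) = 0 :=
    Multiplicative.ofAdd.injective (lam_injective D 𝔪 n hιt)
  have h1 : Multiplicative.toAdd w = 0 := hinj (by rw [h0, map_zero])
  rw [hw, h1]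
  exact map_one (lamT 𝔪 r n)

end Steps

/-- the first order data at level `n` (plan v2, `hyp_of_firstOrder`). -/
structure FirstOrder (D : CechData W B0 B1 B01 g) {O : Type u} [CommRing O] [Algebra W O]
    (𝔪 : Ideal O) (r n : ℕ) {Bn1 : Type u} [CommGroup Bn1]
    (β : Jn D 𝔪 (n + 1) →* Bn1) (ι : Tn r 𝔪 (n + 1) →* Jn D 𝔪 (n + 1)) : Prop where
  /-- there are a first order parametrisation of the target and first order maps … -/
  ex : ∃ (τ : Type) (lamB : Multiplicative (τ → kerI 𝔪 n) →* Bn1)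
    (Dβ : (Fin g → kerI 𝔪 n) →+ (τ → kerI 𝔪 n)) (Dι : (Fin r → kerI 𝔪 n) →+ (Fin g → kerI 𝔪 n)),
    Function.Injective lamB ∧
    (∀ a, β (lam D 𝔪 n (Multiplicative.ofAdd a)) = lamB (Multiplicative.ofAdd (Dβ a))) ∧
    (∀ w, ι (lamT 𝔪 r n (Multiplicative.ofAdd w)) = lam D 𝔪 n (Multiplicative.ofAdd (Dι w))) ∧
    (∀ a, Dβ a = 0 → ∃ w, Dι w = a) ∧ Function.Injective Dι

/-- **`hyp_of_firstOrder`**: the tower hypotheses from compatibility with the transition maps,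
`β ∘ ι = 1` and first order exactness at every level. -/
theorem hyp_of_firstOrder (D : CechData W B0 B1 B01 g) {O : Type u} [CommRing O] [Algebra W O]
    (𝔪 : Ideal O) (r : ℕ) {B : ℕ → Type u} [∀ n, CommGroup (B n)]
    (pB : ∀ n, B (n + 1) →* B n) (β : ∀ n, Jn D 𝔪 n →* B n) (ι : ∀ n, Tn r 𝔪 n →* Jn D 𝔪 n)
    (β_pJ : ∀ n (y : Jn D 𝔪 (n + 1)), β n (pJ D 𝔪 n y) = pB n (β (n + 1) y))
    (ι_pT : ∀ n (z : Tn r 𝔪 (n + 1)), ι n (pT (W := W) r 𝔪 n z) = pJ D 𝔪 n (ι (n + 1) z))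
    (β_ι : ∀ n (z : Tn r 𝔪 n), β n (ι n z) = 1)
    (hfo : ∀ n, FirstOrder D 𝔪 r n (β (n + 1)) (ι (n + 1))) :
    Tower.Hyp (J := Jn D 𝔪) (B := B) (T := Tn r 𝔪) (pJ D 𝔪) pB (pT (W := W) r 𝔪) β ι where
  β_pJ := β_pJ
  ι_pT := ι_pT
  pT_surj := pT_surjective r 𝔪
  β_ι := β_ι
  base_J := base_J D 𝔪
  base_T := base_T r 𝔪
  step_exact := by
    intro n y hy hβy
    obtain ⟨τ, lamB, Dβ, Dι, hlamB, hβ, hι, hex, -⟩ := (hfo n).ex
    exact step_exact_of_firstOrder D 𝔪 (β (n + 1)) (ι (n + 1)) lamB Dβ Dι hlamB hβ hι hex y hy hβy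
  step_inj := by
    intro n t ht hιt
    obtain ⟨τ, lamB, Dβ, Dι, -, -, hι, -, hinj⟩ := (hfo n).ex
    exact step_inj_of_firstOrder D 𝔪 (ι (n + 1)) Dι hι hinj t ht hιt

/-! ### Matrix form -/

section Matrices

variable {O : Type u} [CommRing O] [Algebra W O] (𝔪 : Ideal O)

/-- the additive map on `I`-valued vectors given by a matrix over `W`. -/
def mulVecIHom {σ τ : Type} [Fintype σ] {R : Type*} [CommRing R] [Algebra W R] (M : Matrix τ σ W)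
    (I : Ideal R) : (σ → I) →+ (τ → I) where
  toFun := mulVecI M
  map_zero' := mulVecI_zero M
  map_add' a a' := by
    funext k
    apply Subtype.ext
    show ∑ j, M k j • ((a j + a' j : I) : R) = (∑ j, M k j • (a j : R)) + ∑ j, M k j • (a' j : R)
    rw [← Finset.sum_add_distrib]
    refine Finset.sum_congr rfl fun j _ => ?_
    rw [Submodule.coe_add, smul_add]

theorem mulVecIHom_apply {σ τ : Type} [Fintype σ] {R : Type*} [CommRing R] [Algebra W R]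
    (M : Matrix τ σ W) (I : Ideal R) (a : σ → I) : mulVecIHom M I a = mulVecI M a := rfl

theorem mulVecI_add_mat {σ τ : Type} [Fintype σ] {R : Type*} [CommRing R] [Algebra W R]
    (M N : Matrix τ σ W) {I : Ideal R} (a : σ → I) :
    mulVecI (M + N) a = mulVecI M a + mulVecI N a := by
  funext k
  apply Subtype.ext
  show ∑ j, (M k j + N k j) • (a j : R) = (∑ j, M k j • (a j : R)) + ∑ j, N k j • (a j : R)
  rw [← Finset.sum_add_distrib]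
  exact Finset.sum_congr rfl fun j _ => add_smul _ _ _

/-- a matrix with entries in an ideal `𝔭` of `W` mapping into `𝔪` kills `kerI`-valued vectors. -/
theorem mulVecI_eq_zero_of_mem {σ τ : Type} [Fintype σ] (𝔭 : Ideal W)
    (h𝔭 : ∀ c ∈ 𝔭, algebraMap W O c ∈ 𝔪) (n : ℕ) (M : Matrix τ σ W) (hM : ∀ k j, M k j ∈ 𝔭)
    (a : σ → kerI 𝔪 n) : mulVecI M a = 0 := by
  funext k
  apply Subtype.ext
  show ∑ j, M k j • (a j : Tr 𝔪 (n + 1)) = 0
  refine Finset.sum_eq_zero fun j _ => ?_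
  rw [Algebra.smul_def, mul_comm]
  refine mul_eq_zero_of_mem_kerI 𝔪 n (a j).2 ?_
  have : algebraMap W (Tr 𝔪 (n + 1)) (M k j)
      = Ideal.Quotient.mk (𝔪 ^ (n + 1)) (algebraMap W O (M k j)) := rfl
  rw [this]
  exact Ideal.mem_map_of_mem _ (h𝔭 _ (hM k j))

/-- **matrix form of first order exactness**: if `P * Dι ≡ 1` and `Dι * P + S * Dβ ≡ 1` modulo an
ideal `𝔭` of `W` mapping into `𝔪`, then `ker Dβ ⊆ range Dι` and `Dι` is injective on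
`kerI`-valued vectors. -/
theorem firstOrder_of_matrices {τ : Type} [Fintype τ] [DecidableEq τ] (𝔭 : Ideal W)
    (h𝔭 : ∀ c ∈ 𝔭, algebraMap W O c ∈ 𝔪) (n : ℕ)
    (Mβ : Matrix τ (Fin g) W) (Mι : Matrix (Fin g) (Fin r) W)
    (P : Matrix (Fin r) (Fin g) W) (S : Matrix (Fin g) τ W)
    (hP : ∀ i j, (P * Mι - (1 : Matrix (Fin r) (Fin r) W)) i j ∈ 𝔭)
    (hS : ∀ i j, (Mι * P + S * Mβ - (1 : Matrix (Fin g) (Fin g) W)) i j ∈ 𝔭) :
    (∀ a : Fin g → kerI 𝔪 n, mulVecIHom Mβ (kerI 𝔪 n) a = 0 →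
      ∃ w, mulVecIHom Mι (kerI 𝔪 n) w = a) ∧
    Function.Injective (mulVecIHom Mι (kerI 𝔪 n)) := by
  have h1 : ∀ w : Fin r → kerI 𝔪 n, mulVecI (P * Mι) w = w := by
    intro w
    have h := mulVecI_eq_zero_of_mem 𝔪 𝔭 h𝔭 n (P * Mι - 1) hP w
    have h' : P * Mι = (P * Mι - 1) + 1 := by abel
    rw [h', mulVecI_add_mat, h, mulVecI_one, zero_add]
  have h2 : ∀ a : Fin g → kerI 𝔪 n, mulVecI (Mι * P + S * Mβ) a = a := by
    intro a
    have h := mulVecI_eq_zero_of_mem 𝔪 𝔭 h𝔭 n (Mι * P + S * Mβ - 1) hS a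
    have h' : Mι * P + S * Mβ = (Mι * P + S * Mβ - 1) + 1 := by abel
    rw [h', mulVecI_add_mat, h, mulVecI_one, zero_add]
  refine ⟨fun a ha => ⟨mulVecI P a, ?_⟩, ?_⟩
  · rw [mulVecIHom_apply] at ha ⊢
    have := h2 a
    rw [mulVecI_add_mat, mulVecI_mul, mulVecI_mul, ha, mulVecI_zero, add_zero] at this
    exact this
  · rw [injective_iff_map_eq_zero]
    intro w hw
    rw [mulVecIHom_apply] at hw
    have := h1 w
    rw [mulVecI_mul, hw, mulVecI_zero] at this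
    exact this.symm

end Matrices

end Fermat.Agent.T1B.Toric11
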