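/-
T1B / TORIC50 (helper11), brick NODAL-MODEL-HYPS: the model hypotheses of `Toric11.towerInput` on the
nodal two-chart model `NodalFacts23.nodalChart N`.

* `nodal_hmod0`, `nodal_hmod1` : `B_j/π` is torsion-free over `(R/π)[t^{±1}]`
  (`π ∣ p(t) x → π ∣ p ∨ π ∣ x`), from the two vertical valuation rings (`t mod π` transcendental
  in both residue fields, `NodalCoh30.TransMod`) and the saturation `sat0`/`sat1`;
* `nodal_finiteProjOverLine` : `(nodalChart N).FiniteProjOverLine` (nodal twin of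
  `Coh60.modelChart_finiteProjOverLine`, through `Coh60.finiteProjOverLine_of_mod`);
* `nodal_coordInjective` : `CoordInjective (nodalChart N) O` for every DVR `O` over `R` (field `hInj`);
* `nodal_hfin0` : `O ⊗ B0` is finite over `O[t]` (field `hfin0`).
The third model hypothesis `hnzd` follows from `FiniteProjOverLine` alone (helper87,
`Toric87/Nzd.lean`); it is wired to the nodal chart in `Toric11/NodalHyps2.lean`.
-/
import Mathlib
import Fermat.Agent.T1.Coh60.Line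
import Fermat.Agent.T1.CoordInj23.OfCechData
import Fermat.Agent.T1B.NodalFacts23.Good
import Fermat.Agent.T1B.NodalCoh30.Bal

set_option autoImplicit false
set_option maxHeartbeats 400000
set_option linter.unusedSectionVars false
set_option linter.unusedVariables false
set_option linter.style.haveILetI false

open Polynomial TensorProduct

noncomputable section

namespace Fermat.Agent.T1B.Toric11

open Fermat.Agent.ES.N34.NodalCore13 Fermat.Agent.Jac Fermat.Agent.Jac.BaseChange75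
open Fermat.Agent.T1.Coh60 Fermat.Agent.T1.ModelCoh30 Fermat.Agent.T1B.NodalFacts23
open Fermat.Agent.T1B.NodalCoh30 Fermat.Agent.T1.CechFormal70 Fermat.Agent.T1.RedIface75
open scoped Fermat.Agent.Jac.BaseChange75

universe u

variable {R F : Type u} [CommRing R] [Field F] [Algebra R F]
variable {π : R} {t : F} {B0 B1 : Subalgebra R F} {O1 O2 : ValuationSubring F}

/-! ### Torsion-freeness of the special fibre over the line -/

/-- generic form: a chart `B ⊂ O1 ⊓ O2`, `π`-saturated, `τ ∈ B` transcendental modulo both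
`π O1` and `π O2`. -/
theorem hmod_of_two_valuations (N : NodalTwoChartModel R F π t B0 B1 O1 O2)
    (B : Subalgebra R F) (le1 : ∀ x ∈ B, x ∈ O1) (le2 : ∀ x ∈ B, x ∈ O2)
    (sat : ∀ b ∈ B, ∀ c : F, c ∈ O1 → c ∈ O2 → b = algebraMap R F π * c → c ∈ B)
    (τ : F) (hτ : τ ∈ B) (htr1 : TransMod π O1 τ) (htr2 : TransMod π O2 τ)
    (p : R[X]) (x : ↥B) (h : algebraMap R ↥B π ∣ aeval (⟨τ, hτ⟩ : ↥B) p * x) :
    (C π : R[X]) ∣ p ∨ algebraMap R ↥B π ∣ x := by
  obtain ⟨z, hz⟩ := h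
  have hpB : aeval τ p ∈ B := by
    have : aeval τ p = ((aeval (⟨τ, hτ⟩ : ↥B) p : ↥B) : F) := by
      rw [← Subalgebra.aeval_coe]
    rw [this]
    exact (aeval (⟨τ, hτ⟩ : ↥B) p).2
  have hz' : aeval τ p * (x : F) = algebraMap R F π * z := by
    have := congrArg (fun b : ↥B => (b : F)) hz
    simpa [← Subalgebra.aeval_coe] using this
  by_cases hp : (C π : R[X]) ∣ p
  · exact Or.inl hp
  · right
    -- in `O1`
    have h1 : ∃ c ∈ O1, (x : F) = algebraMap R F π * c := by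
      rcases mem_piO_of_mul N.pi_ne N.pi_nonunit1 N.unif1 (le1 _ hpB) (le1 _ x.2) (le1 _ z.2) hz'
        with h' | h'
      · exact absurd (htr1 p h') hp
      · exact h'
    have h2 : ∃ c ∈ O2, (x : F) = algebraMap R F π * c := by
      rcases mem_piO_of_mul N.pi_ne N.pi_nonunit2 N.unif2 (le2 _ hpB) (le2 _ x.2) (le2 _ z.2) hz'
        with h' | h'
      · exact absurd (htr2 p h') hp
      · exact h'
    obtain ⟨c1, hc1, hx1⟩ := h1
    obtain ⟨c2, hc2, hx2⟩ := h2
    have hc : c1 = c2 := mul_left_cancel₀ N.pi_ne (hx1.symm.trans hx2)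
    subst hc
    exact ⟨⟨c1, sat x x.2 c1 hc1 hc2 hx1⟩, Subtype.ext hx1⟩

theorem nodal_hmod0 (N : NodalTwoChartModel R F π t B0 B1 O1 O2)
    (htr1 : TransMod π O1 t) (htr2 : TransMod π O2 t) (p : R[X]) (x : ↥B0)
    (h : algebraMap R ↥B0 π ∣ aeval (⟨t, N.t_mem⟩ : ↥B0) p * x) :
    (C π : R[X]) ∣ p ∨ algebraMap R ↥B0 π ∣ x :=
  hmod_of_two_valuations N B0 N.le_O1_0 N.le_O2_0 N.sat0 t N.t_mem htr1 htr2 p x h

theorem nodal_hmod1 (N : NodalTwoChartModel R F π t B0 B1 O1 O2)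
    (htr1 : TransMod π O1 t) (htr2 : TransMod π O2 t) (p : R[X]) (x : ↥B1)
    (h : algebraMap R ↥B1 π ∣ aeval (⟨t⁻¹, N.tinv_mem⟩ : ↥B1) p * x) :
    (C π : R[X]) ∣ p ∨ algebraMap R ↥B1 π ∣ x :=
  hmod_of_two_valuations N B1 N.le_O1_1 N.le_O2_1 N.sat1 t⁻¹ N.tinv_mem
    (htr1.inv N.t_ne (N.le_O1_0 t N.t_mem)) (htr2.inv N.t_ne (N.le_O2_0 t N.t_mem)) p x h

theorem nodal_pi_ne0 (N : NodalTwoChartModel R F π t B0 B1 O1 O2) : algebraMap R ↥B0 π ≠ 0 :=
  fun h => N.pi_ne (congrArg (fun b : ↥B0 => (b : F)) h)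

theorem nodal_pi_ne1 (N : NodalTwoChartModel R F π t B0 B1 O1 O2) : algebraMap R ↥B1 π ≠ 0 :=
  fun h => N.pi_ne (congrArg (fun b : ↥B1 => (b : F)) h)

theorem nodal_pi_not_isUnit0 (N : NodalTwoChartModel R F π t B0 B1 O1 O2) :
    ¬ IsUnit (algebraMap R ↥B0 π) := by
  intro hu
  obtain ⟨v, hv⟩ := hu.exists_right_inv
  have h1 : algebraMap R F π * (v : F) = 1 := congrArg (fun b : ↥B0 => (b : F)) hv
  apply N.pi_nonunit1
  rw [inv_eq_of_mul_eq_one_right h1]
  exact N.le_O1_0 _ v.2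

theorem nodal_pi_not_isUnit1 (N : NodalTwoChartModel R F π t B0 B1 O1 O2) :
    ¬ IsUnit (algebraMap R ↥B1 π) := by
  intro hu
  obtain ⟨v, hv⟩ := hu.exists_right_inv
  have h1 : algebraMap R F π * (v : F) = 1 := congrArg (fun b : ↥B1 => (b : F)) hv
  apply N.pi_nonunit1
  rw [inv_eq_of_mul_eq_one_right h1]
  exact N.le_O1_1 _ v.2

/-! ### Finite projective over the line -/

/-- **`FiniteProjOverLine` for the nodal chart.** -/
theorem nodal_finiteProjOverLine [IsDomain R] [IsDiscreteValuationRing R] (hπ : Irreducible π)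
    (N : NodalTwoChartModel R F π t B0 B1 O1 O2)
    (fin1 : ∃ (r : ℕ) (e : Fin r → F), (∀ i, e i ∈ B1) ∧
      ∀ x ∈ B1, ∃ P : Fin r → R[X], x = ∑ i, aeval t⁻¹ (P i) * e i)
    (htr1 : TransMod π O1 t) (htr2 : TransMod π O2 t) :
    @TwoChart.FiniteProjOverLine R ↥B0 ↥B1 ↥(B0 ⊔ B1) _ _ _ _ _ _ _ (algebra0 B0 B1)
      (algebra1 B0 B1) (isScalarTower0 B0 B1) (isScalarTower1 B0 B1) (nodalChart N) :=
  letI := algebra0 B0 B1
  letI := algebra1 B0 B1
  haveI := isScalarTower0 B0 B1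
  haveI := isScalarTower1 B0 B1
  finiteProjOverLine_of_mod (nodalChart N) hπ (nodal_finite_chart0 N) (nodal_finite_chart1 N fin1)
    (nodal_pi_ne0 N) (nodal_pi_ne1 N) (nodal_pi_not_isUnit0 N) (nodal_pi_not_isUnit1 N)
    (nodal_hmod0 N htr1 htr2) (nodal_hmod1 N htr1 htr2)

/-! ### `hInj` : injectivity of the coordinates -/

/-- **`CoordInjective` for the nodal chart**, for any Čech datum on it whose restriction maps are the
algebra maps. -/
theorem nodal_coordInjective_of_cechData [IsDomain R] [IsDiscreteValuationRing R]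
    (hπ : Irreducible π) (N : NodalTwoChartModel R F π t B0 B1 O1 O2)
    (fin1 : ∃ (r : ℕ) (e : Fin r → F), (∀ i, e i ∈ B1) ∧
      ∀ x ∈ B1, ∃ P : Fin r → R[X], x = ∑ i, aeval t⁻¹ (P i) * e i)
    (htr1 : TransMod π O1 t) (htr2 : TransMod π O2 t) {g : ℕ}
    (D : CechData R ↥B0 ↥B1 ↥(B0 ⊔ B1) g)
    (hρ0 : ∀ x, D.ρ0 x = ρ0 B0 B1 x) (hρ1 : ∀ x, D.ρ1 x = ρ1 B0 B1 x)
    (O : Type u) [CommRing O] [IsDomain O] [IsDiscreteValuationRing O] [Algebra R O] :
    @CoordInjective R ↥B0 ↥B1 ↥(B0 ⊔ B1) _ _ _ _ _ _ _ (algebra0 B0 B1) (algebra1 B0 B1)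
      (isScalarTower0 B0 B1) (isScalarTower1 B0 B1) (nodalChart N) O _ _ _ _ :=
  letI := algebra0 B0 B1
  letI := algebra1 B0 B1
  haveI := isScalarTower0 B0 B1
  haveI := isScalarTower1 B0 B1
  Fermat.Agent.T1.CoordInj23.coordInjective_of_cechData (nodalChart N)
    (nodal_finiteProjOverLine hπ N fin1 htr1 htr2) D hρ0 hρ1 O

/-- **`CoordInjective` for the nodal chart** (field `hInj` of `towerInput`), with the Čech datum
`NodalCoh30.nodalCechData'`. -/
theorem nodal_coordInjective [IsDomain R] [IsDiscreteValuationRing R]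
    (hπ : Irreducible π) (N : NodalTwoChartModel R F π t B0 B1 O1 O2)
    (fin1 : ∃ (r : ℕ) (e : Fin r → F), (∀ i, e i ∈ B1) ∧
      ∀ x ∈ B1, ∃ P : Fin r → R[X], x = ∑ i, aeval t⁻¹ (P i) * e i)
    (htr1 : TransMod π O1 t) (htr2 : TransMod π O2 t)
    (hinj : Function.Injective (algebraMap R F))
    (dvrR : ∀ r : R, r ≠ 0 → ∃ (k : ℕ) (v : Rˣ), r = π ^ k * v)
    (h0 : GenericH0 B0 B1) (hκ1 : ResAlgClosed π O1) (hκ2 : ResAlgClosed π O2)
    (O : Type u) [CommRing O] [IsDomain O] [IsDiscreteValuationRing O] [Algebra R O] :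
    @CoordInjective R ↥B0 ↥B1 ↥(B0 ⊔ B1) _ _ _ _ _ _ _ (algebra0 B0 B1) (algebra1 B0 B1)
      (isScalarTower0 B0 B1) (isScalarTower1 B0 B1) (nodalChart N) O _ _ _ _ :=
  nodal_coordInjective_of_cechData hπ N fin1 htr1 htr2
    (nodalCechData' N hinj dvrR h0 hκ1 hκ2) (fun _ => rfl) (fun _ => rfl) O

/-! ### `hfin0` : finiteness of the base-changed chart over the line -/

/-- **`O ⊗ B0` is finite over `O[t]`** (field `hfin0` of `towerInput`). -/
theorem nodal_hfin0 (N : NodalTwoChartModel R F π t B0 B1 O1 O2)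
    (O : Type u) [CommRing O] [Algebra R O] :
    letI := algebra0 B0 B1
    letI := algebra1 B0 B1
    haveI := isScalarTower0 B0 B1
    haveI := isScalarTower1 B0 B1
    Module.Finite O[X] (Module.AEval O (O ⊗[R] ↥B0) ((nodalChart N).baseChange O).t) :=
  letI := algebra0 B0 B1
  letI := algebra1 B0 B1
  haveI := isScalarTower0 B0 B1
  haveI := isScalarTower1 B0 B1
  finite_aeval_tensor O (nodalChart N).t (nodal_finite_chart0 N)

end Fermat.Agent.T1B.Toric11
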