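/-
T1B / TORIC50 (helper11), brick NODAL-MODEL-HYPS, part 2: the hypotheses `fin1`, `htr1`, `htr2` of
`Toric11.nodal_finiteProjOverLine` are CONSEQUENCES of the number data `NumData13.NodalNumData` and of
helper37's `NodeNF37.ToricBaseInst.Hyp` (a node exists, the components are incomparable, all nodes
lie in `U01`).

* `transMod_of_hyp` : `t mod π O_j` is transcendental over `R/π` for both components (`TransMod`),
  from `Hyp.aeval_notMem_of_map_ne_zero`;
* `transcendental_of_transMod` : `t` is transcendental over `K = Frac R` (`K` algebraically closed in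
  `F`, `O1 ∩ K = R`);
* `finiteDimensional_adjoin_of_fin0` : `[F : K(t)] < ∞` from `fin0` and `frac0`;
* `mem_B1_iff_mem_chart` : `B1` is the integral closure of `R[t⁻¹]` in `F`;
* `fin1_of_numData` : `B1` is a finite `R[t⁻¹]`-module (generators), the missing twin of the field
  `fin0` of `NodalTwoChartModel` (via `ChartGeneric22.chart_facts`);
* `numData_finiteProjOverLine`, `numData_coordInjective_of_cechData` : the nodal chart is finite
  projective over the line, and the coordinates are injective, with NO hypothesis left beyond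
  `NodalNumData` + `Hyp` + `Irreducible π`.
-/
import Mathlib
import Fermat.Agent.RED.PUR.ChartGeneric22
import Fermat.Agent.ES.N34.NumData13
import Fermat.Agent.T1B.NodeNF37.ToricBaseInst
import Fermat.Agent.T1B.Toric11.NodalHyps

set_option autoImplicit false
set_option maxHeartbeats 400000
set_option linter.unusedSectionVars false
set_option linter.unusedVariables false
set_option linter.style.haveILetI false

open Polynomial TensorProduct

noncomputable section

namespace Fermat.Agent.T1B.Toric11

open Fermat.Agent.ES.N34.NodalCore13 Fermat.Agent.ES.N34.NumData13 Fermat.Agent.Jac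
open Fermat.Agent.T1.Coh60 Fermat.Agent.T1.ModelCoh30 Fermat.Agent.T1B.NodalFacts23
open Fermat.Agent.T1B.NodalCoh30 Fermat.Agent.T1.CechFormal70 Fermat.Agent.T1.RedIface75
open Fermat.Agent.RED.PUR.ChartGeneric22 Fermat.Agent.T1B.NodeNF37.ToricBaseInst

universe u

variable {R F : Type u} {K : Type*} [CommRing R] [Field K] [Field F] [Algebra R K] [Algebra K F]
  [Algebra R F] [IsScalarTower R K F]
variable {π : R} {t : F} {B0 B1 : Subalgebra R F} {O1 O2 : ValuationSubring F}

/-! ### `TransMod` from helper37's `Hyp` -/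

omit [Field K] [Algebra R K] [Algebra K F] [IsScalarTower R K F] in
theorem C_dvd_of_map_eq_zero {p : R[X]}
    (h : p.map (Ideal.Quotient.mk (Ideal.span {π})) = 0) : (C π : R[X]) ∣ p := by
  rw [Polynomial.C_dvd_iff_dvd_coeff]
  intro i
  have h1 := congrArg (fun q => q.coeff i) h
  simp only [coeff_map, coeff_zero] at h1
  rw [Ideal.Quotient.eq_zero_iff_mem, Ideal.mem_span_singleton] at h1
  exact h1

omit [Field K] [Algebra R K] [Algebra K F] [IsScalarTower R K F] in
/-- **`t` is transcendental modulo `π` on both components**, from `Hyp`. -/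
theorem transMod_of_hyp (H : Hyp π t B0 B1 O1 O2) : TransMod π O1 t ∧ TransMod π O2 t := by
  constructor
  · rintro p ⟨c, hc, hpc⟩
    by_contra hdiv
    have hne : p.map (Ideal.Quotient.mk (Ideal.span {π})) ≠ 0 :=
      fun h0 => hdiv (C_dvd_of_map_eq_zero h0)
    refine (H.aeval_notMem_of_map_ne_zero hne).1 ?_
    exact ⟨c, hc, by rw [H.coe_aeval_t0]; exact hpc⟩
  · rintro p ⟨c, hc, hpc⟩
    by_contra hdiv
    have hne : p.map (Ideal.Quotient.mk (Ideal.span {π})) ≠ 0 :=
      fun h0 => hdiv (C_dvd_of_map_eq_zero h0)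
    refine (H.aeval_notMem_of_map_ne_zero hne).2 ?_
    exact ⟨c, hc, by rw [H.coe_aeval_t0]; exact hpc⟩

/-! ### `t` is transcendental over `K` -/

/-- `t` is transcendental over `K = Frac R`: otherwise `t ∈ K ∩ O1 = R`, against `TransMod`. -/
theorem transcendental_of_transMod (D : NodalNumData R K F π t B0 B1 O1 O2)
    (htr1 : TransMod π O1 t) : Transcendental K t := by
  intro halg
  obtain ⟨c, hc⟩ := D.algClosed t halg
  haveI := D.fracR
  have V1 := valDatum1 D.model
  have hcO : algebraMap K F c ∈ O1 := by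
    rw [hc]
    exact D.model.le_O1_0 t D.model.t_mem
  have hπ0 : π ≠ 0 := fun h => D.model.pi_ne (by rw [h, map_zero])
  obtain ⟨r, hr⟩ := exists_of_mem_O V1 D.dvrR hπ0 c hcO
  have hp : (C π : R[X]) ∣ (X - C r) := by
    apply htr1
    refine ⟨0, O1.zero_mem, ?_⟩
    rw [mul_zero, map_sub, aeval_X, aeval_C, IsScalarTower.algebraMap_apply R K F, hr, hc,
      sub_self]
  rw [Polynomial.C_dvd_iff_dvd_coeff] at hp
  have h1 := hp 1
  rw [coeff_sub, coeff_X_one, coeff_C, if_neg one_ne_zero, sub_zero] at h1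
  obtain ⟨v, hv⟩ := h1
  apply V1.not_pi_mul_eq_one (V1.algebraMap_mem v)
  rw [← map_mul, ← hv, map_one]

/-! ### `F` is finite over `K(t)` -/

/-- `[F : K(t)] < ∞`, from the generators of `B0` over `R[t]` and `F = Frac B0`. -/
theorem finiteDimensional_adjoin_of_fin0 [IsDomain R] [IsFractionRing R K]
    (N : NodalTwoChartModel R F π t B0 B1 O1 O2)
    (frac0 : ∀ x : F, ∃ a ∈ B0, ∃ b ∈ B0, b ≠ 0 ∧ x * b = a) :
    FiniteDimensional (IntermediateField.adjoin K {t}) F := by
  set E := IntermediateField.adjoin K {t} with hE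
  have hmem : t ∈ E := IntermediateField.mem_adjoin_simple_self K t
  obtain ⟨r, e, he, hgen⟩ := N.fin0
  have hint : ∀ x ∈ B0, IsIntegral E x := by
    intro x hx
    have h := N.int0 x hx
    exact h.map_of_comp_eq (adjoinToField (R := R) E hmem) (RingHom.id F) rfl
  have haev : ∀ P : R[X], aeval t P ∈ E := by
    intro P
    have h1 : aeval t P ∈ Algebra.adjoin R {t} := by
      rw [Algebra.adjoin_singleton_eq_range_aeval]
      exact ⟨P, rfl⟩
    exact adjoin_le_intermediateField (R := R) E hmem h1
  have hS : ∀ x ∈ Set.range e, IsIntegral E x := by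
    rintro x ⟨i, rfl⟩
    exact hint _ (he i)
  have hfd : FiniteDimensional E (IntermediateField.adjoin E (Set.range e)) :=
    IntermediateField.finiteDimensional_adjoin hS
  have hB0 : ∀ a ∈ B0, a ∈ IntermediateField.adjoin E (Set.range e) := by
    intro a ha
    obtain ⟨P, hP⟩ := hgen a ha
    rw [hP]
    refine sum_mem fun i _ => mul_mem ?_ (IntermediateField.subset_adjoin E _ ⟨i, rfl⟩)
    exact (IntermediateField.adjoin E (Set.range e)).algebraMap_mem ⟨_, haev (P i)⟩
  have htop : IntermediateField.adjoin E (Set.range e) = ⊤ := by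
    rw [eq_top_iff]
    intro x _
    obtain ⟨a, ha, b, hb, hb0, hxb⟩ := frac0 x
    have hx : x = a / b := eq_div_of_mul_eq hb0 hxb
    rw [hx]
    exact div_mem (hB0 a ha) (hB0 b hb)
  rw [htop] at hfd
  exact (IntermediateField.topEquiv (F := E) (E := F)).toLinearEquiv.finiteDimensional

/-! ### `B1` is the chart of `t⁻¹` -/

omit [Field K] [Algebra R K] [Algebra K F] [IsScalarTower R K F] in
/-- `B1` is the integral closure of `R[t⁻¹]` in `F`. -/
theorem mem_B1_iff_mem_chart (N : NodalTwoChartModel R F π t B0 B1 O1 O2) (x : F) :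
    x ∈ B1 ↔ x ∈ chart R t⁻¹ := by
  constructor
  · intro hx
    exact N.int1 x hx
  · intro hx
    apply N.intcl1
    have hle : Algebra.adjoin R {t⁻¹} ≤ B1 :=
      Algebra.adjoin_le (by
        intro y hy
        rw [Set.mem_singleton_iff] at hy
        subst hy
        exact N.tinv_mem)
    have h : IsIntegral (Algebra.adjoin R {t⁻¹}) x := hx
    exact h.map_of_comp_eq ((Subalgebra.inclusion hle : _ →ₐ[R] _) : _ →+* _) (RingHom.id F) rfl

/-! ### `fin1` -/

/-- **`B1` is a finite `R[t⁻¹]`-module** (generators): the twin of the field `fin0`. -/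
theorem fin1_of_numData [IsDomain R] [IsDiscreteValuationRing R] [CharZero K]
    (D : NodalNumData R K F π t B0 B1 O1 O2) (htr1 : TransMod π O1 t) :
    ∃ (r : ℕ) (e : Fin r → F), (∀ i, e i ∈ B1) ∧
      ∀ x ∈ B1, ∃ P : Fin r → R[X], x = ∑ i, aeval t⁻¹ (P i) * e i := by
  haveI := D.fracR
  have htr : Transcendental K t := transcendental_of_transMod D htr1
  haveI : FiniteDimensional (IntermediateField.adjoin K {t}) F :=
    finiteDimensional_adjoin_of_fin0 D.model D.frac0
  have hmem : t ∈ IntermediateField.adjoin K {t} := IntermediateField.mem_adjoin_simple_self K t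
  have hinv_mem : t⁻¹ ∈ IntermediateField.adjoin K {t} := inv_mem hmem
  have hE' : IntermediateField.adjoin K {t} ≤ IntermediateField.adjoin K {t⁻¹} := by
    rw [IntermediateField.adjoin_le_iff, Set.singleton_subset_iff]
    have h1 : t⁻¹ ∈ IntermediateField.adjoin K {t⁻¹} :=
      IntermediateField.mem_adjoin_simple_self K t⁻¹
    have h2 := inv_mem h1
    rwa [inv_inv] at h2
  have htr' : Transcendental K t⁻¹ := fun h => htr (IsAlgebraic.inv_iff.1 h)
  obtain ⟨-, -, r, e, he, hgen⟩ :=
    chart_facts (R := R) (IntermediateField.adjoin K {t}) hinv_mem hE' htr'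
  exact ⟨r, e, fun i => (mem_B1_iff_mem_chart D.model _).2 (he i),
    fun x hx => hgen x ((mem_B1_iff_mem_chart D.model x).1 hx)⟩

/-! ### The packaged statements -/

/-- **`FiniteProjOverLine` for the nodal chart**, from `NodalNumData` + `Hyp`. -/
theorem numData_finiteProjOverLine [IsDomain R] [IsDiscreteValuationRing R] [CharZero K]
    (hπ : Irreducible π) (D : NodalNumData R K F π t B0 B1 O1 O2) (H : Hyp π t B0 B1 O1 O2) :
    @TwoChart.FiniteProjOverLine R ↥B0 ↥B1 ↥(B0 ⊔ B1) _ _ _ _ _ _ _ (algebra0 B0 B1)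
      (algebra1 B0 B1) (isScalarTower0 B0 B1) (isScalarTower1 B0 B1) (nodalChart D.model) :=
  nodal_finiteProjOverLine hπ D.model (fin1_of_numData D (transMod_of_hyp H).1)
    (transMod_of_hyp H).1 (transMod_of_hyp H).2

/-- **`CoordInjective` for the nodal chart** (field `hInj`), from `NodalNumData` + `Hyp`, for any
Čech datum whose restriction maps are the inclusions. -/
theorem numData_coordInjective_of_cechData [IsDomain R] [IsDiscreteValuationRing R] [CharZero K]
    (hπ : Irreducible π) (D : NodalNumData R K F π t B0 B1 O1 O2) (H : Hyp π t B0 B1 O1 O2)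
    {g : ℕ} (C : CechData R ↥B0 ↥B1 ↥(B0 ⊔ B1) g)
    (hρ0 : ∀ x, C.ρ0 x = ρ0 B0 B1 x) (hρ1 : ∀ x, C.ρ1 x = ρ1 B0 B1 x)
    (O : Type u) [CommRing O] [IsDomain O] [IsDiscreteValuationRing O] [Algebra R O] :
    @CoordInjective R ↥B0 ↥B1 ↥(B0 ⊔ B1) _ _ _ _ _ _ _ (algebra0 B0 B1) (algebra1 B0 B1)
      (isScalarTower0 B0 B1) (isScalarTower1 B0 B1) (nodalChart D.model) O _ _ _ _ :=
  nodal_coordInjective_of_cechData hπ D.model (fin1_of_numData D (transMod_of_hyp H).1)
    (transMod_of_hyp H).1 (transMod_of_hyp H).2 C hρ0 hρ1 O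

end Fermat.Agent.T1B.Toric11
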