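/-
T1B / TORIC50 (helper11), brick NORM-JHAT, stage 1: abstract norm systems.

A `NormSys D D'` is a system of multiplicative maps `N01 R : R ⊗ B01 →* R ⊗ B01'` (and `N0`, `N1` on the
charts), for all `W`-algebras `R`, compatible with restriction to the overlap and with base change,
whose first order term on square zero ideals is the base change of a `W`-linear map
`Tr : B01 →ₗ[W] B01'` which respects the charts.  (In the application: the norm of the finite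
projective algebras `B_j` over `B_j'` along a degeneracy map, and its trace.)

Output:
* `NormSys.unitHom01 R m : unitsOne (m (R ⊗ B01)) →* unitsOne (m (R ⊗ B01'))`, maps coboundaries to
  coboundaries (`bdry_le`);
* `NormSys.βn 𝔪 n : Jn D 𝔪 n →* Jn D' 𝔪 n` on the towers, `βn_pJ`;
* first order: `βn_lam : S.βn 𝔪 (n+1) (lam D 𝔪 n (ofAdd a)) = lam D' 𝔪 n (ofAdd (mulVecIHom S.jacMat _ a))`,
  `S.jacMat k i = D'.coef (S.trMap (D.b i)) k`;
* pairs `(Sα, Sβ)`: `βn2`, `βn2_pJ`, `βn2_lam` with `lam2` and the stacked matrix `stackMat`.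
-/
import Mathlib
import Fermat.Agent.T1B.Toric11.FirstOrder
import Fermat.Agent.T1.CechFormal70.Bridge

set_option autoImplicit false
set_option maxHeartbeats 400000
set_option linter.unusedSectionVars false

noncomputable section

namespace Fermat.Agent.T1B.Toric11

open Fermat.Agent.T1.IFT50 Fermat.Agent.T1.CechFormal70 Fermat.Agent.T1B.Toric50
open scoped TensorProduct

universe u

variable {W B0 B1 B01 B0' B1' B01' : Type u} [CommRing W]
  [CommRing B0] [CommRing B1] [CommRing B01] [Algebra W B0] [Algebra W B1] [Algebra W B01]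
  [CommRing B0'] [CommRing B1'] [CommRing B01'] [Algebra W B0'] [Algebra W B1'] [Algebra W B01']
  {g g' : ℕ}

/-- An abstract norm system from the Čech datum `D` to the Čech datum `D'`. -/
structure NormSys (D : CechData W B0 B1 B01 g) (D' : CechData W B0' B1' B01' g') :
    Type (u + 1) where
  /-- the norm on the overlap -/
  N01 : ∀ (R : Type u) [CommRing R] [Algebra W R], (R ⊗[W] B01) →* (R ⊗[W] B01')
  /-- the norm on chart 0 -/
  N0 : ∀ (R : Type u) [CommRing R] [Algebra W R], (R ⊗[W] B0) →* (R ⊗[W] B0')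
  /-- the norm on chart 1 -/
  N1 : ∀ (R : Type u) [CommRing R] [Algebra W R], (R ⊗[W] B1) →* (R ⊗[W] B1')
  /-- the trace on the overlap -/
  trMap : B01 →ₗ[W] B01'
  res0 : ∀ (R : Type u) [CommRing R] [Algebra W R] (x : R ⊗[W] B0),
    N01 R ((D.pkg R).r0 x) = (D'.pkg R).r0 (N0 R x)
  res1 : ∀ (R : Type u) [CommRing R] [Algebra W R] (x : R ⊗[W] B1),
    N01 R ((D.pkg R).r1 x) = (D'.pkg R).r1 (N1 R x)
  bc01 : ∀ {R R' : Type u} [CommRing R] [CommRing R'] [Algebra W R] [Algebra W R']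
    (f : R →ₐ[W] R') (x : R ⊗[W] B01),
    N01 R' (Algebra.TensorProduct.map f (AlgHom.id W B01) x)
      = Algebra.TensorProduct.map f (AlgHom.id W B01') (N01 R x)
  bc0 : ∀ {R R' : Type u} [CommRing R] [CommRing R'] [Algebra W R] [Algebra W R']
    (f : R →ₐ[W] R') (x : R ⊗[W] B0),
    N0 R' (Algebra.TensorProduct.map f (AlgHom.id W B0) x)
      = Algebra.TensorProduct.map f (AlgHom.id W B0') (N0 R x)
  bc1 : ∀ {R R' : Type u} [CommRing R] [CommRing R'] [Algebra W R] [Algebra W R']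
    (f : R →ₐ[W] R') (x : R ⊗[W] B1),
    N1 R' (Algebra.TensorProduct.map f (AlgHom.id W B1) x)
      = Algebra.TensorProduct.map f (AlgHom.id W B1') (N1 R x)
  /-- first order term on square zero ideals -/
  sq_zero : ∀ (R : Type u) [CommRing R] [Algebra W R] (I : Ideal R), I ^ 2 = ⊥ →
    ∀ x ∈ eI I (R ⊗[W] B01), N01 R (1 + x) = 1 + trMap.baseChange R x
  trMap_res0 : ∀ x : B0, ∃ x' : B0', trMap (D.ρ0 x) = D'.ρ0 x'
  trMap_res1 : ∀ x : B1, ∃ x' : B1', trMap (D.ρ1 x) = D'.ρ1 x'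

/-! ### Generalities -/

section Gen

variable {R : Type u} [CommRing R] [Algebra W R]

/-- a multiplicative map commuting with reduction modulo `m` preserves `≡ 1 mod m`. -/
theorem sub_one_mem_eI_of_bc {B B' : Type u} [CommRing B] [CommRing B'] [Algebra W B]
    [Algebra W B'] (m : Ideal R) (N : (R ⊗[W] B) →* (R ⊗[W] B'))
    (Nq : ((R ⧸ m) ⊗[W] B) →* ((R ⧸ m) ⊗[W] B'))
    (hbc : ∀ x, Nq (Algebra.TensorProduct.map (Ideal.Quotient.mkₐ W m) (AlgHom.id W B) x)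
      = Algebra.TensorProduct.map (Ideal.Quotient.mkₐ W m) (AlgHom.id W B') (N x))
    {x : R ⊗[W] B} (hx : x - 1 ∈ eI m (R ⊗[W] B)) : N x - 1 ∈ eI m (R ⊗[W] B') := by
  have hs : Function.Surjective (Ideal.Quotient.mkₐ W m) := Ideal.Quotient.mkₐ_surjective W m
  have hk : RingHom.ker (Ideal.Quotient.mkₐ W m) = m := Ideal.Quotient.mkₐ_ker W m
  have h1 : Algebra.TensorProduct.map (Ideal.Quotient.mkₐ W m) (AlgHom.id W B) (x - 1) = 0 := by
    rw [← CechData.mem_eI_ker_iff (Ideal.Quotient.mkₐ W m) hs B, hk]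
    exact hx
  rw [map_sub, map_one, sub_eq_zero] at h1
  have h2 : Algebra.TensorProduct.map (Ideal.Quotient.mkₐ W m) (AlgHom.id W B') (N x - 1) = 0 := by
    rw [map_sub, map_one, ← hbc, h1, map_one, sub_self]
  rw [← CechData.mem_eI_ker_iff (Ideal.Quotient.mkₐ W m) hs B', hk] at h2
  exact h2

theorem mul_eq_zero_of_mem_eI {T : Type*} [CommRing T] [Algebra R T] {I : Ideal R}
    (hI : I ^ 2 = ⊥) {p q : T} (hp : p ∈ eI I T) (hq : q ∈ eI I T) : p * q = 0 := by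
  have h := Ideal.mul_mem_mul hp hq
  unfold eI at h
  rw [← Ideal.map_mul, ← pow_two, hI, Ideal.map_bot, Ideal.mem_bot] at h
  exact h

theorem tmul_mem_eI {B : Type u} [CommRing B] [Algebra W B] {I : Ideal R} {a : R} (ha : a ∈ I)
    (b : B) : a ⊗ₜ[W] b ∈ eI I (R ⊗[W] B) := by
  have : a ⊗ₜ[W] b = a • ((1 : R) ⊗ₜ[W] b) := by
    rw [TensorProduct.smul_tmul', smul_eq_mul, mul_one]
  rw [this]
  exact smul_mem_eI ha _

end Gen

namespace NormSys

variable {D : CechData W B0 B1 B01 g} {D' : CechData W B0' B1' B01' g'} (S : NormSys D D')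

/-- the first order matrix of the norm: the matrix of the trace on `H¹`. -/
def jacMat : Matrix (Fin g') (Fin g) W := fun k i => D'.coef (S.trMap (D.b i)) k

/-! ### The norm on one-units -/

section Units

variable (R : Type u) [CommRing R] [Algebra W R] (m : Ideal R)

theorem N01_sub_one_mem {x : R ⊗[W] B01} (hx : x - 1 ∈ eI m (R ⊗[W] B01)) :
    S.N01 R x - 1 ∈ eI m (R ⊗[W] B01') :=
  sub_one_mem_eI_of_bc m (S.N01 R) (S.N01 (R ⧸ m)) (fun x => S.bc01 _ x) hx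

theorem N0_sub_one_mem {x : R ⊗[W] B0} (hx : x - 1 ∈ eI m (R ⊗[W] B0)) :
    S.N0 R x - 1 ∈ eI m (R ⊗[W] B0') :=
  sub_one_mem_eI_of_bc m (S.N0 R) (S.N0 (R ⧸ m)) (fun x => S.bc0 _ x) hx

theorem N1_sub_one_mem {x : R ⊗[W] B1} (hx : x - 1 ∈ eI m (R ⊗[W] B1)) :
    S.N1 R x - 1 ∈ eI m (R ⊗[W] B1') :=
  sub_one_mem_eI_of_bc m (S.N1 R) (S.N1 (R ⧸ m)) (fun x => S.bc1 _ x) hx

/-- the norm on the one-units of the overlap. -/
def unitHom01 : unitsOne (eI m (R ⊗[W] B01)) →* unitsOne (eI m (R ⊗[W] B01')) where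
  toFun u := ⟨Units.map (S.N01 R) (u : (R ⊗[W] B01)ˣ), S.N01_sub_one_mem R m u.2⟩
  map_one' := by
    apply Subtype.ext
    exact map_one (Units.map (S.N01 R))
  map_mul' u v := by
    apply Subtype.ext
    exact map_mul (Units.map (S.N01 R)) _ _

/-- the norm on the one-units of chart 0. -/
def unitHom0 : unitsOne (eI m (R ⊗[W] B0)) →* unitsOne (eI m (R ⊗[W] B0')) where
  toFun u := ⟨Units.map (S.N0 R) (u : (R ⊗[W] B0)ˣ), S.N0_sub_one_mem R m u.2⟩
  map_one' := by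
    apply Subtype.ext
    exact map_one (Units.map (S.N0 R))
  map_mul' u v := by
    apply Subtype.ext
    exact map_mul (Units.map (S.N0 R)) _ _

/-- the norm on the one-units of chart 1. -/
def unitHom1 : unitsOne (eI m (R ⊗[W] B1)) →* unitsOne (eI m (R ⊗[W] B1')) where
  toFun u := ⟨Units.map (S.N1 R) (u : (R ⊗[W] B1)ˣ), S.N1_sub_one_mem R m u.2⟩
  map_one' := by
    apply Subtype.ext
    exact map_one (Units.map (S.N1 R))
  map_mul' u v := by
    apply Subtype.ext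
    exact map_mul (Units.map (S.N1 R)) _ _

@[simp] theorem coe_unitHom01 (u : unitsOne (eI m (R ⊗[W] B01))) :
    (((S.unitHom01 R m u : unitsOne (eI m (R ⊗[W] B01'))) : (R ⊗[W] B01')ˣ) : R ⊗[W] B01')
      = S.N01 R ((u : (R ⊗[W] B01)ˣ) : R ⊗[W] B01) := rfl

/-- the norm maps coboundaries to coboundaries. -/
theorem bdry_le : (D.pkg R).bdry m ≤ ((D'.pkg R).bdry m).comap (S.unitHom01 R m) := by
  rintro _ ⟨⟨u0, u1⟩, rfl⟩
  refine ⟨(S.unitHom0 R m u0, S.unitHom1 R m u1), ?_⟩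
  apply Subtype.ext
  apply Units.ext
  show (D'.pkg R).r0 (S.N0 R _) * (D'.pkg R).r1 (S.N1 R _)
    = S.N01 R ((D.pkg R).r0 _ * (D.pkg R).r1 _)
  rw [map_mul, S.res0, S.res1]
  rfl

/-- on a square zero sub-ideal `I ≤ m` the unit of `φ(a)` is `1 + Σ aᵢ ⊗ bᵢ`. -/
theorem _root_.Fermat.Agent.T1B.Toric11.coe_phiUnit_of_sq_zero (D : CechData W B0 B1 B01 g)
    (R : Type u) [CommRing R] [Algebra W R] {m I : Ideal R}
    (hm : IsNilpotent m) (hI : I ≤ m) (hI2 : I ^ 2 = ⊥) (a : Fin g → I) :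
    ((((D.pkg R).phiUnit hm (CechData.incl hI a) : unitsOne (eI m (R ⊗[W] B01)))
        : (R ⊗[W] B01)ˣ) : R ⊗[W] B01) = 1 + ∑ i, (a i : R) ⊗ₜ[W] D.b i := by
  classical
  rw [Pkg.coe_phiUnit]
  unfold Pkg.phiT
  have hterm : ∀ i, ((CechData.incl hI a i : m) : R) • (D.pkg R).β i = (a i : R) ⊗ₜ[W] D.b i := by
    intro i
    rw [CechData.pkg_β, TensorProduct.smul_tmul', smul_eq_mul, mul_one]
    rfl
  simp only [hterm]
  have hprod : ∀ s : Finset (Fin g), ∏ i ∈ s, (1 + (a i : R) ⊗ₜ[W] D.b i)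
      = 1 + ∑ i ∈ s, (a i : R) ⊗ₜ[W] D.b i := by
    intro s
    induction s using Finset.induction_on with
    | empty => simp
    | insert j s hj ih =>
      rw [Finset.prod_insert hj, Finset.sum_insert hj, ih, mul_add, mul_one, add_mul, one_mul,
        Finset.mul_sum]
      have hz : ∀ i ∈ s, ((a j : R) ⊗ₜ[W] D.b j) * ((a i : R) ⊗ₜ[W] D.b i) = 0 := fun i _ =>
        mul_eq_zero_of_mem_eI hI2 (tmul_mem_eI (a j).2 _) (tmul_mem_eI (a i).2 _)
      rw [Finset.sum_eq_zero hz]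
      ring
  exact hprod Finset.univ

/-- **first order formula** for the norm, general form: `R` any `W`-algebra, `m` nilpotent,
`I ≤ m` of square zero. -/
theorem cls_unitHom01_phiUnit {m I : Ideal R} (hm : IsNilpotent m) (hI : I ≤ m) (hI2 : I ^ 2 = ⊥)
    (a : Fin g → I) :
    (D'.pkg R).cls m (S.unitHom01 R m ((D.pkg R).phiUnit hm (CechData.incl hI a)))
      = (D'.pkg R).cls m ((D'.pkg R).phiUnit hm (CechData.incl hI (mulVecIHom S.jacMat I a))) := by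
  classical
  rw [eq_comm, (D'.pkg R).cls_eq_cls_iff]
  -- decompositions of `trMap (b i)`
  have hdec : ∀ i, ∃ (x0 : B0') (x1 : B1'), S.trMap (D.b i)
      = ∑ k, S.jacMat k i • D'.b k + D'.ρ0 x0 + D'.ρ1 x1 := fun i =>
    Classical.choose_spec (D'.span (S.trMap (D.b i)))
  choose x0 x1 hx using hdec
  -- the chart corrections
  have hX0I : (∑ i, (a i : R) ⊗ₜ[W] x0 i) ∈ eI I (R ⊗[W] B0') :=
    Ideal.sum_mem _ fun i _ => tmul_mem_eI (a i).2 _
  have hX1I : (∑ i, (a i : R) ⊗ₜ[W] x1 i) ∈ eI I (R ⊗[W] B1') :=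
    Ideal.sum_mem _ fun i _ => tmul_mem_eI (a i).2 _
  have hn0 : IsNilpotent (eI m (R ⊗[W] B0')) := isNilpotent_map _ hm
  have hn1 : IsNilpotent (eI m (R ⊗[W] B1')) := isNilpotent_map _ hm
  refine ⟨oneAddUnit hn0 _ (eI_mono hI hX0I), oneAddUnit hn1 _ (eI_mono hI hX1I), ?_⟩
  apply Units.ext
  rw [Units.val_mul, Units.val_mul, Units.coe_map, Units.coe_map, MonoidHom.coe_coe,
    MonoidHom.coe_coe, coe_oneAddUnit, coe_oneAddUnit, coe_unitHom01,
    coe_phiUnit_of_sq_zero D R hm hI hI2, coe_phiUnit_of_sq_zero D' R hm hI hI2]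
  -- the norm of `1 + x`
  have hxI : (∑ i, (a i : R) ⊗ₜ[W] D.b i) ∈ eI I (R ⊗[W] B01) :=
    Ideal.sum_mem _ fun i _ => tmul_mem_eI (a i).2 _
  rw [S.sq_zero R I hI2 _ hxI, map_sum]
  simp only [LinearMap.baseChange_tmul]
  -- expand `trMap (b i)`
  have hterm : ∀ i, (a i : R) ⊗ₜ[W] S.trMap (D.b i)
      = ∑ k, (S.jacMat k i • (a i : R)) ⊗ₜ[W] D'.b k
        + (D'.pkg R).r0 ((a i : R) ⊗ₜ[W] x0 i) + (D'.pkg R).r1 ((a i : R) ⊗ₜ[W] x1 i) := by
    intro i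
    rw [hx i, TensorProduct.tmul_add, TensorProduct.tmul_add, TensorProduct.tmul_sum]
    congr 1
    · congr 1
      refine Finset.sum_congr rfl fun k _ => ?_
      rw [TensorProduct.tmul_smul, TensorProduct.smul_tmul']
  simp only [hterm, Finset.sum_add_distrib]
  rw [Finset.sum_comm, ← map_sum, ← map_sum]
  have hy : ∀ k, ∑ i, (S.jacMat k i • (a i : R)) ⊗ₜ[W] D'.b k
      = ((mulVecIHom S.jacMat I a k : I) : R) ⊗ₜ[W] D'.b k := by
    intro k
    rw [← TensorProduct.sum_tmul]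
    rfl
  simp only [hy]
  -- all cross terms vanish
  have hyI : (∑ k, ((mulVecIHom S.jacMat I a k : I) : R) ⊗ₜ[W] D'.b k) ∈ eI I (R ⊗[W] B01') :=
    Ideal.sum_mem _ fun k _ => tmul_mem_eI (mulVecIHom S.jacMat I a k).2 _
  have hr0 : (D'.pkg R).r0 (∑ i, (a i : R) ⊗ₜ[W] x0 i) ∈ eI I (R ⊗[W] B01') :=
    (D'.pkg R).r0_mem hX0I
  have hr1 : (D'.pkg R).r1 (∑ i, (a i : R) ⊗ₜ[W] x1 i) ∈ eI I (R ⊗[W] B01') :=
    (D'.pkg R).r1_mem hX1I
  have z1 := mul_eq_zero_of_mem_eI hI2 hyI hr0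
  have z2 := mul_eq_zero_of_mem_eI hI2 hyI hr1
  have z3 := mul_eq_zero_of_mem_eI hI2 hr0 hr1
  rw [map_add, map_one, map_add, map_one]
  linear_combination (-1 : R ⊗[W] B01') * z1 - z2 - z3
    - (∑ k, ((mulVecIHom S.jacMat I a k : I) : R) ⊗ₜ[W] D'.b k) * z3

end Units

/-! ### The norm on the towers -/

section Tower

variable {O : Type u} [CommRing O] [Algebra W O] (𝔪 : Ideal O)

/-- the norm on the tower of Čech formal groups. -/
def βn (n : ℕ) : Jn D 𝔪 n →* Jn D' 𝔪 n :=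
  towerHomOfUnitHoms 𝔪 (fun n => S.unitHom01 (Tr 𝔪 n) (mQ 𝔪 n))
    (fun n => S.bdry_le (Tr 𝔪 n) (mQ 𝔪 n)) n

theorem βn_cls (n : ℕ) (u : U01 (W := W) (B01 := B01) 𝔪 n) :
    S.βn 𝔪 n ((D.pkg (Tr 𝔪 n)).cls (mQ 𝔪 n) u)
      = (D'.pkg (Tr 𝔪 n)).cls (mQ 𝔪 n) (S.unitHom01 (Tr 𝔪 n) (mQ 𝔪 n) u) := rfl

/-- compatibility with the transition maps. -/
theorem βn_pJ (n : ℕ) (y : Jn D 𝔪 (n + 1)) :
    S.βn 𝔪 n (pJ D 𝔪 n y) = pJ D' 𝔪 n (S.βn 𝔪 (n + 1) y) := by
  refine towerHom_pJ 𝔪 _ _ (fun n u => ?_) n y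
  apply Subtype.ext
  apply Units.ext
  exact S.bc01 (fac W 𝔪 n) _

/-- **first order formula** for the norm. -/
theorem βn_lam (n : ℕ) (a : Fin g → kerI 𝔪 n) :
    S.βn 𝔪 (n + 1) (lam D 𝔪 n (Multiplicative.ofAdd a))
      = lam D' 𝔪 n (Multiplicative.ofAdd (mulVecIHom S.jacMat (kerI 𝔪 n) a)) := by
  rw [lam_eq_cls, βn_cls]
  exact S.cls_unitHom01_phiUnit (Tr 𝔪 (n + 1)) (mQ_nilpotent 𝔪 (n + 1)) (kerI_le 𝔪 n)
    (kerI_sq 𝔪 n) a

end Tower

end NormSys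

/-! ### Pairs of norm systems -/

section Pair

variable {D : CechData W B0 B1 B01 g} {D' : CechData W B0' B1' B01' g'}
  (Sα Sβ : NormSys D D') {O : Type u} [CommRing O] [Algebra W O] (𝔪 : Ideal O)

/-- the pair of norms `Jn D → Jn D' × Jn D'`. -/
def βn2 (n : ℕ) : Jn D 𝔪 n →* Jn D' 𝔪 n × Jn D' 𝔪 n := (Sα.βn 𝔪 n).prod (Sβ.βn 𝔪 n)

/-- the transition maps of the product tower. -/
def pJ2 (D' : CechData W B0' B1' B01' g') (n : ℕ) :
    Jn D' 𝔪 (n + 1) × Jn D' 𝔪 (n + 1) →* Jn D' 𝔪 n × Jn D' 𝔪 n :=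
  (pJ D' 𝔪 n).prodMap (pJ D' 𝔪 n)

theorem βn2_pJ (n : ℕ) (y : Jn D 𝔪 (n + 1)) :
    βn2 Sα Sβ 𝔪 n (pJ D 𝔪 n y) = pJ2 𝔪 D' n (βn2 Sα Sβ 𝔪 (n + 1) y) :=
  Prod.ext (Sα.βn_pJ 𝔪 n y) (Sβ.βn_pJ 𝔪 n y)

/-- the stacked first order matrix. -/
def stackMat (M M' : Matrix (Fin g') (Fin g) W) : Matrix (Fin g' ⊕ Fin g') (Fin g) W :=
  fun k i => Sum.elim (fun k => M k i) (fun k => M' k i) k

/-- **first order formula** for the pair of norms. -/
theorem βn2_lam (n : ℕ) (a : Fin g → kerI 𝔪 n) :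
    βn2 Sα Sβ 𝔪 (n + 1) (lam D 𝔪 n (Multiplicative.ofAdd a))
      = lam2 D' D' 𝔪 n (Multiplicative.ofAdd
          (mulVecIHom (stackMat Sα.jacMat Sβ.jacMat) (kerI 𝔪 n) a)) :=
  Prod.ext (Sα.βn_lam 𝔪 n a) (Sβ.βn_lam 𝔪 n a)

end Pair

end Fermat.Agent.T1B.Toric11
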