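/-
T1B / TORIC50 (helper11), brick NORM-JHAT, stage 1b: the Čech norm `Ĵ_D(R, m) →* Ĵ_{D'}(R, m)` of a norm
system for an arbitrary `W`-algebra `R`, and its **naturality** for all `W`-algebra maps
`f : R →ₐ[W] R'` (`jhatHom_JhatMap`).  Consequences on the tower: `βn_eq_jhatHom`, and equivariance of
`βn` for every automorphism of the tower induced by a `W`-algebra map (`βn_JhatMap`), hence stability
of `ker βn` (`βn_JhatMap_eq_one`: the field `β_smul` of `Toric50.Package2`).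
-/
import Mathlib
import Fermat.Agent.T1B.Toric11.NormSys

set_option autoImplicit false
set_option maxHeartbeats 400000
set_option linter.unusedSectionVars false

noncomputable section

namespace Fermat.Agent.T1B.Toric11

open Fermat.Agent.T1.IFT50 Fermat.Agent.T1.CechFormal70 Fermat.Agent.T1B.Toric50
open scoped TensorProduct

universe u

variable {W B0 B1 B01 B0' B1' B01' : Type u} [CommRing W]
  [CommRing B0] [CommRing B1] [CommRing B01] [Algebra W B0] [Algebra W B1] [Algebra W B01]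
  [CommRing B0'] [CommRing B1'] [CommRing B01'] [Algebra W B0'] [Algebra W B1'] [Algebra W B01']
  {g g' : ℕ}

namespace NormSys

variable {D : CechData W B0 B1 B01 g} {D' : CechData W B0' B1' B01' g'} (S : NormSys D D')

section General

variable (R : Type u) [CommRing R] [Algebra W R] (m : Ideal R)

/-- the Čech norm `Ĵ_D(R, m) →* Ĵ_{D'}(R, m)`. -/
def jhatHom : (D.pkg R).Jhat m →* (D'.pkg R).Jhat m :=
  QuotientGroup.map _ _ (S.unitHom01 R m) (S.bdry_le R m)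

@[simp] theorem jhatHom_cls (u : unitsOne (eI m (R ⊗[W] B01))) :
    S.jhatHom R m ((D.pkg R).cls m u) = (D'.pkg R).cls m (S.unitHom01 R m u) := rfl

variable {R m}
variable {R' : Type u} [CommRing R'] [Algebra W R'] {m' : Ideal R'}

/-- the norm on one-units commutes with base change. -/
theorem unitHom01_u01 (f : R →ₐ[W] R') (hm : m ≤ m'.comap (f : R →+* R'))
    (u : unitsOne (eI m (R ⊗[W] B01))) :
    S.unitHom01 R' m' ((D.pkgHom f).u01 hm u) = (D'.pkgHom f).u01 hm (S.unitHom01 R m u) := by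
  apply Subtype.ext
  apply Units.ext
  exact S.bc01 f _

/-- **Naturality of the Čech norm** for `W`-algebra maps. -/
theorem jhatHom_JhatMap (f : R →ₐ[W] R') (hm : m ≤ m'.comap (f : R →+* R'))
    (x : (D.pkg R).Jhat m) :
    S.jhatHom R' m' (D.JhatMap f hm x) = D'.JhatMap f hm (S.jhatHom R m x) := by
  obtain ⟨u, rfl⟩ := (D.pkg R).cls_surjective m x
  show S.jhatHom R' m' ((D.pkg R').cls m' ((D.pkgHom f).u01 hm u))
    = (D'.pkg R').cls m' ((D'.pkgHom f).u01 hm (S.unitHom01 R m u))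
  rw [jhatHom_cls, unitHom01_u01]

/-- the kernel of the Čech norm is stable under every map induced by a `W`-algebra map. -/
theorem jhatHom_JhatMap_eq_one (f : R →ₐ[W] R') (hm : m ≤ m'.comap (f : R →+* R'))
    (x : (D.pkg R).Jhat m) (hx : S.jhatHom R m x = 1) :
    S.jhatHom R' m' (D.JhatMap f hm x) = 1 := by
  rw [jhatHom_JhatMap, hx, map_one]

end General

section Tower

variable {O : Type u} [CommRing O] [Algebra W O] (𝔪 : Ideal O)

theorem βn_eq_jhatHom (n : ℕ) : S.βn 𝔪 n = S.jhatHom (Tr 𝔪 n) (mQ 𝔪 n) := rfl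

variable {O' : Type u} [CommRing O'] [Algebra W O'] (𝔪' : Ideal O')

/-- **Equivariance of the tower norm**: `βn` commutes with the map on the `n`-th level induced by any
`W`-algebra map `f : O/𝔪^n →ₐ[W] O'/𝔪'^n` mapping `𝔪/𝔪^n` into `𝔪'/𝔪'^n` (Galois action, change of
base ring). -/
theorem βn_JhatMap (n : ℕ) (f : Tr 𝔪 n →ₐ[W] Tr 𝔪' n)
    (hf : mQ 𝔪 n ≤ (mQ 𝔪' n).comap (f : Tr 𝔪 n →+* Tr 𝔪' n)) (x : Jn D 𝔪 n) :
    S.βn 𝔪' n (D.JhatMap f hf x) = D'.JhatMap f hf (S.βn 𝔪 n x) :=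
  S.jhatHom_JhatMap f hf x

/-- the field `β_smul` of `Toric50.Package2` (for any action through `JhatMap`s). -/
theorem βn_JhatMap_eq_one (n : ℕ) (f : Tr 𝔪 n →ₐ[W] Tr 𝔪' n)
    (hf : mQ 𝔪 n ≤ (mQ 𝔪' n).comap (f : Tr 𝔪 n →+* Tr 𝔪' n)) (x : Jn D 𝔪 n)
    (hx : S.βn 𝔪 n x = 1) : S.βn 𝔪' n (D.JhatMap f hf x) = 1 :=
  S.jhatHom_JhatMap_eq_one f hf x hx

end Tower

end NormSys

/-- pair version of `βn_JhatMap_eq_one`. -/
theorem βn2_JhatMap_eq_one {D : CechData W B0 B1 B01 g} {D' : CechData W B0' B1' B01' g'}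
    (Sα Sβ : NormSys D D') {O : Type u} [CommRing O] [Algebra W O] (𝔪 : Ideal O)
    {O' : Type u} [CommRing O'] [Algebra W O'] (𝔪' : Ideal O') (n : ℕ) (f : Tr 𝔪 n →ₐ[W] Tr 𝔪' n)
    (hf : mQ 𝔪 n ≤ (mQ 𝔪' n).comap (f : Tr 𝔪 n →+* Tr 𝔪' n)) (x : Jn D 𝔪 n)
    (hx : βn2 Sα Sβ 𝔪 n x = 1) : βn2 Sα Sβ 𝔪' n (D.JhatMap f hf x) = 1 := by
  have h1 : Sα.βn 𝔪 n x = 1 := congrArg Prod.fst hx
  have h2 : Sβ.βn 𝔪 n x = 1 := congrArg Prod.snd hx
  exact Prod.ext (Sα.βn_JhatMap_eq_one 𝔪 𝔪' n f hf x h1) (Sβ.βn_JhatMap_eq_one 𝔪 𝔪' n f hf x h2)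

end Fermat.Agent.T1B.Toric11
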