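/-
T1B / TORIC50 (helper11): **first order classification of Čech one-units** and the resulting
assembly lemma for the tower hypotheses.

* `coefMat D d : Matrix (Fin g) σ W`, `(coefMat D d) i k = D.coef (d k) i` (`= Toric98.Dι D d`).
* `cls_eq_phi_of_coe_eq` : for `I ≤ m`, `I² = 0`, a one-unit `u` of `R ⊗ B01` with
  `u = 1 + Σ_k a_k ⊗ d_k`, `a_k ∈ I`, `d_k ∈ B01`, has class `φ (coefMat D d *ᵥ a)`.
* `lam_coefMat` : on the tower, `cls u = lam D 𝔪 n (coefMat D d *ᵥ a)` for `a : σ → kerI 𝔪 n`.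
* `firstOrder_of_normPair` : `FirstOrder D 𝔪 r n (βn2 Sα Sβ 𝔪 (n+1)) ι` (the field `hfo` of
  `Toric50.Assemble.TowerInput`) from the first order formula of `ι` in the shape of
  `Toric50.GlueData.iota_firstOrder` with `W`-rational `d : Fin r → B01`, and the matrices `P`, `S`
  of T-LIN (`Toric98.exists_P_S_of_fibre`, with `T1 = Sα.trMap`, `T2 = Sβ.trMap`).
* `hyp_of_normPair` : the resulting `Tower.Hyp`.
-/
import Mathlib
import Fermat.Agent.T1B.Toric11.NormSys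

set_option autoImplicit false
set_option maxHeartbeats 400000
set_option linter.unusedSectionVars false
set_option linter.unusedVariables false

noncomputable section

namespace Fermat.Agent.T1B.Toric11

open Fermat.Agent.T1.IFT50 Fermat.Agent.T1.CechFormal70 Fermat.Agent.T1B.Toric50
open scoped TensorProduct

universe u

variable {W B0 B1 B01 B0' B1' B01' : Type u} [CommRing W]
  [CommRing B0] [CommRing B1] [CommRing B01] [Algebra W B0] [Algebra W B1] [Algebra W B01]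
  [CommRing B0'] [CommRing B1'] [CommRing B01'] [Algebra W B0'] [Algebra W B1'] [Algebra W B01']
  {g g' : ℕ}

/-- the matrix of `H¹`-coordinates of a family of elements of `B01`. -/
def coefMat (D : CechData W B0 B1 B01 g) {σ : Type} (d : σ → B01) : Matrix (Fin g) σ W :=
  fun i k => D.coef (d k) i

section Cls

variable (D : CechData W B0 B1 B01 g) (R : Type u) [CommRing R] [Algebra W R]

/-- **First order classification of one-units.** -/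
theorem cls_eq_phi_of_coe_eq {m I : Ideal R} (hm : IsNilpotent m) (hI : I ≤ m) (hI2 : I ^ 2 = ⊥)
    {σ : Type} [Fintype σ] (a : σ → I) (d : σ → B01) (u : unitsOne (eI m (R ⊗[W] B01)))
    (hu : ((u : (R ⊗[W] B01)ˣ) : R ⊗[W] B01) = 1 + ∑ k, (a k : R) ⊗ₜ[W] d k) :
    (D.pkg R).cls m u
      = (D.pkg R).cls m ((D.pkg R).phiUnit hm (CechData.incl hI (mulVecIHom (coefMat D d) I a))) := by
  classical
  rw [eq_comm, (D.pkg R).cls_eq_cls_iff]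
  have hdec : ∀ k, ∃ (x0 : B0) (x1 : B1), d k
      = ∑ i, coefMat D d i k • D.b i + D.ρ0 x0 + D.ρ1 x1 := fun k =>
    Classical.choose_spec (D.span (d k))
  choose x0 x1 hx using hdec
  have hX0I : (∑ k, (a k : R) ⊗ₜ[W] x0 k) ∈ eI I (R ⊗[W] B0) :=
    Ideal.sum_mem _ fun k _ => tmul_mem_eI (a k).2 _
  have hX1I : (∑ k, (a k : R) ⊗ₜ[W] x1 k) ∈ eI I (R ⊗[W] B1) :=
    Ideal.sum_mem _ fun k _ => tmul_mem_eI (a k).2 _
  have hn0 : IsNilpotent (eI m (R ⊗[W] B0)) := isNilpotent_map _ hm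
  have hn1 : IsNilpotent (eI m (R ⊗[W] B1)) := isNilpotent_map _ hm
  refine ⟨oneAddUnit hn0 _ (eI_mono hI hX0I), oneAddUnit hn1 _ (eI_mono hI hX1I), ?_⟩
  apply Units.ext
  rw [Units.val_mul, Units.val_mul, Units.coe_map, Units.coe_map, MonoidHom.coe_coe,
    MonoidHom.coe_coe, coe_oneAddUnit, coe_oneAddUnit, hu,
    coe_phiUnit_of_sq_zero D R hm hI hI2]
  have hterm : ∀ k, (a k : R) ⊗ₜ[W] d k
      = ∑ i, (coefMat D d i k • (a k : R)) ⊗ₜ[W] D.b i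
        + (D.pkg R).r0 ((a k : R) ⊗ₜ[W] x0 k) + (D.pkg R).r1 ((a k : R) ⊗ₜ[W] x1 k) := by
    intro k
    conv_lhs => rw [hx k]
    rw [TensorProduct.tmul_add, TensorProduct.tmul_add, TensorProduct.tmul_sum]
    congr 1
    · congr 1
      refine Finset.sum_congr rfl fun i _ => ?_
      rw [TensorProduct.tmul_smul, TensorProduct.smul_tmul']
  simp only [hterm, Finset.sum_add_distrib]
  rw [Finset.sum_comm, ← map_sum, ← map_sum]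
  have hy : ∀ i, ∑ k, (coefMat D d i k • (a k : R)) ⊗ₜ[W] D.b i
      = ((mulVecIHom (coefMat D d) I a i : I) : R) ⊗ₜ[W] D.b i := by
    intro i
    rw [← TensorProduct.sum_tmul]
    rfl
  simp only [hy]
  have hyI : (∑ i, ((mulVecIHom (coefMat D d) I a i : I) : R) ⊗ₜ[W] D.b i)
      ∈ eI I (R ⊗[W] B01) :=
    Ideal.sum_mem _ fun i _ => tmul_mem_eI (mulVecIHom (coefMat D d) I a i).2 _
  have hr0 : (D.pkg R).r0 (∑ k, (a k : R) ⊗ₜ[W] x0 k) ∈ eI I (R ⊗[W] B01) :=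
    (D.pkg R).r0_mem hX0I
  have hr1 : (D.pkg R).r1 (∑ k, (a k : R) ⊗ₜ[W] x1 k) ∈ eI I (R ⊗[W] B01) :=
    (D.pkg R).r1_mem hX1I
  have z1 := mul_eq_zero_of_mem_eI hI2 hyI hr0
  have z2 := mul_eq_zero_of_mem_eI hI2 hyI hr1
  have z3 := mul_eq_zero_of_mem_eI hI2 hr0 hr1
  rw [map_add, map_one, map_add, map_one]
  linear_combination (-1 : R ⊗[W] B01) * z1 - z2 - z3
    - (∑ i, ((mulVecIHom (coefMat D d) I a i : I) : R) ⊗ₜ[W] D.b i) * z3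

end Cls

section Tower

variable (D : CechData W B0 B1 B01 g) {O : Type u} [CommRing O] [Algebra W O] (𝔪 : Ideal O)

/-- on the tower: a one-unit `1 + Σ_k a_k ⊗ d_k` with `a_k` in the kernel of the transition map
has class `lam (coefMat D d *ᵥ a)`. -/
theorem lam_coefMat (n : ℕ) {σ : Type} [Fintype σ] (a : σ → kerI 𝔪 n) (d : σ → B01)
    (u : U01 (W := W) (B01 := B01) 𝔪 (n + 1))
    (hu : ((u : (Tr 𝔪 (n + 1) ⊗[W] B01)ˣ) : Tr 𝔪 (n + 1) ⊗[W] B01)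
      = 1 + ∑ k, (a k : Tr 𝔪 (n + 1)) ⊗ₜ[W] d k) :
    (D.pkg (Tr 𝔪 (n + 1))).cls (mQ 𝔪 (n + 1)) u
      = lam D 𝔪 n (Multiplicative.ofAdd (mulVecIHom (coefMat D d) (kerI 𝔪 n) a)) := by
  rw [lam_eq_cls]
  exact cls_eq_phi_of_coe_eq D (Tr 𝔪 (n + 1)) (mQ_nilpotent 𝔪 (n + 1)) (kerI_le 𝔪 n)
    (kerI_sq 𝔪 n) a d u hu

variable {D} {D' : CechData W B0' B1' B01' g'} (Sα Sβ : NormSys D D') (r : ℕ)

/-- **The first order data of the pair of Čech norms and a toric map** (field `hfo` of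
`Toric50.Assemble.TowerInput`). -/
theorem firstOrder_of_normPair (n : ℕ) (ι : Tn r 𝔪 (n + 1) →* Jn D 𝔪 (n + 1)) (d : Fin r → B01)
    (hι : ∀ w : Fin r → kerI 𝔪 n, ∃ u : U01 (W := W) (B01 := B01) 𝔪 (n + 1),
      ((u : (Tr 𝔪 (n + 1) ⊗[W] B01)ˣ) : Tr 𝔪 (n + 1) ⊗[W] B01)
        = 1 + ∑ k, (w k : Tr 𝔪 (n + 1)) ⊗ₜ[W] d k ∧
      ι (lamT 𝔪 r n (Multiplicative.ofAdd w)) = (D.pkg (Tr 𝔪 (n + 1))).cls (mQ 𝔪 (n + 1)) u)
    (𝔭 : Ideal W) (h𝔭 : ∀ c ∈ 𝔭, algebraMap W O c ∈ 𝔪)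
    (P : Matrix (Fin r) (Fin g) W) (S : Matrix (Fin g) (Fin g' ⊕ Fin g') W)
    (hP : ∀ i j, (P * coefMat D d - (1 : Matrix (Fin r) (Fin r) W)) i j ∈ 𝔭)
    (hS : ∀ i j, (coefMat D d * P + S * stackMat Sα.jacMat Sβ.jacMat
      - (1 : Matrix (Fin g) (Fin g) W)) i j ∈ 𝔭) :
    FirstOrder D 𝔪 r n (Bn1 := Jn D' 𝔪 (n + 1) × Jn D' 𝔪 (n + 1)) (βn2 Sα Sβ 𝔪 (n + 1)) ι := by
  classical
  obtain ⟨hex, hinj⟩ := firstOrder_of_matrices 𝔪 𝔭 h𝔭 n (stackMat Sα.jacMat Sβ.jacMat)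
    (coefMat D d) P S hP hS
  refine ⟨⟨Fin g' ⊕ Fin g', lam2 D' D' 𝔪 n,
    mulVecIHom (stackMat Sα.jacMat Sβ.jacMat) (kerI 𝔪 n),
    mulVecIHom (coefMat D d) (kerI 𝔪 n), lam2_injective D' D' 𝔪 n,
    fun a => βn2_lam Sα Sβ 𝔪 n a, fun w => ?_, hex, hinj⟩⟩
  obtain ⟨u, hu, hιw⟩ := hι w
  rw [hιw]
  exact lam_coefMat D 𝔪 n w d u hu

/-- **The tower hypotheses for a pair of Čech norm systems and a toric tower map.** -/
theorem hyp_of_normPair (ι : ∀ n, Tn r 𝔪 n →* Jn D 𝔪 n)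
    (ι_pT : ∀ n (z : Tn r 𝔪 (n + 1)), ι n (pT (W := W) r 𝔪 n z) = pJ D 𝔪 n (ι (n + 1) z))
    (β_ι : ∀ n (z : Tn r 𝔪 n), βn2 Sα Sβ 𝔪 n (ι n z) = 1)
    (d : Fin r → B01)
    (hι : ∀ n (w : Fin r → kerI 𝔪 n), ∃ u : U01 (W := W) (B01 := B01) 𝔪 (n + 1),
      ((u : (Tr 𝔪 (n + 1) ⊗[W] B01)ˣ) : Tr 𝔪 (n + 1) ⊗[W] B01)
        = 1 + ∑ k, (w k : Tr 𝔪 (n + 1)) ⊗ₜ[W] d k ∧
      ι (n + 1) (lamT 𝔪 r n (Multiplicative.ofAdd w))
        = (D.pkg (Tr 𝔪 (n + 1))).cls (mQ 𝔪 (n + 1)) u)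
    (𝔭 : Ideal W) (h𝔭 : ∀ c ∈ 𝔭, algebraMap W O c ∈ 𝔪)
    (P : Matrix (Fin r) (Fin g) W) (S : Matrix (Fin g) (Fin g' ⊕ Fin g') W)
    (hP : ∀ i j, (P * coefMat D d - (1 : Matrix (Fin r) (Fin r) W)) i j ∈ 𝔭)
    (hS : ∀ i j, (coefMat D d * P + S * stackMat Sα.jacMat Sβ.jacMat
      - (1 : Matrix (Fin g) (Fin g) W)) i j ∈ 𝔭) :
    Tower.Hyp (J := Jn D 𝔪) (B := fun n => Jn D' 𝔪 n × Jn D' 𝔪 n) (T := Tn r 𝔪)
      (pJ D 𝔪) (pJ2 𝔪 D') (pT (W := W) r 𝔪) (βn2 Sα Sβ 𝔪) ι :=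
  hyp_of_firstOrder D 𝔪 r (B := fun n => Jn D' 𝔪 n × Jn D' 𝔪 n) (pJ2 𝔪 D') (βn2 Sα Sβ 𝔪) ι
    (βn2_pJ Sα Sβ 𝔪) ι_pT β_ι fun n =>
      firstOrder_of_normPair 𝔪 Sα Sβ r n (ι (n + 1)) d (hι n) 𝔭 h𝔭 P S hP hS

end Tower

end Fermat.Agent.T1B.Toric11
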