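/-
T1B / TORIC50 (helper11): the assembly lemma `hyp_of_normPair` with the matrices in helper98's
T-LIN vocabulary (`Toric98.Dι`, `Toric98.Dβ`, `Toric98.MatCongr`), so that the output of
`Toric98.exists_P_S_of_fibre` (with `T1 = Sα.trMap`, `T2 = Sβ.trMap`) plugs in verbatim.
-/
import Mathlib
import Fermat.Agent.T1B.Toric11.FirstOrderCls
import Fermat.Agent.T1B.Toric98.Output

set_option autoImplicit false
set_option maxHeartbeats 400000
set_option linter.unusedSectionVars false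
set_option linter.unusedVariables false

noncomputable section

namespace Fermat.Agent.T1B.Toric11

open Fermat.Agent.T1.IFT50 Fermat.Agent.T1.CechFormal70 Fermat.Agent.T1B.Toric50
open Fermat.Agent.T1B.Toric98
open scoped TensorProduct

universe u

variable {W B0 B1 B01 B0' B1' B01' : Type u} [CommRing W]
  [CommRing B0] [CommRing B1] [CommRing B01] [Algebra W B0] [Algebra W B1] [Algebra W B01]
  [CommRing B0'] [CommRing B1'] [CommRing B01'] [Algebra W B0'] [Algebra W B1'] [Algebra W B01']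
  {g g' : ℕ} {D : CechData W B0 B1 B01 g} {D' : CechData W B0' B1' B01' g'}

theorem coefMat_eq_Dι {σ : Type} (d : σ → B01) : coefMat D d = Dι D d := rfl

theorem stackMat_eq_Dβ (Sα Sβ : NormSys D D') :
    stackMat Sα.jacMat Sβ.jacMat = Dβ D D' Sα.trMap Sβ.trMap := by
  funext k i
  rcases k with k | k <;> rfl

variable {O : Type u} [CommRing O] [Algebra W O] (𝔪 : Ideal O) (Sα Sβ : NormSys D D') (r : ℕ)

/-- **The tower hypotheses** from a pair of Čech norm systems, a toric tower map with first order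
term `1 + Σ w_k ⊗ d_k`, and the matrices `P`, `S` of T-LIN. -/
theorem hyp_of_normPair_matCongr (ι : ∀ n, Tn r 𝔪 n →* Jn D 𝔪 n)
    (ι_pT : ∀ n (z : Tn r 𝔪 (n + 1)), ι n (pT (W := W) r 𝔪 n z) = pJ D 𝔪 n (ι (n + 1) z))
    (β_ι : ∀ n (z : Tn r 𝔪 n), βn2 Sα Sβ 𝔪 n (ι n z) = 1)
    (d : Fin r → B01)
    (hι : ∀ n (w : Fin r → kerI 𝔪 n), ∃ u : U01 (W := W) (B01 := B01) 𝔪 (n + 1),
      ((u : (Tr 𝔪 (n + 1) ⊗[W] B01)ˣ) : Tr 𝔪 (n + 1) ⊗[W] B01)
        = 1 + ∑ k, (w k : Tr 𝔪 (n + 1)) ⊗ₜ[W] d k ∧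
      ι (n + 1) (lamT 𝔪 r n (Multiplicative.ofAdd w))
        = (D.pkg (Tr 𝔪 (n + 1))).cls (mQ 𝔪 (n + 1)) u)
    (𝔭 : Ideal W) (h𝔭 : ∀ c ∈ 𝔭, algebraMap W O c ∈ 𝔪)
    (P : Matrix (Fin r) (Fin g) W) (S : Matrix (Fin g) (Fin g' ⊕ Fin g') W)
    (hP : MatCongr 𝔭 (P * Dι D d) 1)
    (hS : MatCongr 𝔭 (Dι D d * P + S * Dβ D D' Sα.trMap Sβ.trMap) 1) :
    Tower.Hyp (J := Jn D 𝔪) (B := fun n => Jn D' 𝔪 n × Jn D' 𝔪 n) (T := Tn r 𝔪)
      (pJ D 𝔪) (pJ2 𝔪 D') (pT (W := W) r 𝔪) (βn2 Sα Sβ 𝔪) ι := by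
  refine hyp_of_normPair 𝔪 Sα Sβ r ι ι_pT β_ι d hι 𝔭 h𝔭 P S (fun i j => hP i j) (fun i j => ?_)
  rw [stackMat_eq_Dβ]
  exact hS i j

end Fermat.Agent.T1B.Toric11
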