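/-
T1B / TORIC50 (helper11): bridge from helper81's `Alg81.exists_algebraisation` (T-ALG, ALG-b) to the
hypotheses `AlgUnits` / `AlgCoord` of `Toric11/AlgLim.lean`; hence **`uJ` is onto `lim Jn`** and the field
`alg` of `Toric50.Package2`, unconditionally for a complete DVR `O` such that `O ⊗ B0` is finite over
`O[t]` and the elements of `1 + 𝔪 (O ⊗ B01)` are nonzerodivisors (e.g. `O ⊗ B01` a domain with
nonzero special fibre).
-/
import Mathlib
import Fermat.Agent.T1B.Toric11.AlgLim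
import Fermat.Agent.T1B.Alg81.Assemble

set_option autoImplicit false
set_option maxHeartbeats 400000
set_option linter.unusedSectionVars false
set_option linter.unusedVariables false

open TensorProduct Polynomial

noncomputable section

namespace Fermat.Agent.T1B.Toric11

open Fermat.Agent.Jac Fermat.Agent.Jac.JSmooth85Alg Fermat.Agent.Jac.JGroup85Pic
open Fermat.Agent.Jac.BaseChange75
open Fermat.Agent.T1.RedIface75 Fermat.Agent.T1.CechFormal70 Fermat.Agent.T1.Red11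
open scoped Fermat.Agent.Jac.BaseChange75

universe u

variable {W B0 B1 B01 : Type u} [CommRing W] [CommRing B0] [CommRing B1] [CommRing B01]
  [Algebra W B0] [Algebra W B1] [Algebra W B01] [Algebra B0 B01] [Algebra B1 B01]
  [IsScalarTower W B0 B01] [IsScalarTower W B1 B01]
  (c0 : TwoChart W B0 B1 B01) {g : ℕ} (D : CechData W B0 B1 B01 g)
  (hρ0 : ∀ x, D.ρ0 x = algebraMap B0 B01 x) (hρ1 : ∀ x, D.ρ1 x = algebraMap B1 B01 x)
  (O : Type u) [CommRing O] [IsDomain O] [IsDiscreteValuationRing O] [Algebra W O]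

local notation "𝔪O" => IsLocalRing.maximalIdeal O

/-- `AlgUnits` from helper81's algebraisation theorem. -/
theorem algUnits_of_nzd [IsAdicComplete 𝔪O O]
    (hfin0 : Module.Finite O[X] (Module.AEval O (O ⊗[W] B0) (c0.baseChange O).t))
    (hnzd : ∀ v : O ⊗[W] B01, v - 1 ∈ eI 𝔪O (O ⊗[W] B01) → v ∈ nonZeroDivisors (O ⊗[W] B01)) :
    AlgUnits c0 O := by
  intro v hv
  obtain ⟨y, hy, h⟩ := Fermat.Agent.T1B.Alg81.exists_algebraisation' c0 O hfin0 v (hnzd v hv) hv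
  exact ⟨⟨y, hy⟩, fun n => ⟨_, IsUnit.unit_spec _, h n⟩⟩

/-- in a domain with nonzero special fibre, the elements of `1 + 𝔪 S` are nonzerodivisors. -/
theorem mem_nonZeroDivisors_of_sub_one_mem {S : Type u} [CommRing S] [IsDomain S] {J : Ideal S}
    (hJ : J ≠ ⊤) {v : S} (hv : v - 1 ∈ J) : v ∈ nonZeroDivisors S := by
  apply mem_nonZeroDivisors_of_ne_zero
  rintro rfl
  apply hJ
  rw [Ideal.eq_top_iff_one]
  have : (1 : S) = -(0 - 1) := by ring
  rw [this]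
  exact neg_mem hv

/-- `AlgUnits` when `O ⊗ B01` is a domain with nonzero special fibre. -/
theorem algUnits_of_isDomain [IsAdicComplete 𝔪O O] [IsDomain (O ⊗[W] B01)]
    (hfin0 : Module.Finite O[X] (Module.AEval O (O ⊗[W] B0) (c0.baseChange O).t))
    (hne : eI 𝔪O (O ⊗[W] B01) ≠ ⊤) : AlgUnits c0 O :=
  algUnits_of_nzd c0 O hfin0 fun v hv => mem_nonZeroDivisors_of_sub_one_mem hne hv

include hρ0 hρ1 in
/-- **`uJ` is onto the limit**, from T-ALG. -/
theorem exists_uJ_eq_of_nzd [IsAdicComplete 𝔪O O]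
    (hfin0 : Module.Finite O[X] (Module.AEval O (O ⊗[W] B0) (c0.baseChange O).t))
    (hnzd : ∀ v : O ⊗[W] B01, v - 1 ∈ eI 𝔪O (O ⊗[W] B01) → v ∈ nonZeroDivisors (O ⊗[W] B01))
    (x : ∀ n, Jn D 𝔪O n) (hx : ∀ n, pJ D 𝔪O n (x (n + 1)) = x n) :
    ∃ y : J1 c0 O, ∀ n, uJ c0 D hρ0 hρ1 O n y = x n :=
  exists_uJ_eq c0 D hρ0 hρ1 O ((algUnits_of_nzd c0 O hfin0 hnzd).algCoord D.b) x hx

include hρ0 hρ1 in
/-- **The field `alg` of `Toric50.Package2`**, from T-ALG. -/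
theorem package2_alg_of_nzd [IsAdicComplete 𝔪O O]
    (hfin0 : Module.Finite O[X] (Module.AEval O (O ⊗[W] B0) (c0.baseChange O).t))
    (hnzd : ∀ v : O ⊗[W] B01, v - 1 ∈ eI 𝔪O (O ⊗[W] B01) → v ∈ nonZeroDivisors (O ⊗[W] B01))
    {T : ℕ → Type*} [∀ n, CommGroup (T n)] {Tinf : Type*} [CommGroup Tinf]
    (pT : ∀ n, T (n + 1) →* T n) (ι : ∀ n, T n →* Jn D 𝔪O n) (q : ∀ n, Tinf →* T n)
    (ι_pT : ∀ n (z : T (n + 1)), ι n (pT n z) = pJ D 𝔪O n (ι (n + 1) z))
    (q_compat : ∀ n (w : Tinf), pT n (q (n + 1) w) = q n w) (w : Tinf) :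
    ∃ y : J1 c0 O, ∀ n, uJ c0 D hρ0 hρ1 O n y = ι n (q n w) :=
  exists_uJ_eq_ι c0 D hρ0 hρ1 O ((algUnits_of_nzd c0 O hfin0 hnzd).algCoord D.b) pT ι q ι_pT
    q_compat w

end Fermat.Agent.T1B.Toric11
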