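/-
T1B / TORIC50 (helper11), brick NORM-JHAT, stage 2: **the Čech norm system of a finite projective
morphism of two-chart data**, from helper84's tensor-layer norm `Norm84.tnorm`.

Setting: two Čech data `D` (source, charts `B0, B1, B01`) and `D'` (target, charts `B0', B1', B01'`) over
`W`, whose restriction maps are the algebra maps of the charts, and a "finite projective morphism"
`B_j' → B_j` (`j = 0, 1, 01`; algebra instances) compatible with the restrictions, such that the two
squares `B01 = B01' ⊗_{B_j'} B_j` are pushouts (the charts of the source are the preimages of the charts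
of the target).

* `NormSys.ofProj D D' hρ0 hρ1 hρ0' hρ1' : NormSys D D'` with `N01 R = tnorm W R B01' B01`,
  `N_j R = tnorm W R B_j' B_j`, `trMap = ttr W B01' B01`;
* hence (stage 1) the tower homs `(NormSys.ofProj ..).βn 𝔪 n : Jn D 𝔪 n →* Jn D' 𝔪 n` with `βn_pJ`, `βn_lam`,
  first-order matrix `jacMat k i = D'.coef (projTr B01' B01 (D.b i)) k`.
-/
import Mathlib
import Fermat.Agent.T1B.Toric11.NormSys
import Fermat.Agent.T1B.Norm84.Tensor3

set_option autoImplicit false
set_option maxHeartbeats 400000
set_option linter.unusedSectionVars false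
set_option linter.unusedVariables false

open TensorProduct

noncomputable section

namespace Fermat.Agent.T1B.Toric11

open Fermat.Agent.T1.CechFormal70 Fermat.Agent.T1B.Norm84

universe u

variable {W B0 B1 B01 B0' B1' B01' : Type u} [CommRing W]
  [CommRing B0] [CommRing B1] [CommRing B01] [Algebra W B0] [Algebra W B1] [Algebra W B01]
  [CommRing B0'] [CommRing B1'] [CommRing B01'] [Algebra W B0'] [Algebra W B1'] [Algebra W B01']
  -- the charts
  [Algebra B0 B01] [Algebra B1 B01] [IsScalarTower W B0 B01] [IsScalarTower W B1 B01]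
  [Algebra B0' B01'] [Algebra B1' B01'] [IsScalarTower W B0' B01'] [IsScalarTower W B1' B01']
  -- the finite projective morphism
  [Algebra B0' B0] [Algebra B1' B1] [Algebra B01' B01]
  [IsScalarTower W B0' B0] [IsScalarTower W B1' B1] [IsScalarTower W B01' B01]
  [Algebra B0' B01] [Algebra B1' B01]
  [IsScalarTower B0' B01' B01] [IsScalarTower B0' B0 B01]
  [IsScalarTower B1' B01' B01] [IsScalarTower B1' B1 B01]
  [IsScalarTower W B0' B01] [IsScalarTower W B1' B01]
  [Module.Finite B0' B0] [Module.Projective B0' B0]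
  [Module.Finite B1' B1] [Module.Projective B1' B1]
  [Module.Finite B01' B01] [Module.Projective B01' B01]
  [Algebra.IsPushout B0' B01' B0 B01] [Algebra.IsPushout B1' B01' B1 B01]
  {g g' : ℕ} (D : CechData W B0 B1 B01 g) (D' : CechData W B0' B1' B01' g')
  (hρ0 : ∀ x, D.ρ0 x = algebraMap B0 B01 x) (hρ1 : ∀ x, D.ρ1 x = algebraMap B1 B01 x)
  (hρ0' : ∀ x, D'.ρ0 x = algebraMap B0' B01' x) (hρ1' : ∀ x, D'.ρ1 x = algebraMap B1' B01' x)

theorem eI_eq_smul_top {R : Type u} [CommRing R] (I : Ideal R) (T : Type u) [CommRing T]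
    [Algebra R T] (x : T) : x ∈ eI I T ↔ x ∈ I • (⊤ : Submodule R T) := by
  unfold eI
  rw [Ideal.smul_top_eq_map]
  rfl

include hρ0 hρ1 hρ0' hρ1' in
/-- **The Čech norm system of a finite projective morphism of two-chart data.** -/
def NormSys.ofProj : NormSys D D' where
  N01 R _ _ := tnorm W R B01' B01
  N0 R _ _ := tnorm W R B0' B0
  N1 R _ _ := tnorm W R B1' B1
  trMap := ttr W B01' B01
  res0 R _ _ x := by
    have h1 : D.ρ0 = IsScalarTower.toAlgHom W B0 B01 := AlgHom.ext hρ0
    have h2 : D'.ρ0 = IsScalarTower.toAlgHom W B0' B01' := AlgHom.ext hρ0'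
    rw [CechData.pkg_r0, CechData.pkg_r0]
    unfold CechData.r0R
    rw [h1, h2]
    exact tnorm_res W R B0' B01' B0 B01 x
  res1 R _ _ x := by
    have h1 : D.ρ1 = IsScalarTower.toAlgHom W B1 B01 := AlgHom.ext hρ1
    have h2 : D'.ρ1 = IsScalarTower.toAlgHom W B1' B01' := AlgHom.ext hρ1'
    rw [CechData.pkg_r1, CechData.pkg_r1]
    unfold CechData.r1R
    rw [h1, h2]
    exact tnorm_res W R B1' B01' B1 B01 x
  bc01 f x := tnorm_map W B01' B01 f x
  bc0 f x := tnorm_map W B0' B0 f x
  bc1 f x := tnorm_map W B1' B1 f x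
  sq_zero R _ _ I hI x hx :=
    tnorm_one_add_of_sq_zero W R B01' B01 I hI x ((eI_eq_smul_top I _ x).1 hx)
  trMap_res0 x := ⟨ttr W B0' B0 x, by rw [hρ0, ttr_res W B0' B01' B0 B01, hρ0']⟩
  trMap_res1 x := ⟨ttr W B1' B1 x, by rw [hρ1, ttr_res W B1' B01' B1 B01, hρ1']⟩

@[simp] theorem NormSys.ofProj_trMap :
    (NormSys.ofProj D D' hρ0 hρ1 hρ0' hρ1').trMap = ttr W B01' B01 := rfl

theorem NormSys.ofProj_N01 (R : Type u) [CommRing R] [Algebra W R] :
    (NormSys.ofProj D D' hρ0 hρ1 hρ0' hρ1').N01 R = tnorm W R B01' B01 := rfl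

/-- the first-order matrix of the Čech norm: the trace of the basis of `H¹`. -/
theorem NormSys.ofProj_jacMat (k : Fin g') (i : Fin g) :
    (NormSys.ofProj D D' hρ0 hρ1 hρ0' hρ1').jacMat k i
      = D'.coef (projTr B01' B01 (D.b i)) k := rfl

/-! ### Hom form: a finite projective morphism of two-chart data -/

section ChartMor

variable (W B0 B1 B01 B0' B1' B01' : Type u) [CommRing W]
  [CommRing B0] [CommRing B1] [CommRing B01] [Algebra W B0] [Algebra W B1] [Algebra W B01]
  [CommRing B0'] [CommRing B1'] [CommRing B01'] [Algebra W B0'] [Algebra W B1'] [Algebra W B01']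
  [Algebra B0 B01] [Algebra B1 B01] [IsScalarTower W B0 B01] [IsScalarTower W B1 B01]
  [Algebra B0' B01'] [Algebra B1' B01'] [IsScalarTower W B0' B01'] [IsScalarTower W B1' B01']

/-- **A finite projective morphism of two-chart data** `(B0, B1, B01) ← (B0', B1', B01')`, in hom form
(no algebra instance between primed and unprimed rings is assumed): `W`-algebra maps `α_j` compatible
with the restrictions, `α_0, α_1` finite projective, and the overlap of each datum is the localisation
of chart `j` at an element `t_j` (resp. its image): the charts upstairs are the preimages of the charts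
downstairs. -/
structure ChartMor where
  α0 : B0' →ₐ[W] B0
  α1 : B1' →ₐ[W] B1
  α01 : B01' →ₐ[W] B01
  comm0 : ∀ x, α01 (algebraMap B0' B01' x) = algebraMap B0 B01 (α0 x)
  comm1 : ∀ x, α01 (algebraMap B1' B01' x) = algebraMap B1 B01 (α1 x)
  fin0 : (α0 : B0' →+* B0).Finite
  fin1 : (α1 : B1' →+* B1).Finite
  proj0 : letI := (α0 : B0' →+* B0).toAlgebra; Module.Projective B0' B0
  proj1 : letI := (α1 : B1' →+* B1).toAlgebra; Module.Projective B1' B1
  t0 : B0'
  t1 : B1'
  loc0' : IsLocalization.Away t0 B01'
  loc0 : IsLocalization.Away (α0 t0) B01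
  loc1' : IsLocalization.Away t1 B01'
  loc1 : IsLocalization.Away (α1 t1) B01

namespace ChartMor

variable {W B0 B1 B01 B0' B1' B01'}
variable (M : ChartMor W B0 B1 B01 B0' B1' B01')

/-- `B0` as a `B0'`-algebra. -/
@[reducible] def alg0 : Algebra B0' B0 := (M.α0 : B0' →+* B0).toAlgebra
/-- `B1` as a `B1'`-algebra. -/
@[reducible] def alg1 : Algebra B1' B1 := (M.α1 : B1' →+* B1).toAlgebra
/-- `B01` as a `B01'`-algebra. -/
@[reducible] def alg01 : Algebra B01' B01 := (M.α01 : B01' →+* B01).toAlgebra
/-- `B01` as a `B0'`-algebra. -/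
@[reducible] def algc0 : Algebra B0' B01 :=
  ((algebraMap B0 B01).comp (M.α0 : B0' →+* B0)).toAlgebra
/-- `B01` as a `B1'`-algebra. -/
@[reducible] def algc1 : Algebra B1' B01 :=
  ((algebraMap B1 B01).comp (M.α1 : B1' →+* B1)).toAlgebra

theorem towerW0 : letI := M.alg0; IsScalarTower W B0' B0 := by
  letI := M.alg0
  exact IsScalarTower.of_algebraMap_eq' M.α0.comp_algebraMap.symm

theorem towerW1 : letI := M.alg1; IsScalarTower W B1' B1 := by
  letI := M.alg1
  exact IsScalarTower.of_algebraMap_eq' M.α1.comp_algebraMap.symm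

theorem towerW01 : letI := M.alg01; IsScalarTower W B01' B01 := by
  letI := M.alg01
  exact IsScalarTower.of_algebraMap_eq' M.α01.comp_algebraMap.symm

theorem tower0 : letI := M.alg0; letI := M.algc0; IsScalarTower B0' B0 B01 := by
  letI := M.alg0; letI := M.algc0
  exact IsScalarTower.of_algebraMap_eq fun _ => rfl

theorem tower1 : letI := M.alg1; letI := M.algc1; IsScalarTower B1' B1 B01 := by
  letI := M.alg1; letI := M.algc1
  exact IsScalarTower.of_algebraMap_eq fun _ => rfl

theorem tower0' : letI := M.alg01; letI := M.algc0; IsScalarTower B0' B01' B01 := by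
  letI := M.alg01; letI := M.algc0
  exact IsScalarTower.of_algebraMap_eq fun x => (M.comm0 x).symm

theorem tower1' : letI := M.alg01; letI := M.algc1; IsScalarTower B1' B01' B01 := by
  letI := M.alg01; letI := M.algc1
  exact IsScalarTower.of_algebraMap_eq fun x => (M.comm1 x).symm

theorem towerWc0 : letI := M.algc0; IsScalarTower W B0' B01 := by
  letI := M.algc0
  refine IsScalarTower.of_algebraMap_eq fun w => ?_
  show algebraMap W B01 w = algebraMap B0 B01 (M.α0 (algebraMap W B0' w))
  rw [M.α0.commutes, ← IsScalarTower.algebraMap_apply W B0 B01]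

theorem towerWc1 : letI := M.algc1; IsScalarTower W B1' B01 := by
  letI := M.algc1
  refine IsScalarTower.of_algebraMap_eq fun w => ?_
  show algebraMap W B01 w = algebraMap B1 B01 (M.α1 (algebraMap W B1' w))
  rw [M.α1.commutes, ← IsScalarTower.algebraMap_apply W B1 B01]

theorem finite0 : letI := M.alg0; Module.Finite B0' B0 := M.fin0
theorem finite1 : letI := M.alg1; Module.Finite B1' B1 := M.fin1
theorem projective0 : letI := M.alg0; Module.Projective B0' B0 := M.proj0
theorem projective1 : letI := M.alg1; Module.Projective B1' B1 := M.proj1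

theorem isPushout0 : letI := M.alg0; letI := M.alg01; letI := M.algc0
    haveI := M.tower0; haveI := M.tower0'
    Algebra.IsPushout B0' B01' B0 B01 := by
  letI := M.alg0; letI := M.alg01; letI := M.algc0
  haveI := M.tower0; haveI := M.tower0'
  have h1 : IsLocalization (Submonoid.powers M.t0) B01' := M.loc0'
  have h2 : IsLocalization (Algebra.algebraMapSubmonoid B0 (Submonoid.powers M.t0)) B01 := by
    have : Algebra.algebraMapSubmonoid B0 (Submonoid.powers M.t0)
        = Submonoid.powers (M.α0 M.t0) := by
      unfold Algebra.algebraMapSubmonoid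
      rw [Submonoid.map_powers]
      rfl
    rw [this]
    exact M.loc0
  exact (Algebra.isPushout_of_isLocalization (Submonoid.powers M.t0) B01' B0 B01).symm

theorem isPushout1 : letI := M.alg1; letI := M.alg01; letI := M.algc1
    haveI := M.tower1; haveI := M.tower1'
    Algebra.IsPushout B1' B01' B1 B01 := by
  letI := M.alg1; letI := M.alg01; letI := M.algc1
  haveI := M.tower1; haveI := M.tower1'
  have h1 : IsLocalization (Submonoid.powers M.t1) B01' := M.loc1'
  have h2 : IsLocalization (Algebra.algebraMapSubmonoid B1 (Submonoid.powers M.t1)) B01 := by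
    have : Algebra.algebraMapSubmonoid B1 (Submonoid.powers M.t1)
        = Submonoid.powers (M.α1 M.t1) := by
      unfold Algebra.algebraMapSubmonoid
      rw [Submonoid.map_powers]
      rfl
    rw [this]
    exact M.loc1
  exact (Algebra.isPushout_of_isLocalization (Submonoid.powers M.t1) B01' B1 B01).symm

theorem finite01 : letI := M.alg01; Module.Finite B01' B01 := by
  letI := M.alg0; letI := M.alg01; letI := M.algc0
  haveI := M.tower0; haveI := M.tower0'; haveI := M.finite0; haveI := M.isPushout0
  exact finite_of_isPushout (R := B0') (S := B01') (C := B0) (C' := B01)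

theorem projective01 : letI := M.alg01; Module.Projective B01' B01 := by
  letI := M.alg0; letI := M.alg01; letI := M.algc0
  haveI := M.tower0; haveI := M.tower0'; haveI := M.projective0; haveI := M.isPushout0
  exact projective_of_isPushout (R := B0') (S := B01') (C := B0) (C' := B01)

variable {g g' : ℕ} (D : CechData W B0 B1 B01 g) (D' : CechData W B0' B1' B01' g')
  (hρ0 : ∀ x, D.ρ0 x = algebraMap B0 B01 x) (hρ1 : ∀ x, D.ρ1 x = algebraMap B1 B01 x)
  (hρ0' : ∀ x, D'.ρ0 x = algebraMap B0' B01' x) (hρ1' : ∀ x, D'.ρ1 x = algebraMap B1' B01' x)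

/-- **The Čech norm system of a finite projective morphism of two-chart data** (hom form). -/
def normSys : NormSys D D' :=
  letI := M.alg0; letI := M.alg1; letI := M.alg01; letI := M.algc0; letI := M.algc1
  haveI := M.towerW0; haveI := M.towerW1; haveI := M.towerW01
  haveI := M.tower0; haveI := M.tower1; haveI := M.tower0'; haveI := M.tower1'
  haveI := M.towerWc0; haveI := M.towerWc1
  haveI := M.finite0; haveI := M.finite1; haveI := M.projective0; haveI := M.projective1
  haveI := M.finite01; haveI := M.projective01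
  haveI := M.isPushout0; haveI := M.isPushout1
  NormSys.ofProj D D' hρ0 hρ1 hρ0' hρ1'

/-- the trace of the norm system is `projTr B01' B01` for the algebra structure `M.alg01`. -/
theorem normSys_trMap (x : B01) :
    letI := M.alg01; haveI := M.finite01; haveI := M.projective01
    (M.normSys D D' hρ0 hρ1 hρ0' hρ1').trMap x = projTr B01' B01 x := rfl

/-- the norm on `R ⊗ B01` is helper84's `tnorm` for the algebra structure `M.alg01`. -/
theorem normSys_N01 (R : Type u) [CommRing R] [Algebra W R] :
    letI := M.alg01; haveI := M.towerW01; haveI := M.finite01; haveI := M.projective01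
    (M.normSys D D' hρ0 hρ1 hρ0' hρ1').N01 R = tnorm W R B01' B01 := rfl

theorem normSys_jacMat (k : Fin g') (i : Fin g) :
    letI := M.alg01; haveI := M.finite01; haveI := M.projective01
    (M.normSys D D' hρ0 hρ1 hρ0' hρ1').jacMat k i = D'.coef (projTr B01' B01 (D.b i)) k := rfl

end ChartMor

end ChartMor

end Fermat.Agent.T1B.Toric11
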