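/-
T1B / TORIC50 (helper11): **builder of `ChartMor` from subalgebra data** (separable piece of
NORM-MODEL part B, spec by helper99).

`Phi : F' →ₐ[R] F` a map of fields (a degeneracy map `alpha` or `beta` of function fields), charts
`B0', B1' ⊂ F'` (level `M'`) and `B0, B1 ⊂ F` (level `M'p`) with `Phi(B_j') ⊂ B_j`, a coordinate
`t ∈ B0'`, `t⁻¹ ∈ B1'` such that the overlaps are `B0'[1/t] = B1'[1/t⁻¹] = B0' ⊔ B1'` and
`B0[1/Phi t] = B1[1/(Phi t)⁻¹] = B0 ⊔ B1` (hypotheses `ov*` in the shape of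
`TwoChartModel.ov0/ov1`), and `B_j` finite projective over `B_j'` through `Phi`
(`NormModel99.ChartFinite`, `ChartProjective`).  Output: `chartMorOfSub … : ChartMor …` on the rings
`↥B0, ↥B1, ↥(B0 ⊔ B1)`, `↥B0', ↥B1', ↥(B0' ⊔ B1')` with the algebra structures `Coh60.algebra0/1`.
-/
import Mathlib
import Fermat.Agent.T1B.Toric11.NormProj
import Fermat.Agent.T1B.NormModel99.ChartProj
import Fermat.Agent.T1.Coh60.ModelLine

set_option autoImplicit false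
set_option maxHeartbeats 400000
set_option linter.unusedSectionVars false
set_option linter.unusedVariables false
set_option linter.style.haveILetI false

noncomputable section

namespace Fermat.Agent.T1B.Toric11

open Fermat.Agent.T1.ModelCoh30 Fermat.Agent.T1.Coh60 Fermat.Agent.T1B.NormModel99

universe u

section Sub

variable {R F : Type u} [CommRing R] [Field F] [Algebra R F]

/-- if `B1 ⊂ B0[1/t]` then `B0 ⊔ B1 ⊂ B0[1/t]`. -/
theorem exists_pow_mul_mem_of_mem_sup {B0 B1 : Subalgebra R F} {t : F} (ht0 : t ∈ B0)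
    (ov0 : ∀ x ∈ B1, ∃ k : ℕ, t ^ k * x ∈ B0) {x : F} (hx : x ∈ B0 ⊔ B1) :
    ∃ k : ℕ, t ^ k * x ∈ B0 := by
  have hle : B0 ⊔ B1 ≤ awaySub t B0 ht0 := by
    apply sup_le
    · intro y hy
      exact ⟨0, by simpa using hy⟩
    · intro y hy
      exact ov0 y hy
  exact hle hx

/-- symmetric version: if `B0 ⊂ B1[1/s]` then `B0 ⊔ B1 ⊂ B1[1/s]`. -/
theorem exists_pow_mul_mem_of_mem_sup' {B0 B1 : Subalgebra R F} {s : F} (hs1 : s ∈ B1)
    (ov1 : ∀ x ∈ B0, ∃ k : ℕ, s ^ k * x ∈ B1) {x : F} (hx : x ∈ B0 ⊔ B1) :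
    ∃ k : ℕ, s ^ k * x ∈ B1 := by
  have hle : B0 ⊔ B1 ≤ awaySub s B1 hs1 := by
    apply sup_le
    · intro y hy
      exact ov1 y hy
    · intro y hy
      exact ⟨0, by simpa using hy⟩
  exact hle hx

end Sub

section Builder

variable {R F' F : Type u} [CommRing R] [Field F'] [Field F] [Algebra R F'] [Algebra R F]
  (Phi : F' →ₐ[R] F) (B0' B1' : Subalgebra R F') (B0 B1 : Subalgebra R F)
  (h0 : ∀ b : ↥B0', (Phi.comp B0'.val) b ∈ B0) (h1 : ∀ b : ↥B1', (Phi.comp B1'.val) b ∈ B1)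

include h0 h1 in
theorem phi_mem_sup (x : ↥(B0' ⊔ B1')) : (Phi.comp (B0' ⊔ B1').val) x ∈ B0 ⊔ B1 := by
  have hle : (B0' ⊔ B1').map Phi ≤ B0 ⊔ B1 := by
    rw [Algebra.map_sup]
    apply sup_le
    · rintro _ ⟨y, hy, rfl⟩
      exact (le_sup_left : B0 ≤ B0 ⊔ B1) (h0 ⟨y, hy⟩)
    · rintro _ ⟨y, hy, rfl⟩
      exact (le_sup_right : B1 ≤ B0 ⊔ B1) (h1 ⟨y, hy⟩)
  exact hle ⟨x, x.2, rfl⟩

/-- **`ChartMor` from subalgebra data.** -/
def chartMorOfSub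
    (t : F') (ht : t ≠ 0) (ht0 : t ∈ B0') (ht1 : t⁻¹ ∈ B1')
    (ov0' : ∀ x ∈ B1', ∃ k : ℕ, t ^ k * x ∈ B0') (ov1' : ∀ x ∈ B0', ∃ k : ℕ, t⁻¹ ^ k * x ∈ B1')
    (ov0 : ∀ x ∈ B1, ∃ k : ℕ, Phi t ^ k * x ∈ B0) (ov1 : ∀ x ∈ B0, ∃ k : ℕ, (Phi t)⁻¹ ^ k * x ∈ B1)
    (fin0 : ChartFinite (Phi.comp B0'.val) B0 h0) (proj0 : ChartProjective (Phi.comp B0'.val) B0 h0)
    (fin1 : ChartFinite (Phi.comp B1'.val) B1 h1) (proj1 : ChartProjective (Phi.comp B1'.val) B1 h1) :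
    letI := algebra0 B0 B1
    letI := algebra1 B0 B1
    haveI := isScalarTower0 B0 B1
    haveI := isScalarTower1 B0 B1
    letI := algebra0 B0' B1'
    letI := algebra1 B0' B1'
    haveI := isScalarTower0 B0' B1'
    haveI := isScalarTower1 B0' B1'
    ChartMor R ↥B0 ↥B1 ↥(B0 ⊔ B1) ↥B0' ↥B1' ↥(B0' ⊔ B1') :=
  letI := algebra0 B0 B1
  letI := algebra1 B0 B1
  haveI := isScalarTower0 B0 B1
  haveI := isScalarTower1 B0 B1
  letI := algebra0 B0' B1'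
  letI := algebra1 B0' B1'
  haveI := isScalarTower0 B0' B1'
  haveI := isScalarTower1 B0' B1'
  have hPt : Phi t ≠ 0 := (map_ne_zero Phi).2 ht
  have hPinv : Phi t⁻¹ = (Phi t)⁻¹ := map_inv₀ Phi t
  { α0 := (Phi.comp B0'.val).codRestrict B0 h0
    α1 := (Phi.comp B1'.val).codRestrict B1 h1
    α01 := (Phi.comp (B0' ⊔ B1').val).codRestrict (B0 ⊔ B1) (phi_mem_sup Phi B0' B1' B0 B1 h0 h1)
    comm0 := fun x => Subtype.ext rfl
    comm1 := fun x => Subtype.ext rfl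
    fin0 := fin0
    fin1 := fin1
    proj0 := proj0
    proj1 := proj1
    t0 := ⟨t, ht0⟩
    t1 := ⟨t⁻¹, ht1⟩
    loc0' := away_of_le le_sup_left ht0 ht ((le_sup_right : B1' ≤ B0' ⊔ B1') ht1)
      (fun x hx => exists_pow_mul_mem_of_mem_sup ht0 ov0' hx)
    loc0 := away_of_le le_sup_left (h0 ⟨t, ht0⟩) hPt
      (by
        have : (Phi t)⁻¹ ∈ B1 := by rw [← hPinv]; exact h1 ⟨t⁻¹, ht1⟩
        exact (le_sup_right : B1 ≤ B0 ⊔ B1) this)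
      (fun x hx => exists_pow_mul_mem_of_mem_sup (h0 ⟨t, ht0⟩) ov0 hx)
    loc1' := away_of_le le_sup_right ht1 (inv_ne_zero ht)
      (by rw [inv_inv]; exact (le_sup_left : B0' ≤ B0' ⊔ B1') ht0)
      (fun x hx => exists_pow_mul_mem_of_mem_sup' ht1 ov1' hx)
    loc1 := away_of_le le_sup_right (h1 ⟨t⁻¹, ht1⟩) ((map_ne_zero Phi).2 (inv_ne_zero ht))
      (by
        show (Phi t⁻¹)⁻¹ ∈ B0 ⊔ B1
        rw [hPinv, inv_inv]
        exact (le_sup_left : B0 ≤ B0 ⊔ B1) (h0 ⟨t, ht0⟩))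
      (fun x hx => by
        have hs1 : Phi t⁻¹ ∈ B1 := h1 ⟨t⁻¹, ht1⟩
        refine exists_pow_mul_mem_of_mem_sup' hs1 (fun y hy => ?_) hx
        rw [hPinv]
        exact ov1 y hy) }

section Coe

attribute [local instance] algebra0 algebra1 isScalarTower0 isScalarTower1

variable (t : F') (ht : t ≠ 0) (ht0 : t ∈ B0') (ht1 : t⁻¹ ∈ B1')
    (ov0' : ∀ x ∈ B1', ∃ k : ℕ, t ^ k * x ∈ B0') (ov1' : ∀ x ∈ B0', ∃ k : ℕ, t⁻¹ ^ k * x ∈ B1')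
    (ov0 : ∀ x ∈ B1, ∃ k : ℕ, Phi t ^ k * x ∈ B0) (ov1 : ∀ x ∈ B0, ∃ k : ℕ, (Phi t)⁻¹ ^ k * x ∈ B1)
    (fin0 : ChartFinite (Phi.comp B0'.val) B0 h0) (proj0 : ChartProjective (Phi.comp B0'.val) B0 h0)
    (fin1 : ChartFinite (Phi.comp B1'.val) B1 h1) (proj1 : ChartProjective (Phi.comp B1'.val) B1 h1)

@[simp] theorem chartMorOfSub_α0_coe (b : ↥B0') :
    (((chartMorOfSub Phi B0' B1' B0 B1 h0 h1 t ht ht0 ht1 ov0' ov1' ov0 ov1 fin0 proj0 fin1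
      proj1).α0 b : ↥B0) : F) = Phi b := rfl

@[simp] theorem chartMorOfSub_α1_coe (b : ↥B1') :
    (((chartMorOfSub Phi B0' B1' B0 B1 h0 h1 t ht ht0 ht1 ov0' ov1' ov0 ov1 fin0 proj0 fin1
      proj1).α1 b : ↥B1) : F) = Phi b := rfl

@[simp] theorem chartMorOfSub_α01_coe (b : ↥(B0' ⊔ B1')) :
    (((chartMorOfSub Phi B0' B1' B0 B1 h0 h1 t ht ht0 ht1 ov0' ov1' ov0 ov1 fin0 proj0 fin1
      proj1).α01 b : ↥(B0 ⊔ B1)) : F) = Phi b := rfl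

@[simp] theorem chartMorOfSub_t0_coe :
    (((chartMorOfSub Phi B0' B1' B0 B1 h0 h1 t ht ht0 ht1 ov0' ov1' ov0 ov1 fin0 proj0 fin1
      proj1).t0 : ↥B0') : F') = t := rfl

@[simp] theorem chartMorOfSub_t1_coe :
    (((chartMorOfSub Phi B0' B1' B0 B1 h0 h1 t ht ht0 ht1 ov0' ov1' ov0 ov1 fin0 proj0 fin1
      proj1).t1 : ↥B1') : F') = t⁻¹ := rfl

end Coe

end Builder

end Fermat.Agent.T1B.Toric11
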