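/-
T1B / TORIC50 (helper11): **instantiation of `Toric50.Assemble.TowerInput`** for the pair of Čech norms
`βn2 Sα Sβ` (target `Jn D' 𝔪 n × Jn D' 𝔪 n`), from explicit hypotheses only.  All the remaining inputs
of the sub-cell TORIC50 are visible in the signature of `towerInput`:

* `Sα Sβ : NormSys D D'`                         -- NORM-JHAT (`ChartMor.normSys` for `α`, `β`)
* `ι`, `ι_pT`, `ι_smul`                          -- T-TORIC (`Toric50.Glue` + `Transport`)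
* `β_ι`                                          -- NORM-IOTA (`Norm84.Iota3`)
* `d`, `hι`                                      -- first order term of `ι` (`GlueData.iota_firstOrder`)
* `P`, `S`, `hP`, `hS`                           -- T-LIN (`Toric98.exists_P_S_of_fibre`)
* `ρ`, `χ`, `hχ`                                 -- T-GAL (`ToricGal65`), cyclotomic character on `μ_p(O)`
* `hInj`                                         -- COORD-INJ (`CoordInj23`)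
* `hfin0`, `hnzd`                                -- T-ALG (`Alg81.exists_algebraisation`)
-/
import Mathlib
import Fermat.Agent.T1B.Toric50.Assemble
import Fermat.Agent.T1B.Toric11.FirstOrderT98
import Fermat.Agent.T1B.Toric11.AlgBridge
import Fermat.Agent.T1B.ToricGal65.InstU

set_option autoImplicit false
set_option maxHeartbeats 400000
set_option linter.unusedSectionVars false
set_option linter.unusedVariables false
set_option linter.style.haveILetI false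

open TensorProduct Polynomial

noncomputable section

namespace Fermat.Agent.T1B.Toric11

open Fermat.Agent.Jac Fermat.Agent.Jac.BaseChange75
open Fermat.Agent.T1.RedIface75 Fermat.Agent.T1.CechFormal70
open Fermat.Agent.T1B.Toric50 Fermat.Agent.T1B.Toric50.Assemble
open Fermat.Agent.T1B.Toric98 Fermat.Agent.T1B.ToricGal65
open scoped Fermat.Agent.Jac.BaseChange75

universe u

variable {W B0 B1 B01 B0' B1' B01' : Type u} [CommRing W] [CommRing B0] [CommRing B1] [CommRing B01]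
  [Algebra W B0] [Algebra W B1] [Algebra W B01] [Algebra B0 B01] [Algebra B1 B01]
  [IsScalarTower W B0 B01] [IsScalarTower W B1 B01]
  [CommRing B0'] [CommRing B1'] [CommRing B01'] [Algebra W B0'] [Algebra W B1'] [Algebra W B01']
  (c0 : TwoChart W B0 B1 B01) {g g' : ℕ} (D : CechData W B0 B1 B01 g)
  {D' : CechData W B0' B1' B01' g'}
  (hρ0 : ∀ x, D.ρ0 x = algebraMap B0 B01 x) (hρ1 : ∀ x, D.ρ1 x = algebraMap B1 B01 x)
  (O : Type u) [CommRing O] [IsDomain O] [IsDiscreteValuationRing O] [Algebra W O]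
  {G : Type u} [Group G]

local notation "𝔪O" => IsLocalRing.maximalIdeal O

/-- **The `TowerInput` of the pair of Čech norms**, from explicit hypotheses. -/
def towerInput (Sα Sβ : NormSys D D') (ρ : G →* (O ≃ₐ[W] O)) (p r : ℕ)
    (ι : ∀ n, Tn r 𝔪O n →* Jn D 𝔪O n)
    (ι_pT : ∀ n (z : Tn r 𝔪O (n + 1)), ι n (pT (W := W) r 𝔪O n z) = pJ D 𝔪O n (ι (n + 1) z))
    (ι_smul : ∀ n (s : G) (z : Tn r 𝔪O n),
      letI := actTn ρ r n
      letI := actJn ρ D n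
      ι n (s • z) = s • ι n z)
    (β_ι : ∀ n (z : Tn r 𝔪O n), βn2 Sα Sβ 𝔪O n (ι n z) = 1)
    (d : Fin r → B01)
    (hι : ∀ n (w : Fin r → kerI 𝔪O n), ∃ u : U01 (W := W) (B01 := B01) 𝔪O (n + 1),
      ((u : (Tr 𝔪O (n + 1) ⊗[W] B01)ˣ) : Tr 𝔪O (n + 1) ⊗[W] B01)
        = 1 + ∑ k, (w k : Tr 𝔪O (n + 1)) ⊗ₜ[W] d k ∧
      ι (n + 1) (lamT 𝔪O r n (Multiplicative.ofAdd w))
        = (D.pkg (Tr 𝔪O (n + 1))).cls (mQ 𝔪O (n + 1)) u)
    (𝔭 : Ideal W) (h𝔭 : ∀ c ∈ 𝔭, algebraMap W O c ∈ 𝔪O)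
    (P : Matrix (Fin r) (Fin g) W) (S : Matrix (Fin g) (Fin g' ⊕ Fin g') W)
    (hP : MatCongr 𝔭 (P * Dι D d) 1)
    (hS : MatCongr 𝔭 (Dι D d * P + S * Dβ D D' Sα.trMap Sβ.trMap) 1)
    (χ : G → ℕ) (hχ : ∀ (s : G) (ζ : O), ζ ^ p = 1 → ρ s ζ = ζ ^ χ s)
    (hInj : CoordInjective c0 O) [hc : IsAdicComplete 𝔪O O]
    (hfin0 : Module.Finite O[X] (Module.AEval O (O ⊗[W] B0) (c0.baseChange O).t))
    (hnzd : ∀ v : O ⊗[W] B01, v - 1 ∈ eI 𝔪O (O ⊗[W] B01) → v ∈ nonZeroDivisors (O ⊗[W] B01)) :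
    letI := j1Act c0 ρ
    letI := fun n => actJn ρ D n
    letI := fun n => actTn ρ r n
    letI := actTinf ρ r
    TowerInput c0 D hρ0 hρ1 O G p r (fun n => Jn D' 𝔪O n × Jn D' 𝔪O n) :=
  letI := j1Act c0 ρ
  letI := fun n => actJn ρ D n
  letI := fun n => actTn ρ r n
  letI := actTinf ρ r
  { pB := pJ2 𝔪O D'
    β := βn2 Sα Sβ 𝔪O
    ι := ι
    β_pJ := βn2_pJ Sα Sβ 𝔪O
    ι_pT := ι_pT
    β_ι := β_ι
    hfo := fun n => firstOrder_of_normPair 𝔪O Sα Sβ r n (ι (n + 1)) d (hι n) 𝔭 h𝔭 P S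
      (fun i j => hP i j) (fun i j => by rw [stackMat_eq_Dβ]; exact hS i j)
    χ := χ
    u_smul := fun n s y => uJ_smul c0 D hρ0 hρ1 O ρ n s y
    ι_smul := ι_smul
    q_smul := fun n s w => qT_smul ρ r n s w
    β_smul := fun n s x hx => normβn2_smul_eq_one ρ Sα Sβ n s x hx
    χ_spec := fun s w hw => chi_spec_Tinf ρ χ hχ r s w hw
    hInj := hInj
    complete := hc
    alg := fun w => package2_alg_of_nzd c0 D hρ0 hρ1 O hfin0 hnzd (pT (W := W) r 𝔪O) ι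
      (qT (W := W) r 𝔪O) ι_pT (qT_compat r 𝔪O) w }

/-- **(T-a), explicit form**: on the `p`-torsion of the formal kernel of the two Čech norms, `G` acts
through `χ`. -/
theorem toric_of_towerInput (Sα Sβ : NormSys D D') (ρ : G →* (O ≃ₐ[W] O)) (p r : ℕ)
    (ι : ∀ n, Tn r 𝔪O n →* Jn D 𝔪O n)
    (ι_pT : ∀ n (z : Tn r 𝔪O (n + 1)), ι n (pT (W := W) r 𝔪O n z) = pJ D 𝔪O n (ι (n + 1) z))
    (ι_smul : ∀ n (s : G) (z : Tn r 𝔪O n),
      letI := actTn ρ r n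
      letI := actJn ρ D n
      ι n (s • z) = s • ι n z)
    (β_ι : ∀ n (z : Tn r 𝔪O n), βn2 Sα Sβ 𝔪O n (ι n z) = 1)
    (d : Fin r → B01)
    (hι : ∀ n (w : Fin r → kerI 𝔪O n), ∃ u : U01 (W := W) (B01 := B01) 𝔪O (n + 1),
      ((u : (Tr 𝔪O (n + 1) ⊗[W] B01)ˣ) : Tr 𝔪O (n + 1) ⊗[W] B01)
        = 1 + ∑ k, (w k : Tr 𝔪O (n + 1)) ⊗ₜ[W] d k ∧
      ι (n + 1) (lamT 𝔪O r n (Multiplicative.ofAdd w))
        = (D.pkg (Tr 𝔪O (n + 1))).cls (mQ 𝔪O (n + 1)) u)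
    (𝔭 : Ideal W) (h𝔭 : ∀ c ∈ 𝔭, algebraMap W O c ∈ 𝔪O)
    (P : Matrix (Fin r) (Fin g) W) (S : Matrix (Fin g) (Fin g' ⊕ Fin g') W)
    (hP : MatCongr 𝔭 (P * Dι D d) 1)
    (hS : MatCongr 𝔭 (Dι D d * P + S * Dβ D D' Sα.trMap Sβ.trMap) 1)
    (χ : G → ℕ) (hχ : ∀ (s : G) (ζ : O), ζ ^ p = 1 → ρ s ζ = ζ ^ χ s)
    (hInj : CoordInjective c0 O) [hc : IsAdicComplete 𝔪O O]
    (hfin0 : Module.Finite O[X] (Module.AEval O (O ⊗[W] B0) (c0.baseChange O).t))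
    (hnzd : ∀ v : O ⊗[W] B01, v - 1 ∈ eI 𝔪O (O ⊗[W] B01) → v ∈ nonZeroDivisors (O ⊗[W] B01))
    (y : J1 c0 O) (hy : ∀ n, βn2 Sα Sβ 𝔪O n (uJ c0 D hρ0 hρ1 O n y) = 1) (hyp : y ^ p = 1)
    (s : G) :
    letI := j1Act c0 ρ
    s • y = y ^ χ s :=
  letI := j1Act c0 ρ
  letI := fun n => actJn ρ D n
  letI := fun n => actTn ρ r n
  letI := actTinf ρ r
  (towerInput c0 D hρ0 hρ1 O Sα Sβ ρ p r ι ι_pT ι_smul β_ι d hι 𝔭 h𝔭 P S hP hS χ hχ hInj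
    hfin0 hnzd).toric y hy hyp s

/-- **(T-b), explicit form**: every `p`-torsion point of the formal kernel is a toric point
`toricPoint w` with `w ∈ μ_p(O)^r`, and `toricPoint` is an injective equivariant homomorphism
`(1 + 𝔪)^r →* J̃¹(O)` whose truncations are `ι n (q n w)`. -/
theorem exists_toricPoint_of_towerInput (Sα Sβ : NormSys D D') (ρ : G →* (O ≃ₐ[W] O)) (p r : ℕ)
    (ι : ∀ n, Tn r 𝔪O n →* Jn D 𝔪O n)
    (ι_pT : ∀ n (z : Tn r 𝔪O (n + 1)), ι n (pT (W := W) r 𝔪O n z) = pJ D 𝔪O n (ι (n + 1) z))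
    (ι_smul : ∀ n (s : G) (z : Tn r 𝔪O n),
      letI := actTn ρ r n
      letI := actJn ρ D n
      ι n (s • z) = s • ι n z)
    (β_ι : ∀ n (z : Tn r 𝔪O n), βn2 Sα Sβ 𝔪O n (ι n z) = 1)
    (d : Fin r → B01)
    (hι : ∀ n (w : Fin r → kerI 𝔪O n), ∃ u : U01 (W := W) (B01 := B01) 𝔪O (n + 1),
      ((u : (Tr 𝔪O (n + 1) ⊗[W] B01)ˣ) : Tr 𝔪O (n + 1) ⊗[W] B01)
        = 1 + ∑ k, (w k : Tr 𝔪O (n + 1)) ⊗ₜ[W] d k ∧
      ι (n + 1) (lamT 𝔪O r n (Multiplicative.ofAdd w))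
        = (D.pkg (Tr 𝔪O (n + 1))).cls (mQ 𝔪O (n + 1)) u)
    (𝔭 : Ideal W) (h𝔭 : ∀ c ∈ 𝔭, algebraMap W O c ∈ 𝔪O)
    (P : Matrix (Fin r) (Fin g) W) (S : Matrix (Fin g) (Fin g' ⊕ Fin g') W)
    (hP : MatCongr 𝔭 (P * Dι D d) 1)
    (hS : MatCongr 𝔭 (Dι D d * P + S * Dβ D D' Sα.trMap Sβ.trMap) 1)
    (χ : G → ℕ) (hχ : ∀ (s : G) (ζ : O), ζ ^ p = 1 → ρ s ζ = ζ ^ χ s)
    (hInj : CoordInjective c0 O) [hc : IsAdicComplete 𝔪O O]
    (hfin0 : Module.Finite O[X] (Module.AEval O (O ⊗[W] B0) (c0.baseChange O).t))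
    (hnzd : ∀ v : O ⊗[W] B01, v - 1 ∈ eI 𝔪O (O ⊗[W] B01) → v ∈ nonZeroDivisors (O ⊗[W] B01))
    (y : J1 c0 O) (hy : ∀ n, βn2 Sα Sβ 𝔪O n (uJ c0 D hρ0 hρ1 O n y) = 1) (hyp : y ^ p = 1) :
    ∃ w : Tinf r 𝔪O, w ^ p = 1 ∧
      ∀ n, uJ c0 D hρ0 hρ1 O n y = ι n (qT (W := W) r 𝔪O n w) := by
  letI := j1Act c0 ρ
  letI := fun n => actJn ρ D n
  letI := fun n => actTn ρ r n
  letI := actTinf ρ r
  set I := towerInput c0 D hρ0 hρ1 O Sα Sβ ρ p r ι ι_pT ι_smul β_ι d hι 𝔭 h𝔭 P S hP hS χ hχ hInj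
    hfin0 hnzd with hI
  obtain ⟨w, hw, hwy⟩ := I.exists_toricPoint_of_pow_eq_one y hy hyp
  refine ⟨w, hw, fun n => ?_⟩
  rw [← hwy]
  exact I.uJ_toricPoint w n

end Fermat.Agent.T1B.Toric11
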