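/-
T1B / TORIC50 (helper11), brick TORIC-NODAL-INPUT: THE TOWER INPUT ON THE NODAL CHART.

ONE definition composing, on the nodal two-chart model `NodalFacts23.nodalChart N`
(`N : NodalTwoChartModel R F π t B0 B1 O1 O2`, with number data `Dn : NodalNumData ..` and helper37's
`Hy : NodeNF37.ToricBaseInst.Hyp ..`):

* helper98's `Toric98.ToricBase.towerInput_of_fibre` (master assembly of helper50 with the node system
  (P3) and the first order input (O4) discharged),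
* helper37's `Hyp.toricBase` (the `ToricBase` on the nodal model) with `Hyp.satP`, `Hyp.satQ`,
* helper84's `Norm84.Iota.beta_iota_tower` (the field `β_ι`, from `ResNodeHyp` for the two chart
  morphisms `Mα`, `Mβ`; `Sα := Mα.normSys ..`, `Sβ := Mβ.normSys ..`),
* the model hypotheses `hInj` (`Toric11.numData_coordInjective_of_cechData`), `hfin0`
  (`Toric11.nodal_hfin0`) and `hnzd` (helper87's `Toric87.hnzd_of_finiteProjOverLine` applied to
  `Toric11.numData_finiteProjOverLine`).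

What is left as hypotheses is the FINAL TORIC MODEL CONTRACT (see the docstring of
`nodalTowerInput`).
-/
import Mathlib
import Fermat.Agent.T1B.Toric98.GlueNodeSys
import Fermat.Agent.T1B.Norm84.Iota9
import Fermat.Agent.T1B.Toric87.Nzd
import Fermat.Agent.T1B.NodeNF37.ToricBaseExtra
import Fermat.Agent.T1B.Toric11.NodalFin1

set_option autoImplicit false
set_option maxHeartbeats 400000
set_option linter.unusedSectionVars false
set_option linter.unusedVariables false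
set_option linter.style.haveILetI false

open Polynomial TensorProduct

noncomputable section

namespace Fermat.Agent.T1B.Toric11

open Fermat.Agent.ES.N34.NodalCore13 Fermat.Agent.ES.N34.NumData13 Fermat.Agent.Jac
open Fermat.Agent.Jac.BaseChange75
open Fermat.Agent.T1.Coh60 Fermat.Agent.T1.ModelCoh30 Fermat.Agent.T1B.NodalFacts23
open Fermat.Agent.T1B.NodalCoh30 Fermat.Agent.T1.CechFormal70 Fermat.Agent.T1.RedIface75
open Fermat.Agent.T1B.NodeNF37.ToricBaseInst Fermat.Agent.T1B.Toric98 Fermat.Agent.T1B.Toric50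
open Fermat.Agent.T1B.Toric50.Wrap Fermat.Agent.T1B.Toric50.Assemble Fermat.Agent.T1B.ToricGal65
open Fermat.Agent.T1B.Toric50.Master Fermat.Agent.T1B.Norm84.Iota
open scoped Fermat.Agent.Jac.BaseChange75

universe u

variable {R F : Type u} {K : Type*} [CommRing R] [Field K] [Field F] [Algebra R K] [Algebra K F]
  [Algebra R F] [IsScalarTower R K F]
variable {π : R} {t : F} {B0 B1 : Subalgebra R F} {O1 O2 : ValuationSubring F}
variable {B0' B1' B01' : Type u} [CommRing B0'] [CommRing B1'] [CommRing B01']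
  [Algebra R B0'] [Algebra R B1'] [Algebra R B01'] [Algebra B0' B01'] [Algebra B1' B01']
  [IsScalarTower R B0' B01'] [IsScalarTower R B1' B01']
variable {g g' : ℕ}

attribute [local instance] algebra0 algebra1 isScalarTower0 isScalarTower1

/-- The pointwise form of the compatibility `D.ρ0 = ρ0 B0 B1`. -/
theorem hρ0_apply {D : CechData R ↥B0 ↥B1 ↥(B0 ⊔ B1) g} (hρ0 : D.ρ0 = ρ0 B0 B1) (x : ↥B0) :
    D.ρ0 x = algebraMap ↥B0 ↥(B0 ⊔ B1) x := by
  rw [hρ0]; rfl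

/-- The pointwise form of the compatibility `D.ρ1 = ρ1 B0 B1`. -/
theorem hρ1_apply {D : CechData R ↥B0 ↥B1 ↥(B0 ⊔ B1) g} (hρ1 : D.ρ1 = ρ1 B0 B1) (x : ↥B1) :
    D.ρ1 x = algebraMap ↥B1 ↥(B0 ⊔ B1) x := by
  rw [hρ1]; rfl

/-- The norm system of a chart morphism onto the nodal chart. -/
abbrev nodalNormSys (M : ChartMor R ↥B0 ↥B1 ↥(B0 ⊔ B1) B0' B1' B01')
    (D : CechData R ↥B0 ↥B1 ↥(B0 ⊔ B1) g) (hρ0 : D.ρ0 = ρ0 B0 B1) (hρ1 : D.ρ1 = ρ1 B0 B1)
    (D' : CechData R B0' B1' B01' g')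
    (hρ0' : ∀ x, D'.ρ0 x = algebraMap B0' B01' x) (hρ1' : ∀ x, D'.ρ1 x = algebraMap B1' B01' x) :
    NormSys D D' :=
  M.normSys D D' (hρ0_apply hρ0) (hρ1_apply hρ1) hρ0' hρ1'

/-- **THE TOWER INPUT ON THE NODAL CHART.**  Hypotheses left (= the TORIC model contract):
* `Dn`, `Hy`, `hπ` : the nodal model with its number data, helper37's `Hyp`, `π` irreducible;
* `D`, `hρ0`, `hρ1` : a Čech datum on the nodal chart (restriction maps = inclusions);
  `D'`, `hρ0'`, `hρ1'` : the Čech datum of the target;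
* `Mα`, `Mβ` : the two degeneracy maps as finite projective morphisms of two-chart data;
* `FD`, `hsurj`, `hker`, `hev`, `hinj`, `hP`, `hQ` : the fibre datum (rational nodes);
* `α`, `β`, `hα0` … `hK2β` : the correspondence (K2); `node`, `hnode`, `e0`, `he0`, `hcov`;
* `Rα`, `Rβ` : helper84's residue-level hypotheses for `β_ι`;
* `O`, `hO`, `ρ`, `hc`, `p`, `χ`, `hχ` : the complete DVR with its Galois action. -/
def nodalTowerInput [IsDomain R] [IsDiscreteValuationRing R] [CharZero K]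
    [hmax : (Ideal.span {π}).IsMaximal] [Algebra.FiniteType R ↥B0] [Algebra.FiniteType R ↥B1]
    [Algebra.FiniteType R ↥(B0 ⊔ B1)]
    (hπ : Irreducible π) (Dn : NodalNumData R K F π t B0 B1 O1 O2) (Hy : Hyp π t B0 B1 O1 O2)
    (D : CechData R ↥B0 ↥B1 ↥(B0 ⊔ B1) g) (hρ0 : D.ρ0 = ρ0 B0 B1) (hρ1 : D.ρ1 = ρ1 B0 B1)
    (D' : CechData R B0' B1' B01' g')
    (hρ0' : ∀ x, D'.ρ0 x = algebraMap B0' B01' x) (hρ1' : ∀ x, D'.ρ1 x = algebraMap B1' B01' x)
    (Mα Mβ : ChartMor R ↥B0 ↥B1 ↥(B0 ⊔ B1) B0' B1' B01')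
    {En : Type} [DecidableEq En] {κ : Type u} [Field κ] [Algebra R κ]
    (FD : FibreDatum π D.ρ0 D.ρ1 En κ)
    (hsurj : Function.Surjective (algebraMap R κ))
    (hker : RingHom.ker (algebraMap R κ) = Ideal.span {π})
    (hev : ∀ e, FD.ev e (Hy.toricBase D hρ0 hρ1).s01 = 0)
    (hinj : ∀ e e', RingHom.ker (FD.ev e) = RingHom.ker (FD.ev e') → e = e')
    (hP : FD.P = (Hy.toricBase D hρ0 hρ1).P) (hQ : FD.Q = (Hy.toricBase D hρ0 hρ1).Q)
    (α β : B01' →ₗ[R] ↥(B0 ⊔ B1))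
    (hα0 : ∀ a : B0', ∃ a0 : ↥B0, α (D'.ρ0 a) = D.ρ0 a0)
    (hα1 : ∀ a : B1', ∃ a1 : ↥B1, α (D'.ρ1 a) = D.ρ1 a1)
    (hβ0 : ∀ a : B0', ∃ a0 : ↥B0, β (D'.ρ0 a) = D.ρ0 a0)
    (hβ1 : ∀ a : B1', ∃ a1 : ↥B1, β (D'.ρ1 a) = D.ρ1 a1)
    (hK2α : ∀ f : ↥(B0 ⊔ B1),
      α ((nodalNormSys Mα D hρ0 hρ1 D' hρ0' hρ1').trMap f) - f ∈ FD.P)
    (hK2β : ∀ f : ↥(B0 ⊔ B1),
      β ((nodalNormSys Mβ D hρ0 hρ1 D' hρ0' hρ1').trMap f) - f ∈ FD.Q)
    {r : ℕ} (node : Fin r → En) (hnode : Function.Injective node) (e0 : En)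
    (he0 : ∀ k, node k ≠ e0) (hcov : ∀ e, e ≠ e0 → ∃ k, node k = e)
    (O : Type u) [CommRing O] [IsDomain O] [IsDiscreteValuationRing O] [Algebra R O]
    (hO : algebraMap R O π ∈ IsLocalRing.maximalIdeal O)
    {G : Type u} [Group G] (ρ : G →* (O ≃ₐ[R] O))
    (hc : IsAdicComplete (IsLocalRing.maximalIdeal O) O) (p : ℕ) (χ : G → ℕ)
    (hχ : ∀ (s : G) (ζ : O), ζ ^ p = 1 → ρ s ζ = ζ ^ χ s)
    (Rα : ResNodeHyp (Hy.toricBase D hρ0 hρ1)
      ((Hy.toricBase D hρ0 hρ1).masterNodeSys FD hsurj hker hev hinj node hnode) O hO Mα D')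
    (Rβ : ResNodeHyp (Hy.toricBase D hρ0 hρ1)
      ((Hy.toricBase D hρ0 hρ1).masterNodeSys FD hsurj hker hev hinj node hnode) O hO Mβ D') :
    letI := j1Act (nodalChart Dn.model : _) ρ
    letI : ∀ n, MulDistribMulAction G (Jn D (IsLocalRing.maximalIdeal O) n) := fun n => actJn ρ D n
    letI : ∀ n, MulDistribMulAction G (Tn r (IsLocalRing.maximalIdeal O) n) :=
      fun n => actTn ρ r n
    letI := actTinf ρ r
    TowerInput (nodalChart Dn.model : _) D (hρ0_apply hρ0) (hρ1_apply hρ1) O G p r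
      (fun n => Jn D' (IsLocalRing.maximalIdeal O) n × Jn D' (IsLocalRing.maximalIdeal O) n) :=
  haveI : IsNoetherianRing R := Dn.model.noethR
  ToricBase.towerInput_of_fibre (nodalChart Dn.model : _) (hρ0_apply hρ0) (hρ1_apply hρ1)
    (Hy.toricBase D hρ0 hρ1) FD hsurj hker hev hinj hP hQ Hy.satP Hy.satQ
    (nodalNormSys Mα D hρ0 hρ1 D' hρ0' hρ1') (nodalNormSys Mβ D hρ0 hρ1 D' hρ0' hρ1')
    α β hα0 hα1 hβ0 hβ1 hK2α hK2β node hnode e0 he0 hcov O hO ρ hc p χ hχ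
    (beta_iota_tower Rα Rβ)
    (numData_coordInjective_of_cechData hπ Dn Hy D (hρ0_apply hρ0) (hρ1_apply hρ1) O)
    (nodal_hfin0 Dn.model O)
    (Fermat.Agent.T1B.Toric87.hnzd_of_finiteProjOverLine (nodalChart Dn.model : _)
      (numData_finiteProjOverLine hπ Dn Hy) O)

/-- **The tower input on the nodal chart, with all instance hypotheses discharged** from the model:
`(π)` maximal (`Hyp.isMaximal_span`), the three charts of finite type (`finiteType0`, `finiteType01`,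
and `finiteType1` through `fin1_of_numData`). -/
def nodalTowerInput' [IsDomain R] [IsDiscreteValuationRing R] [CharZero K]
    (hπ : Irreducible π) (Dn : NodalNumData R K F π t B0 B1 O1 O2) (Hy : Hyp π t B0 B1 O1 O2)
    (D : CechData R ↥B0 ↥B1 ↥(B0 ⊔ B1) g) (hρ0 : D.ρ0 = ρ0 B0 B1) (hρ1 : D.ρ1 = ρ1 B0 B1)
    (D' : CechData R B0' B1' B01' g')
    (hρ0' : ∀ x, D'.ρ0 x = algebraMap B0' B01' x) (hρ1' : ∀ x, D'.ρ1 x = algebraMap B1' B01' x)
    (Mα Mβ : ChartMor R ↥B0 ↥B1 ↥(B0 ⊔ B1) B0' B1' B01')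
    {En : Type} [DecidableEq En] {κ : Type u} [Field κ] [Algebra R κ]
    (FD : FibreDatum π D.ρ0 D.ρ1 En κ)
    (hsurj : Function.Surjective (algebraMap R κ))
    (hker : RingHom.ker (algebraMap R κ) = Ideal.span {π})
    (hev : ∀ e, FD.ev e (Hy.toricBase D hρ0 hρ1).s01 = 0)
    (hinj : ∀ e e', RingHom.ker (FD.ev e) = RingHom.ker (FD.ev e') → e = e')
    (hP : FD.P = (Hy.toricBase D hρ0 hρ1).P) (hQ : FD.Q = (Hy.toricBase D hρ0 hρ1).Q)
    (α β : B01' →ₗ[R] ↥(B0 ⊔ B1))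
    (hα0 : ∀ a : B0', ∃ a0 : ↥B0, α (D'.ρ0 a) = D.ρ0 a0)
    (hα1 : ∀ a : B1', ∃ a1 : ↥B1, α (D'.ρ1 a) = D.ρ1 a1)
    (hβ0 : ∀ a : B0', ∃ a0 : ↥B0, β (D'.ρ0 a) = D.ρ0 a0)
    (hβ1 : ∀ a : B1', ∃ a1 : ↥B1, β (D'.ρ1 a) = D.ρ1 a1)
    (hK2α : ∀ f : ↥(B0 ⊔ B1),
      α ((nodalNormSys Mα D hρ0 hρ1 D' hρ0' hρ1').trMap f) - f ∈ FD.P)
    (hK2β : ∀ f : ↥(B0 ⊔ B1),
      β ((nodalNormSys Mβ D hρ0 hρ1 D' hρ0' hρ1').trMap f) - f ∈ FD.Q)
    {r : ℕ} (node : Fin r → En) (hnode : Function.Injective node) (e0 : En)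
    (he0 : ∀ k, node k ≠ e0) (hcov : ∀ e, e ≠ e0 → ∃ k, node k = e)
    (O : Type u) [CommRing O] [IsDomain O] [IsDiscreteValuationRing O] [Algebra R O]
    (hO : algebraMap R O π ∈ IsLocalRing.maximalIdeal O)
    {G : Type u} [Group G] (ρ : G →* (O ≃ₐ[R] O))
    (hc : IsAdicComplete (IsLocalRing.maximalIdeal O) O) (p : ℕ) (χ : G → ℕ)
    (hχ : ∀ (s : G) (ζ : O), ζ ^ p = 1 → ρ s ζ = ζ ^ χ s) :
    haveI := Hy.isMaximal_span
    haveI := finiteType0 Dn.model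
    haveI := finiteType1 Dn.model (fin1_of_numData Dn (transMod_of_hyp Hy).1)
    haveI := finiteType01 Dn.model
    ∀ (Rα : ResNodeHyp (Hy.toricBase D hρ0 hρ1)
        ((Hy.toricBase D hρ0 hρ1).masterNodeSys FD hsurj hker hev hinj node hnode) O hO Mα D')
      (Rβ : ResNodeHyp (Hy.toricBase D hρ0 hρ1)
        ((Hy.toricBase D hρ0 hρ1).masterNodeSys FD hsurj hker hev hinj node hnode) O hO Mβ D'),
    letI := j1Act (nodalChart Dn.model : _) ρ
    letI : ∀ n, MulDistribMulAction G (Jn D (IsLocalRing.maximalIdeal O) n) := fun n => actJn ρ D n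
    letI : ∀ n, MulDistribMulAction G (Tn r (IsLocalRing.maximalIdeal O) n) :=
      fun n => actTn ρ r n
    letI := actTinf ρ r
    TowerInput (nodalChart Dn.model : _) D (hρ0_apply hρ0) (hρ1_apply hρ1) O G p r
      (fun n => Jn D' (IsLocalRing.maximalIdeal O) n × Jn D' (IsLocalRing.maximalIdeal O) n) :=
  haveI := Hy.isMaximal_span
  haveI := finiteType0 Dn.model
  haveI := finiteType1 Dn.model (fin1_of_numData Dn (transMod_of_hyp Hy).1)
  haveI := finiteType01 Dn.model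
  fun Rα Rβ => nodalTowerInput hπ Dn Hy D hρ0 hρ1 D' hρ0' hρ1' Mα Mβ FD hsurj hker hev hinj hP hQ
    α β hα0 hα1 hβ0 hβ1 hK2α hK2β node hnode e0 he0 hcov O hO ρ hc p χ hχ Rα Rβ

end Fermat.Agent.T1B.Toric11
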