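/-
T1B / TORIC50 (helper11), brick TORIC-NODAL-INPUT, final form: THE TOWER INPUT ON THE NODAL MODEL
with the fibre datum of helper98 (`Toric98.NodalModel.nodalFDFin`, nodes `Fin.castSucc`) and the
`W`-level hypotheses of helper84 (`Norm84.Iota.WNodeHyp`: regular norms, irreducible target fibre,
`RadHyp` at the nodes).

`nodalTowerInputRad` = helper98's `NodalModel.nodal_towerInput` with
* `c0 := nodalChart Dn.model`, `Sα := Mα.normSys ..`, `Sβ := Mβ.normSys ..`,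
* `β_ι := Norm84.Iota.beta_iota_tower_of_rad Rα Rβ`,
* `hInj := Toric11.numData_coordInjective_of_cechData`, `hfin0 := Toric11.nodal_hfin0`,
  `hnzd := Toric87.hnzd_of_finiteProjOverLine ∘ Toric11.numData_finiteProjOverLine`,
* the instance arguments (`(π)` maximal, finite type, noetherian) discharged from `Hy`, `Dn`.
-/
import Mathlib
import Fermat.Agent.T1B.Toric98.ModelTower
import Fermat.Agent.T1B.Norm84.Iota10
import Fermat.Agent.T1B.Toric11.NodalInput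

set_option autoImplicit false
set_option maxHeartbeats 400000
set_option linter.unusedSectionVars false
set_option linter.unusedVariables false
set_option linter.style.haveILetI false

open Polynomial TensorProduct

noncomputable section

namespace Fermat.Agent.T1B.Toric11

open Fermat.Agent.ES.N34.NodalCore13 Fermat.Agent.ES.N34.NumData13 Fermat.Agent.Jac
open Fermat.Agent.Jac.BaseChange75
open Fermat.Agent.T1.Coh60 Fermat.Agent.T1.ModelCoh30 Fermat.Agent.T1B.NodalFacts23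
open Fermat.Agent.T1B.NodalCoh30 Fermat.Agent.T1.CechFormal70 Fermat.Agent.T1.RedIface75
open Fermat.Agent.T1B.NodeNF37.ToricBaseInst Fermat.Agent.T1B.Toric98 Fermat.Agent.T1B.Toric50
open Fermat.Agent.T1B.Toric50.Wrap Fermat.Agent.T1B.Toric50.Assemble Fermat.Agent.T1B.ToricGal65
open Fermat.Agent.T1B.Toric50.Master Fermat.Agent.T1B.Norm84.Iota
open Fermat.Agent.T1B.Toric98.NodalModel
open scoped Fermat.Agent.Jac.BaseChange75

universe u

variable {R F : Type u} {K : Type*} [CommRing R] [Field K] [Field F] [Algebra R K] [Algebra K F]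
  [Algebra R F] [IsScalarTower R K F]
variable {π : R} {t : F} {B0 B1 : Subalgebra R F} {O1 O2 : ValuationSubring F}
variable {B0' B1' B01' : Type u} [CommRing B0'] [CommRing B1'] [CommRing B01']
  [Algebra R B0'] [Algebra R B1'] [Algebra R B01'] [Algebra B0' B01'] [Algebra B1' B01']
  [IsScalarTower R B0' B01'] [IsScalarTower R B1' B01']
variable {g g' : ℕ}

attribute [local instance] algebra0 algebra1 isScalarTower0 isScalarTower1

/-- **THE TOWER INPUT ON THE NODAL MODEL, FINAL FORM.**  Remaining hypotheses: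
the nodal model (`Dn`, `Hy`, `hπ`, `hκ1`, `hκ2`, `hrat`, `hstrong0`, `hstrong1`), the Čech data
(`D`, `D'`), the degeneracy maps (`Mα`, `Mβ`, `α`, `β`, `hα0` … `hβ1`), (K2) in elementwise form,
the complete DVR `O` with its Galois action (`hO`, `ρ`, `hc`, `p`, `χ`, `hχ`), and helper84's
`WNodeHyp` for `Mα`, `Mβ`. -/
def nodalTowerInputRad [IsDomain R] [IsDiscreteValuationRing R] [CharZero K]
    (hπ : Irreducible π) (Dn : NodalNumData R K F π t B0 B1 O1 O2) (Hy : Hyp π t B0 B1 O1 O2)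
    {κ : Type u} [Field κ] [Algebra R κ]
    (hsurj : Function.Surjective (algebraMap R κ))
    (hkκ : RingHom.ker (algebraMap R κ) = Ideal.span {π})
    (hκ1 : ResAlgClosed π O1) (hκ2 : ResAlgClosed π O2)
    (hrat : ∀ m ∈ nodes01 Hy, Function.Surjective (algebraMap R (↥(B0 ⊔ B1) ⧸ m)))
    (hstrong0 : ∀ m : Ideal ↥B0, m.IsMaximal → ¬ OffBranch π B0 O1 m → ¬ OffBranch π B0 O2 m →
      ∃ x y : ↥B0, (∃ o ∈ O2, (x : F) = algebraMap R F π * o) ∧
        (∃ o ∈ O1, (y : F) = algebraMap R F π * o) ∧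
        ∀ f ∈ m, ∃ d : ↥B0, d ∉ m ∧ ∃ a b e : ↥B0,
          d * f = a * x + b * y + algebraMap R ↥B0 π * e)
    (hstrong1 : ∀ m : Ideal ↥B1, m.IsMaximal → ¬ OffBranch π B1 O1 m → ¬ OffBranch π B1 O2 m →
      ∃ x y : ↥B1, (∃ o ∈ O2, (x : F) = algebraMap R F π * o) ∧
        (∃ o ∈ O1, (y : F) = algebraMap R F π * o) ∧
        ∀ f ∈ m, ∃ d : ↥B1, d ∉ m ∧ ∃ a b e : ↥B1,
          d * f = a * x + b * y + algebraMap R ↥B1 π * e)
    (D : CechData R ↥B0 ↥B1 ↥(B0 ⊔ B1) g) (hρ0 : D.ρ0 = ρ0 B0 B1) (hρ1 : D.ρ1 = ρ1 B0 B1)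
    (D' : CechData R B0' B1' B01' g')
    (hρ0' : ∀ x, D'.ρ0 x = algebraMap B0' B01' x) (hρ1' : ∀ x, D'.ρ1 x = algebraMap B1' B01' x)
    (Mα Mβ : ChartMor R ↥B0 ↥B1 ↥(B0 ⊔ B1) B0' B1' B01')
    (α β : B01' →ₗ[R] ↥(B0 ⊔ B1))
    (hα0 : ∀ a : B0', ∃ a0 : ↥B0, α (D'.ρ0 a) = D.ρ0 a0)
    (hα1 : ∀ a : B1', ∃ a1 : ↥B1, α (D'.ρ1 a) = D.ρ1 a1)
    (hβ0 : ∀ a : B0', ∃ a0 : ↥B0, β (D'.ρ0 a) = D.ρ0 a0)
    (hβ1 : ∀ a : B1', ∃ a1 : ↥B1, β (D'.ρ1 a) = D.ρ1 a1)
    (hK2α : ∀ f : ↥(B0 ⊔ B1), ∃ c ∈ O1,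
      ((α ((nodalNormSys Mα D hρ0 hρ1 D' hρ0' hρ1').trMap f) - f : ↥(B0 ⊔ B1)) : F) =
        algebraMap R F π * c)
    (hK2β : ∀ f : ↥(B0 ⊔ B1), ∃ c ∈ O2,
      ((β ((nodalNormSys Mβ D hρ0 hρ1 D' hρ0' hρ1').trMap f) - f : ↥(B0 ⊔ B1)) : F) =
        algebraMap R F π * c)
    (O : Type u) [CommRing O] [IsDomain O] [IsDiscreteValuationRing O] [Algebra R O]
    (hO : algebraMap R O π ∈ IsLocalRing.maximalIdeal O)
    {G : Type u} [Group G] (ρ : G →* (O ≃ₐ[R] O))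
    (hc : IsAdicComplete (IsLocalRing.maximalIdeal O) O) (p : ℕ) (χ : G → ℕ)
    (hχ : ∀ (s : G) (ζ : O), ζ ^ p = 1 → ρ s ζ = ζ ^ χ s) :
    haveI := Hy.isMaximal_span
    haveI := finiteType0 Dn.model
    haveI := finiteType1 Dn.model (fin1_of_numData Dn (transMod_of_hyp Hy).1)
    haveI := finiteType01 Dn.model
    ∀ (Rα : WNodeHyp (Hy.toricBase D hρ0 hρ1)
        (nodalFDFin Hy hsurj hkκ hκ1 hκ2 hrat hstrong0 hstrong1 D hρ0 hρ1)
        (Fin.castSucc : Fin (nodalR Hy) → _) O Mα D')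
      (Rβ : WNodeHyp (Hy.toricBase D hρ0 hρ1)
        (nodalFDFin Hy hsurj hkκ hκ1 hκ2 hrat hstrong0 hstrong1 D hρ0 hρ1)
        (Fin.castSucc : Fin (nodalR Hy) → _) O Mβ D'),
    letI := j1Act (nodalChart Dn.model : _) ρ
    letI : ∀ n, MulDistribMulAction G (Jn D (IsLocalRing.maximalIdeal O) n) := fun n => actJn ρ D n
    letI : ∀ n, MulDistribMulAction G (Tn (nodalR Hy) (IsLocalRing.maximalIdeal O) n) :=
      fun n => actTn ρ (nodalR Hy) n
    letI := actTinf ρ (nodalR Hy)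
    TowerInput (nodalChart Dn.model : _) D (hρ0_apply hρ0) (hρ1_apply hρ1) O G p (nodalR Hy)
      (fun n => Jn D' (IsLocalRing.maximalIdeal O) n × Jn D' (IsLocalRing.maximalIdeal O) n) :=
  haveI := Hy.isMaximal_span
  haveI := finiteType0 Dn.model
  haveI := finiteType1 Dn.model (fin1_of_numData Dn (transMod_of_hyp Hy).1)
  haveI := finiteType01 Dn.model
  haveI : IsNoetherianRing R := Dn.model.noethR
  fun Rα Rβ =>
    nodal_towerInput Hy hsurj hkκ hκ1 hκ2 hrat hstrong0 hstrong1 D hρ0 hρ1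
      (nodalChart Dn.model : _)
      (nodalNormSys Mα D hρ0 hρ1 D' hρ0' hρ1') (nodalNormSys Mβ D hρ0 hρ1 D' hρ0' hρ1')
      α β hα0 hα1 hβ0 hβ1 hK2α hK2β O hO ρ hc p χ hχ
      (beta_iota_tower_of_rad (hsurj := hsurj) (hker := hkκ)
        (hev := nodalFDFin_hev Hy hsurj hkκ hκ1 hκ2 hrat hstrong0 hstrong1 D hρ0 hρ1)
        (hinj := nodalFDFin_hinj Hy hsurj hkκ hκ1 hκ2 hrat hstrong0 hstrong1 D hρ0 hρ1)
        (hnode := Fin.castSucc_injective _) (hO := hO) Rα Rβ)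
      (numData_coordInjective_of_cechData hπ Dn Hy D (hρ0_apply hρ0) (hρ1_apply hρ1) O)
      (nodal_hfin0 Dn.model O)
      (Fermat.Agent.T1B.Toric87.hnzd_of_finiteProjOverLine (nodalChart Dn.model : _)
        (numData_finiteProjOverLine hπ Dn Hy) O)

end Fermat.Agent.T1B.Toric11
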