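/-
T1B / TORIC50 (helper11), brick TORIC-NODAL-INPUT, model form: THE TOWER INPUT ON THE NODAL MODEL
from `Cmp15.TargetHyp` (at `R` and at `O`) and helper84's `RadHyp` at the nodes.

`nodalTowerInputModel` = `Toric11.nodalTowerInputRad` with
`Rα, Rβ := Norm84.Iota.wNodeHyp_of_targetHyp ..` (helper84 `Norm84/ModelRad`), the target being a
two-chart datum `D'` on subalgebra charts `B0' B1'` of a second function field `F'`
(`D'.ρ_j = ModelCoh30.ρ_j B0' B1'`).  This is the shape of the hub plug: `Dn := numDataS H`,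
`D := DS H`, `D' := DT H`, `Mα, Mβ := MalphaS H, MbetaS H`, `TW, TO := Cmp15.targetHyp_of_model ..`,
`hrad_j := Toric87.RadItems.radHyp_chart{0,1}_of_items ..`.
-/
import Mathlib
import Fermat.Agent.T1B.Norm84.NodalBeta
import Fermat.Agent.T1B.Toric11.NodalInput2

set_option autoImplicit false
set_option maxHeartbeats 400000
set_option linter.unusedSectionVars false
set_option linter.unusedVariables false
set_option linter.style.haveILetI false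

open Polynomial TensorProduct

noncomputable section

namespace Fermat.Agent.T1B.Toric11

open Fermat.Agent.ES.N34.NodalCore13 Fermat.Agent.ES.N34.NumData13 Fermat.Agent.Jac
open Fermat.Agent.Jac.BaseChange75
open Fermat.Agent.T1.Coh60 Fermat.Agent.T1.ModelCoh30 Fermat.Agent.T1B.NodalFacts23
open Fermat.Agent.T1B.NodalCoh30 Fermat.Agent.T1.CechFormal70 Fermat.Agent.T1.RedIface75
open Fermat.Agent.T1B.NodeNF37.ToricBaseInst Fermat.Agent.T1B.Toric98 Fermat.Agent.T1B.Toric50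
open Fermat.Agent.T1B.Toric50.Wrap Fermat.Agent.T1B.Toric50.Assemble Fermat.Agent.T1B.ToricGal65
open Fermat.Agent.T1B.Toric50.Master Fermat.Agent.T1B.Norm84.Iota
open Fermat.Agent.T1B.Toric98.NodalModel
open scoped Fermat.Agent.Jac.BaseChange75

universe u

variable {R F F' : Type u} {K : Type*} [CommRing R] [Field K] [Field F] [Algebra R K]
  [Algebra K F] [Algebra R F] [IsScalarTower R K F] [Field F'] [Algebra R F']
variable {π : R} {t : F} {B0 B1 : Subalgebra R F} {O1 O2 : ValuationSubring F}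
  {B0' B1' : Subalgebra R F'}
variable {g g' : ℕ}

attribute [local instance] algebra0 algebra1 isScalarTower0 isScalarTower1

/-- The pointwise form of `D'.ρ0 = ρ0 B0' B1'`. -/
theorem hρ0'_apply {D' : CechData R ↥B0' ↥B1' ↥(B0' ⊔ B1') g'} (hρ0' : D'.ρ0 = ρ0 B0' B1')
    (x : ↥B0') : D'.ρ0 x = algebraMap ↥B0' ↥(B0' ⊔ B1') x := by
  rw [hρ0']; rfl

/-- The pointwise form of `D'.ρ1 = ρ1 B0' B1'`. -/
theorem hρ1'_apply {D' : CechData R ↥B0' ↥B1' ↥(B0' ⊔ B1') g'} (hρ1' : D'.ρ1 = ρ1 B0' B1')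
    (x : ↥B1') : D'.ρ1 x = algebraMap ↥B1' ↥(B0' ⊔ B1') x := by
  rw [hρ1']; rfl

/-- **THE TOWER INPUT ON THE NODAL MODEL, MODEL FORM**: `β_ι` from `TargetHyp` at `R` and at `O` and
`RadHyp` at the nodes for both degeneracy maps on both charts. -/
def nodalTowerInputModel [IsDomain R] [IsDiscreteValuationRing R] [CharZero K]
    (hπ : Irreducible π) (Dn : NodalNumData R K F π t B0 B1 O1 O2) (Hy : Hyp π t B0 B1 O1 O2)
    {κ : Type u} [Field κ] [Algebra R κ]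
    (hsurj : Function.Surjective (algebraMap R κ))
    (hkκ : RingHom.ker (algebraMap R κ) = Ideal.span {π})
    (hκ1 : ResAlgClosed π O1) (hκ2 : ResAlgClosed π O2)
    (hrat : ∀ m ∈ nodes01 Hy, Function.Surjective (algebraMap R (↥(B0 ⊔ B1) ⧸ m)))
    (hstrong0 : ∀ m : Ideal ↥B0, m.IsMaximal → ¬ OffBranch π B0 O1 m → ¬ OffBranch π B0 O2 m →
      ∃ x y : ↥B0, (∃ o ∈ O2, (x : F) = algebraMap R F π * o) ∧
        (∃ o ∈ O1, (y : F) = algebraMap R F π * o) ∧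
        ∀ f ∈ m, ∃ d : ↥B0, d ∉ m ∧ ∃ a b e : ↥B0,
          d * f = a * x + b * y + algebraMap R ↥B0 π * e)
    (hstrong1 : ∀ m : Ideal ↥B1, m.IsMaximal → ¬ OffBranch π B1 O1 m → ¬ OffBranch π B1 O2 m →
      ∃ x y : ↥B1, (∃ o ∈ O2, (x : F) = algebraMap R F π * o) ∧
        (∃ o ∈ O1, (y : F) = algebraMap R F π * o) ∧
        ∀ f ∈ m, ∃ d : ↥B1, d ∉ m ∧ ∃ a b e : ↥B1,
          d * f = a * x + b * y + algebraMap R ↥B1 π * e)
    (D : CechData R ↥B0 ↥B1 ↥(B0 ⊔ B1) g) (hρ0 : D.ρ0 = ρ0 B0 B1) (hρ1 : D.ρ1 = ρ1 B0 B1)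
    (D' : CechData R ↥B0' ↥B1' ↥(B0' ⊔ B1') g')
    (hρ0' : D'.ρ0 = ρ0 B0' B1') (hρ1' : D'.ρ1 = ρ1 B0' B1')
    (Mα Mβ : ChartMor R ↥B0 ↥B1 ↥(B0 ⊔ B1) ↥B0' ↥B1' ↥(B0' ⊔ B1'))
    (α β : ↥(B0' ⊔ B1') →ₗ[R] ↥(B0 ⊔ B1))
    (hα0 : ∀ a : ↥B0', ∃ a0 : ↥B0, α (D'.ρ0 a) = D.ρ0 a0)
    (hα1 : ∀ a : ↥B1', ∃ a1 : ↥B1, α (D'.ρ1 a) = D.ρ1 a1)
    (hβ0 : ∀ a : ↥B0', ∃ a0 : ↥B0, β (D'.ρ0 a) = D.ρ0 a0)
    (hβ1 : ∀ a : ↥B1', ∃ a1 : ↥B1, β (D'.ρ1 a) = D.ρ1 a1)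
    (hK2α : ∀ f : ↥(B0 ⊔ B1), ∃ c ∈ O1,
      ((α ((nodalNormSys Mα D hρ0 hρ1 D' (hρ0'_apply hρ0') (hρ1'_apply hρ1')).trMap f) - f :
        ↥(B0 ⊔ B1)) : F) = algebraMap R F π * c)
    (hK2β : ∀ f : ↥(B0 ⊔ B1), ∃ c ∈ O2,
      ((β ((nodalNormSys Mβ D hρ0 hρ1 D' (hρ0'_apply hρ0') (hρ1'_apply hρ1')).trMap f) - f :
        ↥(B0 ⊔ B1)) : F) = algebraMap R F π * c)
    (O : Type u) [CommRing O] [IsDomain O] [IsDiscreteValuationRing O] [Algebra R O]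
    (hO : algebraMap R O π ∈ IsLocalRing.maximalIdeal O)
    {G : Type u} [Group G] (ρ : G →* (O ≃ₐ[R] O))
    (hc : IsAdicComplete (IsLocalRing.maximalIdeal O) O) (p : ℕ) (χ : G → ℕ)
    (hχ : ∀ (s : G) (ζ : O), ζ ^ p = 1 → ρ s ζ = ζ ^ χ s)
    {ϖ : O} (hϖ : Irreducible ϖ)
    (TW : Fermat.Agent.T1B.Cmp15.TargetHyp D' R π)
    (TO : Fermat.Agent.T1B.Cmp15.TargetHyp D' O ϖ)
    (hrad0 : ∀ e, RadHyp Mα.α0
        (((nodalFDFin Hy hsurj hkκ hκ1 hκ2 hrat hstrong0 hstrong1 D hρ0 hρ1).ev e).comp D.ρ0) ∧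
      RadHyp Mβ.α0
        (((nodalFDFin Hy hsurj hkκ hκ1 hκ2 hrat hstrong0 hstrong1 D hρ0 hρ1).ev e).comp D.ρ0))
    (hrad1 : ∀ e, RadHyp Mα.α1
        (((nodalFDFin Hy hsurj hkκ hκ1 hκ2 hrat hstrong0 hstrong1 D hρ0 hρ1).ev e).comp D.ρ1) ∧
      RadHyp Mβ.α1
        (((nodalFDFin Hy hsurj hkκ hκ1 hκ2 hrat hstrong0 hstrong1 D hρ0 hρ1).ev e).comp D.ρ1)) :
    letI := j1Act (nodalChart Dn.model : _) ρ
    letI : ∀ n, MulDistribMulAction G (Jn D (IsLocalRing.maximalIdeal O) n) := fun n => actJn ρ D n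
    letI : ∀ n, MulDistribMulAction G (Tn (nodalR Hy) (IsLocalRing.maximalIdeal O) n) :=
      fun n => actTn ρ (nodalR Hy) n
    letI := actTinf ρ (nodalR Hy)
    TowerInput (nodalChart Dn.model : _) D (hρ0_apply hρ0) (hρ1_apply hρ1) O G p (nodalR Hy)
      (fun n => Jn D' (IsLocalRing.maximalIdeal O) n × Jn D' (IsLocalRing.maximalIdeal O) n) :=
  haveI := Hy.isMaximal_span
  haveI := finiteType0 Dn.model
  haveI := finiteType1 Dn.model (fin1_of_numData Dn (transMod_of_hyp Hy).1)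
  haveI := finiteType01 Dn.model
  have h0 : ∀ x, D.ρ0 x = algebraMap ↥B0 ↥(B0 ⊔ B1) x := Toric11.hρ0_apply hρ0
  have h1 : ∀ x, D.ρ1 x = algebraMap ↥B1 ↥(B0 ⊔ B1) x := Toric11.hρ1_apply hρ1
  have h0' : ∀ x, D'.ρ0 x = algebraMap ↥B0' ↥(B0' ⊔ B1') x := hρ0'_apply hρ0'
  have h1' : ∀ x, D'.ρ1 x = algebraMap ↥B1' ↥(B0' ⊔ B1') x := hρ1'_apply hρ1'
  have Rα : WNodeHyp (Hy.toricBase D hρ0 hρ1)
      (nodalFDFin Hy hsurj hkκ hκ1 hκ2 hrat hstrong0 hstrong1 D hρ0 hρ1) Fin.castSucc O Mα D' :=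
    wNodeHyp_of_targetHyp h0 h1 h0' h1' _ _ _ O Mα TW hϖ TO (fun k => (hrad0 _).1)
      (fun k => (hrad1 _).1)
  have Rβ : WNodeHyp (Hy.toricBase D hρ0 hρ1)
      (nodalFDFin Hy hsurj hkκ hκ1 hκ2 hrat hstrong0 hstrong1 D hρ0 hρ1) Fin.castSucc O Mβ D' :=
    wNodeHyp_of_targetHyp h0 h1 h0' h1' _ _ _ O Mβ TW hϖ TO (fun k => (hrad0 _).2)
      (fun k => (hrad1 _).2)
  nodalTowerInputRad hπ Dn Hy hsurj hkκ hκ1 hκ2 hrat hstrong0 hstrong1 D hρ0 hρ1 D'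
    (hρ0'_apply hρ0') (hρ1'_apply hρ1') Mα Mβ α β hα0 hα1 hβ0 hβ1 hK2α hK2β O hO ρ hc p χ hχ
    Rα Rβ

end Fermat.Agent.T1B.Toric11
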